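/-
Lib/TateLim (helper84): endomorphisms of a finite free `ℤ_p`-module from compatible
endomorphisms of its finite levels.

Setting: `Ta` a finite free `ℤ_[p]`-module, `J` an additive group and "level maps"
`π : ℕ → Ta →+ J` with

* (K) `π n t = 0 ↔ t ∈ p ^ n • Ta`,
* (C) `p • π (n + 1) t = π n t`.

(Think: `J = J₀(N)(ℚ̄)`, `Ta = T_p J`, `π n` = the projection `T_p J → J[p ^ n]`.)
Then

* `sep` / `eq_of_forall` : an element of `Ta` is determined by its images under all `π n`;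
* `exists_lift` : every additive `φ : J →+ J` preserving the ranges of the `π n` lifts to a
  `ℤ_[p]`-linear endomorphism `Φ` of `Ta` with `π n (Φ t) = φ (π n t)`.
-/
import Mathlib

set_option autoImplicit false

namespace Fermat.Agent.Lib.TateLim

variable {p : ℕ} [Fact p.Prime]

/-- `ℤ_p` is `p`-adically separated. -/
theorem padic_sep (x : ℤ_[p]) (h : ∀ n : ℕ, (p : ℤ_[p]) ^ n ∣ x) : x = 0 := by
  refine IsHausdorff.haus (inferInstance : IsHausdorff (IsLocalRing.maximalIdeal ℤ_[p]) ℤ_[p]) x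
    (fun n => ?_)
  rw [SModEq.sub_mem, sub_zero, smul_eq_mul, Ideal.mul_top, PadicInt.maximalIdeal_eq_span_p,
    Ideal.span_singleton_pow, Ideal.mem_span_singleton]
  exact h n

/-- `ℤ_p` is `p`-adically complete, in sequential form. -/
theorem padic_limit (c : ℕ → ℤ_[p]) (hc : ∀ n, (p : ℤ_[p]) ^ n ∣ c (n + 1) - c n) :
    ∃ L : ℤ_[p], ∀ n, ∃ w : ℤ_[p], L - c n = (p : ℤ_[p]) ^ n * w := by
  have hmono : ∀ m n, m ≤ n → (p : ℤ_[p]) ^ m ∣ c n - c m := by
    intro m n hmn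
    induction n, hmn using Nat.le_induction with
    | base => simp
    | succ n hmn ih =>
      have e : c (n + 1) - c m = (c (n + 1) - c n) + (c n - c m) := by ring
      rw [e]
      exact dvd_add ((pow_dvd_pow _ hmn).trans (hc n)) ih
  obtain ⟨L, hL⟩ := IsPrecomplete.prec
    (inferInstance : IsPrecomplete (IsLocalRing.maximalIdeal ℤ_[p]) ℤ_[p]) (f := c) (by
      intro m n hmn
      rw [SModEq.sub_mem, smul_eq_mul, Ideal.mul_top, PadicInt.maximalIdeal_eq_span_p,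
        Ideal.span_singleton_pow, Ideal.mem_span_singleton]
      have := hmono m n hmn
      rwa [← dvd_neg, neg_sub] at this)
  refine ⟨L, fun n => ?_⟩
  have h := hL n
  rw [SModEq.sub_mem, smul_eq_mul, Ideal.mul_top, PadicInt.maximalIdeal_eq_span_p,
    Ideal.span_singleton_pow, Ideal.mem_span_singleton] at h
  rw [← dvd_neg, neg_sub] at h
  exact h

section Module

variable {Ta : Type*} [AddCommGroup Ta] [Module ℤ_[p] Ta] [Module.Free ℤ_[p] Ta]
  [Module.Finite ℤ_[p] Ta]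

omit [Module.Finite ℤ_[p] Ta] in
/-- A finite free `ℤ_p`-module is `p`-adically separated. -/
theorem module_sep (t : Ta) (h : ∀ n : ℕ, ∃ w : Ta, t = (p : ℤ_[p]) ^ n • w) : t = 0 := by
  let b := Module.Free.chooseBasis ℤ_[p] Ta
  apply b.repr.injective
  ext i
  rw [map_zero, Finsupp.zero_apply]
  apply padic_sep
  intro n
  obtain ⟨w, hw⟩ := h n
  exact ⟨b.repr w i, by rw [hw, map_smul, Finsupp.smul_apply, smul_eq_mul]⟩

/-- A finite free `ℤ_p`-module is `p`-adically complete, in sequential form. -/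
theorem module_limit (s : ℕ → Ta)
    (hs : ∀ n, ∃ w : Ta, s (n + 1) - s n = (p : ℤ_[p]) ^ n • w) :
    ∃ L : Ta, ∀ n, ∃ w : Ta, L - s n = (p : ℤ_[p]) ^ n • w := by
  let b := Module.Free.chooseBasis ℤ_[p] Ta
  have hcoord : ∀ i, ∃ L : ℤ_[p], ∀ n, ∃ w : ℤ_[p],
      L - b.repr (s n) i = (p : ℤ_[p]) ^ n * w := by
    intro i
    apply padic_limit
    intro n
    obtain ⟨w, hw⟩ := hs n
    exact ⟨b.repr w i, by
      rw [← Finsupp.sub_apply, ← map_sub, hw, map_smul, Finsupp.smul_apply, smul_eq_mul]⟩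
  choose L hL using hcoord
  choose W hW using hL
  refine ⟨∑ i, L i • b i, fun n => ⟨∑ i, W i n • b i, ?_⟩⟩
  have hsn : ∑ i, b.repr (s n) i • b i = s n := b.sum_repr (s n)
  rw [Finset.smul_sum, ← hsn, ← Finset.sum_sub_distrib]
  refine Finset.sum_congr rfl fun i _ => ?_
  rw [← sub_smul, hW i n, mul_smul]

end Module

section LevelMaps

variable {Ta : Type*} [AddCommGroup Ta] [Module ℤ_[p] Ta]
variable {J : Type*} [AddCommGroup J] (π : ℕ → Ta →+ J)

/-- Under (K), `π n` kills `p ^ n • Ta`. -/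
theorem map_pow_smul (hK : ∀ n t, π n t = 0 ↔ ∃ w : Ta, t = (p : ℤ_[p]) ^ n • w) (n : ℕ)
    (w : Ta) : π n ((p : ℤ_[p]) ^ n • w) = 0 :=
  (hK n _).mpr ⟨w, rfl⟩

/-- Under (K), the image of `π n` is `p ^ n`-torsion. -/
theorem pow_nsmul_map (hK : ∀ n t, π n t = 0 ↔ ∃ w : Ta, t = (p : ℤ_[p]) ^ n • w) (n : ℕ)
    (t : Ta) : p ^ n • π n t = 0 := by
  rw [← map_nsmul, ← Nat.cast_smul_eq_nsmul ℤ_[p], Nat.cast_pow]
  exact map_pow_smul π hK n t

/-- Under (K), `π n` is "semilinear" along `ℤ_p → ℤ / p ^ n`. -/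
theorem map_smul_appr (hK : ∀ n t, π n t = 0 ↔ ∃ w : Ta, t = (p : ℤ_[p]) ^ n • w)
    (a : ℤ_[p]) (n : ℕ) (x : Ta) : π n (a • x) = a.appr n • π n x := by
  obtain ⟨c, hc⟩ := Ideal.mem_span_singleton.mp (PadicInt.appr_spec n a)
  have e : a • x = (a.appr n : ℤ_[p]) • x + (p : ℤ_[p]) ^ n • (c • x) := by
    rw [← mul_smul, ← add_smul, ← hc]
    congr 1
    ring
  rw [e, map_add, map_pow_smul π hK, add_zero, Nat.cast_smul_eq_nsmul, map_nsmul]

variable [Module.Free ℤ_[p] Ta] [Module.Finite ℤ_[p] Ta]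

omit [Module.Finite ℤ_[p] Ta] in
/-- Separation: an element killed by all level maps is zero. -/
theorem sep (hK : ∀ n t, π n t = 0 ↔ ∃ w : Ta, t = (p : ℤ_[p]) ^ n • w) (t : Ta)
    (h : ∀ n, π n t = 0) : t = 0 :=
  module_sep t fun n => (hK n t).mp (h n)

omit [Module.Finite ℤ_[p] Ta] in
/-- Two elements with the same images under all level maps are equal. -/
theorem eq_of_forall (hK : ∀ n t, π n t = 0 ↔ ∃ w : Ta, t = (p : ℤ_[p]) ^ n • w) {t t' : Ta}
    (h : ∀ n, π n t = π n t') : t = t' :=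
  sub_eq_zero.mp (sep π hK (t - t') fun n => by rw [map_sub, h n, sub_self])

omit [Module.Finite ℤ_[p] Ta] in
/-- Two linear endomorphisms which agree after all level maps are equal. -/
theorem linearMap_ext (hK : ∀ n t, π n t = 0 ↔ ∃ w : Ta, t = (p : ℤ_[p]) ^ n • w)
    {Φ Ψ : Ta →ₗ[ℤ_[p]] Ta} (h : ∀ n t, π n (Φ t) = π n (Ψ t)) : Φ = Ψ :=
  LinearMap.ext fun t => eq_of_forall π hK fun n => h n t

/-- **Lifting**: an additive endomorphism of `J` preserving the ranges of the level maps lifts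
to a `ℤ_p`-linear endomorphism of `Ta`. -/
theorem exists_lift (hK : ∀ n t, π n t = 0 ↔ ∃ w : Ta, t = (p : ℤ_[p]) ^ n • w)
    (hC : ∀ n t, p • π (n + 1) t = π n t) (φ : J →+ J)
    (hφ : ∀ n t, ∃ s, π n s = φ (π n t)) :
    ∃ Φ : Ta →ₗ[ℤ_[p]] Ta, ∀ n t, π n (Φ t) = φ (π n t) := by
  choose s hs using hφ
  have hcau : ∀ t n, ∃ w, s (n + 1) t - s n t = (p : ℤ_[p]) ^ n • w := by
    intro t n
    apply (hK n _).mp
    rw [map_sub, hs n t, ← hC n (s (n + 1) t), hs (n + 1) t, ← map_nsmul, hC n t, sub_self]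
  have hlim : ∀ t, ∃ L : Ta, ∀ n, ∃ w, L - s n t = (p : ℤ_[p]) ^ n • w :=
    fun t => module_limit (fun n => s n t) (hcau t)
  choose Φ₀ hΦ₀ using hlim
  have hΦ : ∀ n t, π n (Φ₀ t) = φ (π n t) := by
    intro n t
    obtain ⟨w, hw⟩ := hΦ₀ t n
    have h0 : π n (Φ₀ t - s n t) = 0 := (hK n _).mpr ⟨w, hw⟩
    rw [map_sub, sub_eq_zero] at h0
    rw [h0, hs]
  refine ⟨{ toFun := Φ₀, map_add' := ?_, map_smul' := ?_ }, hΦ⟩
  · intro t t'
    apply eq_of_forall π hK
    intro n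
    rw [hΦ, map_add, map_add, map_add, hΦ, hΦ]
  · intro a t
    apply eq_of_forall π hK
    intro n
    rw [RingHom.id_apply, hΦ, map_smul_appr π hK, map_smul_appr π hK, map_nsmul, hΦ]

end LevelMaps

end Fermat.Agent.Lib.TateLim
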