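import Mathlib

/-!
# Valuation subrings of algebraic extensions of `ℚ` are localizations of the ring of integers

For a valuation subring `V` of a field `L` algebraic over `ℚ` in which a prime number `p`
is a non-unit, every element `x ∈ V` can be written as `z / y` with `y`, `z` integral over `ℤ`
and `y` a unit of `V`.
-/

set_option autoImplicit false

open Polynomial

namespace Fermat.Agent.Lib.ValuationIntegral

/-- Elements integral over `ℤ` lie in every valuation subring. -/
theorem mem_of_isIntegral_int {L : Type*} [Field L] (V : ValuationSubring L) {y : L}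
    (hy : IsIntegral ℤ y) : y ∈ V := by
  have h := (Valuation.integer.integers V.valuation).mem_of_integral (x := y) hy.tower_top
  rw [V.integer_valuation] at h
  exact h

/-- `V.nonunits` absorbs multiplication by elements of `V`. -/
theorem mul_mem_nonunits {L : Type*} [Field L] (V : ValuationSubring L) {a x : L}
    (ha : a ∈ V.nonunits) (hx : x ∈ V) : a * x ∈ V.nonunits := by
  rw [ValuationSubring.mem_nonunits_iff] at ha ⊢
  rw [map_mul]
  have hx' : V.valuation x ≤ 1 := (V.valuation_le_one_iff x).mpr hx
  calc V.valuation a * V.valuation x ≤ V.valuation a * 1 := by gcongr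
    _ = V.valuation a := mul_one _
    _ < 1 := ha

theorem one_notMem_nonunits {L : Type*} [Field L] (V : ValuationSubring L) :
    (1 : L) ∉ V.nonunits := by
  rw [ValuationSubring.mem_nonunits_iff, map_one]
  exact lt_irrefl _

/-- Core induction: a polynomial relation for `x ∈ V` with integral coefficients, one of which
is a unit of `V`, yields a denominator. -/
theorem exists_of_aeval_eq_zero {L : Type*} [Field L] (V : ValuationSubring L) {x : L}
    (hx : x ∈ V) (n : ℕ) :
    ∀ q : (integralClosure ℤ L)[X], q.natDegree ≤ n → aeval x q = 0 →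
      (∃ i, ((q.coeff i : integralClosure ℤ L) : L) ∉ V.nonunits) →
      ∃ y : L, IsIntegral ℤ y ∧ y ∉ V.nonunits ∧ IsIntegral ℤ (x * y) := by
  induction n with
  | zero =>
    intro q hq h0 ⟨i, hi⟩
    exfalso
    apply hi
    rw [eq_C_of_natDegree_le_zero hq] at h0 ⊢
    rw [aeval_C] at h0
    rw [coeff_C]
    split_ifs
    · have : ((q.coeff 0 : integralClosure ℤ L) : L) = 0 := h0
      rw [this]
      exact V.nonunits.zero_mem
    · exact V.nonunits.zero_mem
  | succ n ih =>
    intro q hq h0 ⟨i, hi⟩
    set a : integralClosure ℤ L := q.coeff (n + 1) with ha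
    -- `a * x` is integral
    have hax : IsIntegral ℤ ((a : L) * x) := by
      by_cases ha0 : a = 0
      · rw [ha0]
        simpa using isIntegral_zero
      · have hdeg : q.natDegree = n + 1 :=
          le_antisymm hq (le_natDegree_of_ne_zero ha0)
        have hlc : q.leadingCoeff = a := by rw [leadingCoeff, hdeg]
        have h1 : IsIntegral (integralClosure ℤ L) (q.leadingCoeff • x) :=
          isIntegral_leadingCoeff_smul q x h0
        rw [hlc] at h1
        have h2 : IsIntegral ℤ (a • x) := isIntegral_trans _ h1
        exact h2
    by_cases haV : (a : L) ∈ V.nonunits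
    · -- degree drops
      set b : integralClosure ℤ L := ⟨(a : L) * x, hax⟩ with hb
      have hbV : (b : L) ∈ V.nonunits := mul_mem_nonunits V haV hx
      set q' : (integralClosure ℤ L)[X] := q - C a * X ^ (n + 1) + C b * X ^ n with hq'
      have hcoeff : ∀ j, q'.coeff j =
          q.coeff j - (if j = n + 1 then a else 0) + (if j = n then b else 0) := by
        intro j
        simp only [hq', coeff_add, coeff_sub, coeff_C_mul, coeff_X_pow]
        split_ifs <;> simp
      apply ih q'
      · rw [natDegree_le_iff_coeff_eq_zero]
        intro N hN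
        rw [hcoeff]
        have hNn : N ≠ n := by omega
        by_cases hN1 : N = n + 1
        · subst hN1
          simp [ha]
        · have : q.coeff N = 0 := coeff_eq_zero_of_natDegree_lt (by omega)
          simp [hN1, hNn, this]
      · simp only [hq', map_add, map_sub, map_mul, aeval_C, map_pow, aeval_X, h0, zero_sub]
        have : (algebraMap (integralClosure ℤ L) L) b = (a : L) * x := rfl
        rw [this]
        have : (algebraMap (integralClosure ℤ L) L) a = (a : L) := rfl
        rw [this]
        ring
      · have hi1 : i ≠ n + 1 := by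
          rintro rfl
          exact hi haV
        refine ⟨i, ?_⟩
        rw [hcoeff]
        simp only [hi1, if_false, sub_zero]
        by_cases hin : i = n
        · subst hin
          simp only [if_true]
          intro hmem
          apply hi
          have : ((q.coeff i : integralClosure ℤ L) : L) =
              ((q.coeff i + b : integralClosure ℤ L) : L) - (b : L) := by
            push_cast; ring
          rw [this]
          exact V.nonunits.sub_mem hmem hbV
        · simpa [hin] using hi
    · exact ⟨a, a.2, haV, by rwa [mul_comm]⟩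

/-- An integer not divisible by `p` is a unit of any valuation subring in which `p` is a
non-unit. -/
theorem intCast_notMem_nonunits {L : Type*} [Field L] (V : ValuationSubring L) {p : ℕ}
    (hp : p.Prime) (hpV : (p : L) ∈ V.nonunits) {c : ℤ} (hc : ¬ (p : ℤ) ∣ c) :
    (c : L) ∉ V.nonunits := by
  intro hcV
  have hcop : IsCoprime (p : ℤ) c :=
    (Nat.prime_iff_prime_int.mp hp).irreducible.coprime_iff_not_dvd.mpr hc
  obtain ⟨u, v, huv⟩ := hcop
  have h1 : (u : L) * (p : L) + (v : L) * (c : L) = 1 := by
    have := congrArg (Int.cast : ℤ → L) huv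
    push_cast at this
    exact this
  have hu : (p : L) * (u : L) ∈ V.nonunits := mul_mem_nonunits V hpV (intCast_mem V u)
  have hv : (c : L) * (v : L) ∈ V.nonunits := mul_mem_nonunits V hcV (intCast_mem V v)
  apply one_notMem_nonunits V
  rw [← h1, mul_comm (u : L), mul_comm (v : L)]
  exact V.nonunits.add_mem hu hv

/-- Every element of a valuation subring `V` of an algebraic extension `L` of `ℚ`, in which the
prime `p` is a non-unit, is a quotient `z / y` of elements integral over `ℤ` with `y` a unit
of `V`.  (So `V` is the localization of the ring of integers of `L` at the centre of `V`.) -/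
theorem exists_integral_mul_eq {L : Type*} [Field L] [Algebra ℚ L] [Algebra.IsAlgebraic ℚ L]
    (V : ValuationSubring L) {p : ℕ} (hp : p.Prime) (hpV : (p : L) ∈ V.nonunits) {x : L}
    (hx : x ∈ V) :
    ∃ y z : L, IsIntegral ℤ y ∧ IsIntegral ℤ z ∧ y ∈ V ∧ y ∉ V.nonunits ∧ x * y = z := by
  have : CharZero L := algebraRat.charZero L
  have halgQ : IsAlgebraic ℚ x := Algebra.IsAlgebraic.isAlgebraic x
  have halgZ : IsAlgebraic ℤ x := (IsFractionRing.isAlgebraic_iff ℤ ℚ L).mpr halgQ
  obtain ⟨P, hP0, hPx⟩ := halgZ
  have hP'x : aeval x P.primPart = 0 := aeval_primPart_eq_zero hP0 hPx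
  have hprim : P.primPart.IsPrimitive := P.isPrimitive_primPart
  have hex : ∃ i, ¬ (p : ℤ) ∣ P.primPart.coeff i := by
    by_contra hcon
    push Not at hcon
    have hdvd : C (p : ℤ) ∣ P.primPart := (C_dvd_iff_dvd_coeff _ _).mpr hcon
    have hunit : IsUnit (p : ℤ) := hprim _ hdvd
    exact (Nat.prime_iff_prime_int.mp hp).not_isUnit hunit
  obtain ⟨i, hi⟩ := hex
  set q : (integralClosure ℤ L)[X] := P.primPart.map (algebraMap ℤ (integralClosure ℤ L)) with hq
  have hqx : aeval x q = 0 := by
    rw [hq, aeval_map_algebraMap]
    exact hP'x
  have hqi : ((q.coeff i : integralClosure ℤ L) : L) ∉ V.nonunits := by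
    have : ((q.coeff i : integralClosure ℤ L) : L) = ((P.primPart.coeff i : ℤ) : L) := by
      rw [hq, coeff_map]
      simp
    rw [this]
    exact intCast_notMem_nonunits V hp hpV hi
  obtain ⟨y, hy, hyV, hxy⟩ := exists_of_aeval_eq_zero V hx q.natDegree q le_rfl hqx ⟨i, hqi⟩
  exact ⟨y, x * y, hy, hxy, mem_of_isIntegral_int V hy, hyV, rfl⟩

end Fermat.Agent.Lib.ValuationIntegral
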