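import Mathlib
import Fermat.Prelude.Def_EllipticCurve_FrobeniusTrace
import Fermat.Agent.Lib.ValuationIntegral

set_option autoImplicit false

namespace Fermat.Agent.Lib.FrobeniusGlue

open scoped Pointwise

variable {L : Type*} [Field L]

/-- Elements of `L` integral over `ℤ` lie in every valuation subring. -/
theorem mem_of_isIntegral_int (V : ValuationSubring L) {b : L} (hb : IsIntegral ℤ b) : b ∈ V := by
  have h1 : IsIntegral V b := hb.tower_top
  obtain ⟨y, hy⟩ := (IsIntegrallyClosed.isIntegral_iff (R := V) (K := L)).mp h1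
  rw [← hy]
  exact y.2

variable [Algebra ℚ L]

/-- If `τ⁻¹` preserves the integral non-units of `V`, then `τ` maps `V` into `V`, provided
every element of `V` is a quotient of integral elements with unit denominator. -/
theorem apply_mem_of_integral (V : ValuationSubring L) (τ : L ≃ₐ[ℚ] L)
    (hd : ∀ x ∈ V, ∃ y z : L, IsIntegral ℤ y ∧ IsIntegral ℤ z ∧ y ∈ V ∧ y ∉ V.nonunits ∧ x * y = z)
    (h1' : ∀ b : L, IsIntegral ℤ b → b ∈ V.nonunits → τ.symm b ∈ V.nonunits)
    {x : L} (hx : x ∈ V) : τ x ∈ V := by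
  obtain ⟨y, z, hy, hz, hyV, hyu, hxy⟩ := hd x hx
  have hτy : IsIntegral ℤ (τ y) := hy.map (τ : L →ₐ[ℚ] L).toRingHom.toIntAlgHom
  have hτz : IsIntegral ℤ (τ z) := hz.map (τ : L →ₐ[ℚ] L).toRingHom.toIntAlgHom
  have hτyu : τ y ∉ V.nonunits := by
    intro h
    have := h1' _ hτy h
    rw [AlgEquiv.symm_apply_apply] at this
    exact hyu this
  have hv1 : V.valuation (τ y) = 1 := by
    have h1 : V.valuation (τ y) ≤ 1 := (V.valuation_le_one_iff _).mpr (mem_of_isIntegral_int V hτy)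
    have h2 : ¬ V.valuation (τ y) < 1 := fun h => hτyu ((V.mem_nonunits_iff).mpr h)
    exact le_antisymm h1 (not_lt.mp h2)
  have hv2 : V.valuation (τ z) ≤ 1 := (V.valuation_le_one_iff _).mpr (mem_of_isIntegral_int V hτz)
  have hmul : τ x * τ y = τ z := by rw [← map_mul, hxy]
  rw [← V.valuation_le_one_iff]
  calc V.valuation (τ x) = V.valuation (τ x) * V.valuation (τ y) := by rw [hv1, mul_one]
    _ = V.valuation (τ z) := by rw [← map_mul, hmul]
    _ ≤ 1 := hv2

/-- `σ` stabilises `V`. -/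
theorem mem_decompositionSubgroup_of_integral (V : ValuationSubring L) (σ : L ≃ₐ[ℚ] L)
    (hd : ∀ x ∈ V, ∃ y z : L, IsIntegral ℤ y ∧ IsIntegral ℤ z ∧ y ∈ V ∧ y ∉ V.nonunits ∧ x * y = z)
    (h1 : ∀ b : L, IsIntegral ℤ b → b ∈ V.nonunits → σ b ∈ V.nonunits)
    (h1' : ∀ b : L, IsIntegral ℤ b → b ∈ V.nonunits → σ.symm b ∈ V.nonunits) :
    σ ∈ V.decompositionSubgroup ℚ := by
  rw [MulAction.mem_stabilizer_iff]
  apply le_antisymm
  · intro x hx
    obtain ⟨s, hs, rfl⟩ := (ValuationSubring.mem_smul_pointwise_iff_exists σ x V).mp hx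
    exact apply_mem_of_integral V σ hd h1' hs
  · intro x hx
    rw [ValuationSubring.mem_pointwise_smul_iff_inv_smul_mem]
    exact apply_mem_of_integral V σ.symm hd (fun b hb hbu => h1 b hb hbu) hx

/-- Glue lemma: a `σ` which stabilises the prime `Q = 𝔪_V ∩ B` of the ring `B` of algebraic
integers and acts as `x ↦ x ^ p` on `B ⧸ Q` is a Frobenius element at `V`, provided
`V = B_Q`. -/
theorem isFrobeniusAt_of_integral (V : ValuationSubring L) (p : ℕ) (σ : L ≃ₐ[ℚ] L)
    (hd : ∀ x ∈ V, ∃ y z : L, IsIntegral ℤ y ∧ IsIntegral ℤ z ∧ y ∈ V ∧ y ∉ V.nonunits ∧ x * y = z)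
    (h1 : ∀ b : L, IsIntegral ℤ b → b ∈ V.nonunits → σ b ∈ V.nonunits)
    (h1' : ∀ b : L, IsIntegral ℤ b → b ∈ V.nonunits → σ.symm b ∈ V.nonunits)
    (h2 : ∀ b : L, IsIntegral ℤ b → σ b - b ^ p ∈ V.nonunits) :
    V.IsFrobeniusAt σ p := by
  have hσ := mem_decompositionSubgroup_of_integral V σ hd h1 h1'
  refine ⟨hσ, fun x => ?_⟩
  obtain ⟨v, rfl⟩ := IsLocalRing.residue_surjective x
  obtain ⟨y, z, hy, hz, hyV, hyu, hxy⟩ := hd v.1 v.2
  -- the elements of `V` involved
  let g : V.decompositionSubgroup ℚ := ⟨σ, hσ⟩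
  let y' : V := ⟨y, hyV⟩
  let z' : V := ⟨z, mem_of_isIntegral_int V hz⟩
  have hgv : ((g • v : V) : L) = σ v.1 := rfl
  have hgy : ((g • y' : V) : L) = σ y := rfl
  have hgz : ((g • z' : V) : L) = σ z := rfl
  have hvyz : v * y' = z' := Subtype.ext hxy
  -- Frobenius congruences for `y'` and `z'`
  have hfrob : ∀ (b : V), IsIntegral ℤ (b : L) →
      IsLocalRing.residue V (g • b) = IsLocalRing.residue V b ^ p := by
    intro b hb
    rw [← map_pow, ← sub_eq_zero, ← map_sub, IsLocalRing.residue_eq_zero_iff,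
      ← ValuationSubring.coe_mem_nonunits_iff]
    exact h2 b.1 hb
  have hy0 : IsLocalRing.residue V y' ≠ 0 := by
    rw [Ne, IsLocalRing.residue_eq_zero_iff, ← ValuationSubring.coe_mem_nonunits_iff]
    exact hyu
  have e1 : IsLocalRing.residue V (g • v) * IsLocalRing.residue V (g • y') =
      IsLocalRing.residue V (g • z') := by
    rw [← map_mul, ← smul_mul', hvyz]
  rw [hfrob y' hy, hfrob z' hz, ← hvyz, map_mul, mul_pow] at e1
  have := mul_right_cancel₀ (pow_ne_zero p hy0) e1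
  rw [← this]
  rfl

/-- Glue lemma, final form: if `V` is a valuation subring of an algebraic extension `L` of `ℚ`
in which the prime `p` is a non-unit, and `σ b ≡ b ^ p` modulo the maximal ideal of `V` for all
algebraic integers `b`, then `σ` is a Frobenius element at `V`. -/
theorem isFrobeniusAt_of_frob_congr [Algebra.IsAlgebraic ℚ L] (V : ValuationSubring L) {p : ℕ}
    (hp : p.Prime) (hpV : (p : L) ∈ V.nonunits) (σ : L ≃ₐ[ℚ] L)
    (hσ : ∀ b : L, IsIntegral ℤ b → σ b - b ^ p ∈ V.nonunits) : V.IsFrobeniusAt σ p := by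
  have hd : ∀ x ∈ V, ∃ y z : L, IsIntegral ℤ y ∧ IsIntegral ℤ z ∧ y ∈ V ∧ y ∉ V.nonunits ∧
      x * y = z := fun x hx => ValuationIntegral.exists_integral_mul_eq V hp hpV hx
  have hpow : ∀ c : L, c ^ p ∈ V.nonunits ↔ c ∈ V.nonunits := by
    intro c
    rw [V.mem_nonunits_iff, V.mem_nonunits_iff, map_pow]
    exact pow_lt_one_iff hp.ne_zero
  have hadd : ∀ a b : L, a ∈ V.nonunits → b ∈ V.nonunits → a + b ∈ V.nonunits := by
    intro a b ha hb
    rw [V.mem_nonunits_iff] at ha hb ⊢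
    exact lt_of_le_of_lt (V.valuation.map_add a b) (max_lt ha hb)
  have hneg : ∀ a : L, a ∈ V.nonunits → -a ∈ V.nonunits := by
    intro a ha
    rw [V.mem_nonunits_iff] at ha ⊢
    rwa [Valuation.map_neg]
  have h1 : ∀ b : L, IsIntegral ℤ b → b ∈ V.nonunits → σ b ∈ V.nonunits := by
    intro b hb hbu
    have := hadd _ _ (hσ b hb) ((hpow b).mpr hbu)
    rwa [sub_add_cancel] at this
  have h1' : ∀ b : L, IsIntegral ℤ b → b ∈ V.nonunits → σ.symm b ∈ V.nonunits := by
    intro b hb hbu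
    have hc : IsIntegral ℤ (σ.symm b) := hb.map (σ.symm : L →ₐ[ℚ] L).toRingHom.toIntAlgHom
    have h := hσ _ hc
    rw [AlgEquiv.apply_symm_apply] at h
    have := hadd _ _ hbu (hneg _ h)
    rw [← sub_eq_add_neg, sub_sub_cancel] at this
    exact (hpow _).mp this
  exact isFrobeniusAt_of_integral V p σ hd h1 h1' hσ

end Fermat.Agent.Lib.FrobeniusGlue
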