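import Mathlib
import Fermat.Prelude.Def_EllipticCurve_FrobeniusTrace

/-!
# Existence of Frobenius elements in the absolute Galois group of `ℚ`

Main results (for the prelude notions `ValuationSubring.LiesOverPrime` and
`ValuationSubring.IsFrobeniusAt`):

* `Fermat.Agent.Lib.FrobeniusExists.exists_liesOverPrime`: for every prime `ℓ` there is a valuation
  subring of `AlgebraicClosure ℚ` lying over `ℓ`.
* `Fermat.Agent.Lib.FrobeniusExists.exists_isFrobeniusAt_of_liesOverPrime`: every valuation subring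
  of `AlgebraicClosure ℚ` lying over a prime `ℓ` has a Frobenius element at `ℓ`.
* `Fermat.Agent.Lib.FrobeniusExists.exists_isFrobeniusAt`: the combination of both.
-/

set_option autoImplicit false

namespace Fermat.Agent.Lib.FrobeniusExists

open Polynomial
open scoped Pointwise

section Key

variable {L : Type*} [Field L] {Γ₀ : Type*} [LinearOrderedCommGroupWithZero Γ₀]

theorem val_le_one_of_isIntegral (v : Valuation L Γ₀) {b : L} (hb : IsIntegral ℤ b) : v b ≤ 1 :=
  (Valuation.integer.integers v).isIntegral_iff_v_le_one.mp hb.tower_top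

theorem val_intCast_eq_one (v : Valuation L Γ₀) {ℓ : ℕ} (hℓ : ℓ.Prime) (hvℓ : v (ℓ : L) < 1)
    {n : ℤ} (hn : ¬ (ℓ : ℤ) ∣ n) : v (n : L) = 1 := by
  have hle : ∀ m : ℤ, v (m : L) ≤ 1 := fun m =>
    val_le_one_of_isIntegral v (by simpa using (isIntegral_algebraMap (R := ℤ) (A := L) (x := m)))
  by_contra hne
  have hlt := lt_of_le_of_ne (hle n) hne
  have hcop : IsCoprime (ℓ : ℤ) n := (Nat.prime_iff_prime_int.mp hℓ).coprime_iff_not_dvd.mpr hn
  obtain ⟨a, b, hab⟩ := hcop
  have h1 : v ((a : L) * (ℓ : L) + (b : L) * (n : L)) < 1 := by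
    refine lt_of_le_of_lt (v.map_add _ _) (max_lt ?_ ?_)
    · rw [map_mul, mul_comm]
      exact mul_lt_one_of_lt_of_le hvℓ (hle a)
    · rw [map_mul, mul_comm]
      exact mul_lt_one_of_lt_of_le hlt (hle b)
  have h2 : ((a : L) * (ℓ : L) + (b : L) * (n : L)) = 1 := by
    have := congrArg (Int.cast : ℤ → L) hab
    push_cast at this
    exact this
  rw [h2, map_one] at h1
  exact lt_irrefl _ h1

/-- Key lemma (Kaplansky style induction on the degree). -/
theorem exists_unit_mul_isIntegral_aux (v : Valuation L Γ₀) (x : L) (hx : v x ≤ 1) :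
    ∀ (n : ℕ) (f : (integralClosure ℤ L)[X]), f.natDegree ≤ n → aeval x f = 0 →
      (∃ i, v (f.coeff i : L) = 1) →
      ∃ s : L, IsIntegral ℤ s ∧ v s = 1 ∧ IsIntegral ℤ (s * x) := by
  intro n
  induction n with
  | zero =>
    intro f hf h0 ⟨i, hi⟩
    exfalso
    rw [Nat.le_zero] at hf
    rw [eq_C_of_natDegree_eq_zero hf, aeval_C] at h0
    have h00 : f.coeff 0 = 0 := by
      simpa using h0
    have hf0 : f = 0 := by
      rw [eq_C_of_natDegree_eq_zero hf, h00, C_0]
    rw [hf0] at hi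
    simp at hi
  | succ n ih =>
    intro f hf h0 ⟨i, hi⟩
    by_cases hdeg : f.natDegree ≤ n
    · exact ih f hdeg h0 ⟨i, hi⟩
    have hdeg' : f.natDegree = n + 1 := by omega
    have hcx : IsIntegral ℤ ((f.leadingCoeff : L) * x) := by
      have := isIntegral_trans (R := ℤ) _ (isIntegral_leadingCoeff_smul f x h0)
      rwa [Algebra.smul_def] at this
    by_cases hvc : v (f.leadingCoeff : L) = 1
    · exact ⟨f.leadingCoeff, f.leadingCoeff.2, hvc, hcx⟩
    · have hvc' : v (f.leadingCoeff : L) < 1 :=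
        lt_of_le_of_ne (val_le_one_of_isIntegral v f.leadingCoeff.2) hvc
      let b : integralClosure ℤ L := ⟨(f.leadingCoeff : L) * x, hcx⟩
      have hvb : v (b : L) < 1 := by
        show v ((f.leadingCoeff : L) * x) < 1
        rw [map_mul]
        exact mul_lt_one_of_lt_of_le hvc' hx
      apply ih (f.eraseLead + C b * X ^ n)
      · refine (natDegree_add_le _ _).trans (max_le ?_ ?_)
        · have := eraseLead_natDegree_le f
          omega
        · exact natDegree_C_mul_X_pow_le b n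
      · have h1 : aeval x f.eraseLead + (f.leadingCoeff : L) * x ^ (n + 1) = 0 := by
          conv_rhs => rw [← h0, ← eraseLead_add_C_mul_X_pow f]
          rw [map_add, hdeg']
          simp
        rw [map_add]
        simp only [map_mul, aeval_C, map_pow, aeval_X]
        rw [← h1]
        show _ + (f.leadingCoeff : L) * x * x ^ n = _
        ring
      · have hin : i ≠ n + 1 := by
          rintro rfl
          rw [← hdeg'] at hi
          exact hvc hi
        have hile : i ≤ n + 1 := by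
          by_contra hlt
          have : f.coeff i = 0 := coeff_eq_zero_of_natDegree_lt (by omega)
          rw [this] at hi
          simp at hi
        refine ⟨i, ?_⟩
        rw [coeff_add, eraseLead_coeff, if_neg (by rw [hdeg']; exact hin), coeff_C_mul,
          coeff_X_pow]
        by_cases hin' : i = n
        · rw [if_pos hin', mul_one]
          show v ((f.coeff i : L) + (b : L)) = 1
          rw [Valuation.map_add_eq_of_lt_left, hi]
          rw [hi]; exact hvb
        · rw [if_neg hin', mul_zero, add_zero]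
          exact hi

/-- For a valuation `v` on a field of characteristic zero which is `< 1` at a prime number `ℓ`,
every algebraic `x` with `v x ≤ 1` is a quotient `a / s` of integral elements with `v s = 1`. -/
theorem exists_unit_mul_isIntegral [CharZero L] (v : Valuation L Γ₀) {ℓ : ℕ} (hℓ : ℓ.Prime)
    (hvℓ : v (ℓ : L) < 1) {x : L} (hxalg : IsAlgebraic ℤ x) (hx : v x ≤ 1) :
    ∃ s : L, IsIntegral ℤ s ∧ v s = 1 ∧ IsIntegral ℤ (s * x) := by
  obtain ⟨p, hp0, hpx⟩ := hxalg
  have hprim : p.primPart.IsPrimitive := p.isPrimitive_primPart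
  have hpx' : aeval x p.primPart = 0 := by
    have h := hpx
    rw [p.eq_C_content_mul_primPart, map_mul, aeval_C] at h
    rcases mul_eq_zero.mp h with h | h
    · exfalso
      have : p.content = 0 := by simpa using h
      exact hp0 (content_eq_zero_iff.mp this)
    · exact h
  have hcoeff : ∃ i, ¬ (ℓ : ℤ) ∣ p.primPart.coeff i := by
    by_contra hall
    push Not at hall
    have : C (ℓ : ℤ) ∣ p.primPart := (C_dvd_iff_dvd_coeff _ _).mpr hall
    have hu := hprim _ this
    exact (Nat.prime_iff_prime_int.mp hℓ).not_isUnit hu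
  obtain ⟨i, hi⟩ := hcoeff
  refine exists_unit_mul_isIntegral_aux v x hx _
    (p.primPart.map (algebraMap ℤ (integralClosure ℤ L))) le_rfl ?_ ⟨i, ?_⟩
  · rw [aeval_map_algebraMap]
    exact hpx'
  · rw [coeff_map]
    simpa using val_intCast_eq_one v hℓ hvℓ hi

end Key

section Galois

local notation "Qb" => AlgebraicClosure ℚ
local notation "GQ" => (AlgebraicClosure ℚ ≃ₐ[ℚ] AlgebraicClosure ℚ)
local notation "Zb" => integralClosure ℤ (AlgebraicClosure ℚ)

theorem isAlgClosure_rat : IsAlgClosure ℚ (AlgebraicClosure ℚ) := by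
  have h : (AlgebraicClosure.instAlgebra ℚ : Algebra ℚ (AlgebraicClosure ℚ)) =
      DivisionRing.toRatAlgebra := Subsingleton.elim _ _
  rw [← h]
  infer_instance

attribute [local instance] isAlgClosure_rat

theorem isGalois_rat : IsGalois ℚ (AlgebraicClosure ℚ) := ⟨⟩

attribute [local instance] isGalois_rat

theorem isAlgebraic_int (x : Qb) : IsAlgebraic ℤ x :=
  (IsFractionRing.isAlgebraic_iff ℤ ℚ Qb).mpr (Algebra.IsAlgebraic.isAlgebraic x)

/-- The action of the absolute Galois group of `ℚ` on the ring of algebraic integers. -/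
@[instance_reducible]
noncomputable def galAction : MulSemiringAction GQ Zb where
  smul g b := ⟨g b.1, map_isIntegral_int g b.2⟩
  one_smul _ := Subtype.ext rfl
  mul_smul _ _ _ := Subtype.ext rfl
  smul_zero g := Subtype.ext (map_zero g)
  smul_add g a b := Subtype.ext (map_add g a.1 b.1)
  smul_one g := Subtype.ext (map_one g)
  smul_mul g a b := Subtype.ext (map_mul g a.1 b.1)

attribute [local instance] galAction

theorem galAction_coe (g : GQ) (b : Zb) : ((g • b : Zb) : Qb) = g (b : Qb) := rfl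

theorem galAction_smulCommClass : SMulCommClass GQ ℤ Zb :=
  ⟨fun g n b => Subtype.ext (by
    show g ((n • b : Zb) : Qb) = ((n • (g • b) : Zb) : Qb)
    simp)⟩

attribute [local instance] galAction_smulCommClass

theorem galAction_isInvariant : Algebra.IsInvariant ℤ Zb GQ := by
  refine ⟨fun b hb => ?_⟩
  have h1 : (b : Qb) ∈ (⊥ : IntermediateField ℚ Qb) := by
    rw [InfiniteGalois.mem_bot_iff_fixed]
    intro g
    exact congrArg Subtype.val (hb g)
  obtain ⟨q, hq⟩ := IntermediateField.mem_bot.mp h1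
  have h2 : IsIntegral ℤ q := by
    have := b.2
    rw [← hq] at this
    exact (isIntegral_algebraMap_iff (algebraMap ℚ Qb).injective).mp this
  obtain ⟨n, hn⟩ := IsIntegrallyClosed.algebraMap_eq_of_integral h2
  refine ⟨n, Subtype.ext ?_⟩
  rw [← hq, ← hn]
  simp

attribute [local instance] galAction_isInvariant

/-- The discrete topology on the ring of algebraic integers. -/
@[instance_reducible]
def zbTopology : TopologicalSpace Zb := ⊥

attribute [local instance] zbTopology

theorem zbDiscrete : DiscreteTopology Zb := ⟨rfl⟩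

attribute [local instance] zbDiscrete

theorem galAction_continuousSMul : ContinuousSMul GQ Zb := by
  rw [continuousSMul_iff_stabilizer_isOpen]
  intro b
  have := stabilizer_isOpen_of_isIntegral (K := ℚ) (L := Qb) (b : Qb)
  convert this using 1
  ext g
  simp [MulAction.mem_stabilizer_iff, Subtype.ext_iff]

attribute [local instance] galAction_continuousSMul

/-- Valuation-theoretic core: an automorphism preserving the units among the algebraic integers
preserves the valuation ring. -/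
theorem val_map_le_one {Γ₀ : Type*} [LinearOrderedCommGroupWithZero Γ₀] (v : Valuation Qb Γ₀)
    {ℓ : ℕ} (hℓ : ℓ.Prime) (hvℓ : v (ℓ : Qb) < 1) (τ : GQ)
    (hτ : ∀ b : Qb, IsIntegral ℤ b → v b = 1 → v (τ b) = 1) (x : Qb) (hx : v x ≤ 1) :
    v (τ x) ≤ 1 := by
  obtain ⟨s, hs, hvs, hsx⟩ := exists_unit_mul_isIntegral v hℓ hvℓ (isAlgebraic_int x) hx
  have h1 : v (τ x) = v (τ (s * x)) := by
    rw [map_mul τ, map_mul v, hτ s hs hvs, one_mul]
  rw [h1]
  exact val_le_one_of_isIntegral v (map_isIntegral_int τ hsx)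

theorem val_map_sub_pow_lt_one {Γ₀ : Type*} [LinearOrderedCommGroupWithZero Γ₀]
    (v : Valuation Qb Γ₀) {ℓ : ℕ} (hℓ : ℓ.Prime) (hvℓ : v (ℓ : Qb) < 1) (σ : GQ)
    (hσ1 : ∀ b : Qb, IsIntegral ℤ b → v b = 1 → v (σ b) = 1)
    (hσ2 : ∀ b : Qb, IsIntegral ℤ b → v (σ b - b ^ ℓ) < 1) (x : Qb) (hx : v x ≤ 1) :
    v (σ x - x ^ ℓ) < 1 := by
  obtain ⟨s, hs, hvs, hsx⟩ := exists_unit_mul_isIntegral v hℓ hvℓ (isAlgebraic_int x) hx
  have key : s ^ ℓ * σ s * (σ x - x ^ ℓ) =
      s ^ ℓ * (σ (s * x) - (s * x) ^ ℓ) - (s * x) ^ ℓ * (σ s - s ^ ℓ) := by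
    rw [map_mul]
    ring
  have hv1 : v (s ^ ℓ * σ s) = 1 := by
    rw [map_mul, map_pow, hvs, one_pow, one_mul]
    exact hσ1 s hs hvs
  have h1 : v (σ x - x ^ ℓ) =
      v (s ^ ℓ * (σ (s * x) - (s * x) ^ ℓ) - (s * x) ^ ℓ * (σ s - s ^ ℓ)) := by
    rw [← key, map_mul, hv1, one_mul]
  rw [h1]
  refine lt_of_le_of_lt (v.map_sub _ _) (max_lt ?_ ?_)
  · rw [map_mul, mul_comm]
    exact mul_lt_one_of_lt_of_le (hσ2 _ hsx) (val_le_one_of_isIntegral v (hs.pow ℓ))
  · rw [map_mul, mul_comm]
    exact mul_lt_one_of_lt_of_le (hσ2 _ hs) (val_le_one_of_isIntegral v (hsx.pow ℓ))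

/-- Every valuation subring of `AlgebraicClosure ℚ` lying over a prime `ℓ` admits a Frobenius
element at `ℓ`. -/
theorem exists_isFrobeniusAt_of_liesOverPrime {ℓ : ℕ} (hℓ : ℓ.Prime)
    (A : ValuationSubring (AlgebraicClosure ℚ)) (hA : A.LiesOverPrime ℓ) :
    ∃ σ : AlgebraicClosure ℚ ≃ₐ[ℚ] AlgebraicClosure ℚ, A.IsFrobeniusAt σ ℓ := by
  have : Fact ℓ.Prime := ⟨hℓ⟩
  have hvℓ : A.valuation (ℓ : Qb) < 1 := A.mem_nonunits_iff.mp hA
  have hle : (Zb).toSubring ≤ A.toSubring := fun b hb =>
    (A.valuation_le_one_iff b).mp (val_le_one_of_isIntegral A.valuation hb)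
  -- the prime `Q` of the ring of algebraic integers below the maximal ideal of `A`
  let Q : Ideal Zb := (IsLocalRing.maximalIdeal A).comap (Subring.inclusion hle)
  have hQmem : ∀ b : Zb, b ∈ Q ↔ A.valuation (b : Qb) < 1 := fun b => by
    show Subring.inclusion hle b ∈ IsLocalRing.maximalIdeal A ↔ _
    rw [A.valuation_lt_one_iff]
    rfl
  have hQprime : Q.IsPrime := Ideal.comap_isPrime _ _
  let P : Ideal ℤ := Ideal.span {(ℓ : ℤ)}
  have hPmax : P.IsMaximal := Int.ideal_span_isMaximal_of_prime ℓ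
  have hQP : Q.LiesOver P := ⟨by
    refine hPmax.eq_of_le ?_ ?_
    · intro h
      have h1 : (1 : ℤ) ∈ Q.under ℤ := h ▸ Submodule.mem_top
      rw [Ideal.under_def, Ideal.mem_comap, map_one, hQmem] at h1
      simp at h1
    · rw [Ideal.span_singleton_le_iff_mem, Ideal.under_def, Ideal.mem_comap, hQmem]
      simpa using hvℓ⟩
  have : CharP (Zb ⧸ Q) ℓ := by
    rw [CharP.charP_iff_prime_eq_zero hℓ]
    have h1 : ((ℓ : Zb) : Zb ⧸ Q) = 0 := by
      rw [Ideal.Quotient.eq_zero_iff_mem, hQmem]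
      simpa using hvℓ
    simpa using h1
  -- the Frobenius of the residue field
  let frobHom : (Zb ⧸ Q) →ₐ[ℤ ⧸ P] (Zb ⧸ Q) :=
    { frobenius (Zb ⧸ Q) ℓ with
      commutes' := fun r => by
        obtain ⟨n, rfl⟩ := Ideal.Quotient.mk_surjective r
        show frobenius (Zb ⧸ Q) ℓ (Ideal.Quotient.mk Q (algebraMap ℤ Zb n)) =
          Ideal.Quotient.mk Q (algebraMap ℤ Zb n)
        simp }
  have hfrobHom : ∀ y : Zb ⧸ Q, frobHom y = y ^ ℓ := fun y => rfl
  have hinj : Function.Injective frobHom := frobenius_inj (Zb ⧸ Q) ℓ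
  have hsurj : Function.Surjective frobHom := by
    intro y
    obtain ⟨b, rfl⟩ := Ideal.Quotient.mk_surjective y
    obtain ⟨c, hc⟩ := IsAlgClosed.exists_pow_nat_eq (b : Qb) hℓ.pos
    have hcint : IsIntegral ℤ c := IsIntegral.of_pow hℓ.pos (hc ▸ b.2)
    refine ⟨Ideal.Quotient.mk Q ⟨c, hcint⟩, ?_⟩
    rw [hfrobHom, ← map_pow]
    congr 1
    exact Subtype.ext hc
  let frobEquiv : (Zb ⧸ Q) ≃ₐ[ℤ ⧸ P] (Zb ⧸ Q) := AlgEquiv.ofBijective frobHom ⟨hinj, hsurj⟩
  obtain ⟨⟨σ, hσ⟩, hσ'⟩ :=
    Ideal.Quotient.stabilizerHom_surjective_of_profinite (G := GQ) P Q frobEquiv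
  -- consequences
  have hσQ : ∀ b : Zb, σ • b ∈ Q ↔ b ∈ Q := fun b => by
    rw [MulAction.mem_stabilizer_iff] at hσ
    conv_lhs => rw [← hσ]
    exact Ideal.smul_mem_pointwise_smul_iff
  have hσfrob : ∀ b : Zb, σ • b - b ^ ℓ ∈ Q := fun b => by
    have h1 := DFunLike.congr_fun hσ' (Ideal.Quotient.mk Q b)
    rw [← Ideal.Quotient.eq]
    rw [Ideal.Quotient.stabilizerHom_apply] at h1
    rw [map_pow]
    exact h1
  have hσ1 : ∀ b : Qb, IsIntegral ℤ b → (A.valuation (σ b) < 1 ↔ A.valuation b < 1) :=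
    fun b hb => by
      have := hσQ ⟨b, hb⟩
      rw [hQmem, hQmem] at this
      exact this
  have hσ2 : ∀ b : Qb, IsIntegral ℤ b → A.valuation (σ b - b ^ ℓ) < 1 := fun b hb => by
    have := hσfrob ⟨b, hb⟩
    rw [hQmem] at this
    exact this
  have hunit : ∀ b : Qb, IsIntegral ℤ b → A.valuation b = 1 → A.valuation (σ b) = 1 :=
    fun b hb hb1 => by
      by_contra hne
      have hlt := lt_of_le_of_ne (val_le_one_of_isIntegral A.valuation (map_isIntegral_int σ hb)) hne
      have := (hσ1 b hb).mp hlt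
      rw [hb1] at this
      exact lt_irrefl _ this
  have hunit' : ∀ b : Qb, IsIntegral ℤ b → A.valuation b = 1 → A.valuation (σ⁻¹ b) = 1 :=
    fun b hb hb1 => by
      by_contra hne
      have hint : IsIntegral ℤ (σ⁻¹ b) := map_isIntegral_int σ⁻¹ hb
      have hlt := lt_of_le_of_ne (val_le_one_of_isIntegral A.valuation hint) hne
      have := (hσ1 _ hint).mpr hlt
      have h2 : σ (σ⁻¹ b) = b := by
        show (σ * σ⁻¹) b = b
        rw [mul_inv_cancel]
        rfl
      rw [h2, hb1] at this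
      exact lt_irrefl _ this
  have hσA : σ ∈ A.decompositionSubgroup ℚ := by
    rw [MulAction.mem_stabilizer_iff]
    apply le_antisymm
    · intro x hx
      rw [ValuationSubring.mem_pointwise_smul_iff_inv_smul_mem] at hx
      have h1 := val_map_le_one A.valuation hℓ hvℓ σ hunit _ ((A.valuation_le_one_iff _).mpr hx)
      have h2 : σ (σ⁻¹ • x) = x := by
        show (σ * σ⁻¹) x = x
        rw [mul_inv_cancel]
        rfl
      rw [h2] at h1
      exact (A.valuation_le_one_iff _).mp h1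
    · intro x hx
      rw [ValuationSubring.mem_pointwise_smul_iff_inv_smul_mem]
      exact (A.valuation_le_one_iff _).mp
        (val_map_le_one A.valuation hℓ hvℓ σ⁻¹ hunit' _ ((A.valuation_le_one_iff _).mpr hx))
  refine ⟨σ, hσA, fun y => ?_⟩
  obtain ⟨x, rfl⟩ := IsLocalRing.residue_surjective y
  rw [← IsLocalRing.ResidueField.residue_smul, ← map_pow, ← sub_eq_zero, ← map_sub,
    IsLocalRing.residue_eq_zero_iff, A.valuation_lt_one_iff]
  exact val_map_sub_pow_lt_one A.valuation hℓ hvℓ σ hunit hσ2 x ((A.valuation_le_one_iff _).mpr x.2)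

/-- For every prime number `ℓ` there is a valuation subring of `AlgebraicClosure ℚ` lying over
`ℓ`. -/
theorem exists_liesOverPrime {ℓ : ℕ} (hℓ : ℓ.Prime) :
    ∃ A : ValuationSubring (AlgebraicClosure ℚ), A.LiesOverPrime ℓ := by
  let R : Subring Qb := (algebraMap ℤ Qb).range
  let x : R := ⟨(ℓ : Qb), ⟨(ℓ : ℤ), by simp⟩⟩
  have hI : Ideal.span {x} ≠ ⊤ := by
    rw [Ne, Ideal.span_singleton_eq_top]
    intro hu
    obtain ⟨⟨u, n, hn⟩, hu⟩ := isUnit_iff_exists_inv.mp hu
    have h1 : (ℓ : Qb) * u = 1 := congrArg Subtype.val hu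
    rw [← hn] at h1
    have h2 : (ℓ : ℤ) * n = 1 := by
      have h3 : (((ℓ : ℤ) * n : ℤ) : Qb) = ((1 : ℤ) : Qb) := by
        push_cast
        simpa using h1
      exact Int.cast_injective h3
    have h4 : IsUnit (ℓ : ℤ) := IsUnit.of_mul_eq_one _ h2
    exact (Nat.prime_iff_prime_int.mp hℓ).not_isUnit h4
  obtain ⟨A, -, hA⟩ := Ideal.image_subset_nonunits_valuationSubring _ hI
  exact ⟨A, hA ⟨x, Ideal.subset_span rfl, rfl⟩⟩

/-- For every prime number `ℓ` there are a valuation subring of `AlgebraicClosure ℚ` lying over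
`ℓ` and a Frobenius element for it. -/
theorem exists_isFrobeniusAt {ℓ : ℕ} (hℓ : ℓ.Prime) :
    ∃ (A : ValuationSubring (AlgebraicClosure ℚ))
      (σ : AlgebraicClosure ℚ ≃ₐ[ℚ] AlgebraicClosure ℚ),
      A.LiesOverPrime ℓ ∧ A.IsFrobeniusAt σ ℓ := by
  obtain ⟨A, hA⟩ := exists_liesOverPrime hℓ
  obtain ⟨σ, hσ⟩ := exists_isFrobeniusAt_of_liesOverPrime hℓ A hA
  exact ⟨A, σ, hA, hσ⟩

end Galois

end Fermat.Agent.Lib.FrobeniusExists
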