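import Mathlib

/-!
# Basic facts on `Gal(AlgebraicClosure ℚ / ℚ)`

The frozen statements use the `ℚ`-algebra structure `DivisionRing.toRatAlgebra` on
`AlgebraicClosure ℚ` (this is what instance search finds), for which Mathlib's instances
`IsAlgClosure ℚ (AlgebraicClosure ℚ)`, `IsGalois ℚ (AlgebraicClosure ℚ)` are not found
automatically.  This file provides them as theorems, together with the fixed field statement.
-/

set_option autoImplicit false

namespace Fermat.Agent.Lib.GalQbar

/-- `AlgebraicClosure ℚ` is an algebraic closure of `ℚ` (for the algebra instance found by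
instance search). -/
theorem isAlgClosure_rat : IsAlgClosure ℚ (AlgebraicClosure ℚ) := by
  have h : (AlgebraicClosure.instAlgebra ℚ : Algebra ℚ (AlgebraicClosure ℚ)) =
      DivisionRing.toRatAlgebra := Subsingleton.elim _ _
  rw [← h]
  infer_instance

/-- `AlgebraicClosure ℚ / ℚ` is Galois. -/
theorem isGalois_rat : IsGalois ℚ (AlgebraicClosure ℚ) :=
  haveI := isAlgClosure_rat
  ⟨⟩

/-- `AlgebraicClosure ℚ / ℚ` is algebraic. -/
theorem isAlgebraic_rat : Algebra.IsAlgebraic ℚ (AlgebraicClosure ℚ) :=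
  haveI := isAlgClosure_rat
  inferInstance

/-- `AlgebraicClosure ℚ / ℚ` is normal. -/
theorem normal_rat : Normal ℚ (AlgebraicClosure ℚ) :=
  haveI := isAlgClosure_rat
  inferInstance

/-- An element of `AlgebraicClosure ℚ` fixed by the whole Galois group is rational. -/
theorem exists_rat_of_fixed (x : AlgebraicClosure ℚ)
    (h : ∀ σ : AlgebraicClosure ℚ ≃ₐ[ℚ] AlgebraicClosure ℚ, σ x = x) :
    ∃ q : ℚ, algebraMap ℚ (AlgebraicClosure ℚ) q = x := by
  have := isGalois_rat
  exact IntermediateField.mem_bot.mp ((InfiniteGalois.mem_bot_iff_fixed x).mpr h)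

/-- An element of `AlgebraicClosure ℚ` fixed by the whole Galois group is rational (cast form). -/
theorem exists_ratCast_of_fixed (x : AlgebraicClosure ℚ)
    (h : ∀ σ : AlgebraicClosure ℚ ≃ₐ[ℚ] AlgebraicClosure ℚ, σ x = x) :
    ∃ q : ℚ, (q : AlgebraicClosure ℚ) = x := by
  obtain ⟨q, hq⟩ := exists_rat_of_fixed x h
  exact ⟨q, by rw [← hq]; simp⟩

/-- Every element of `AlgebraicClosure ℚ` is algebraic over `ℤ`. -/
theorem isAlgebraic_int (x : AlgebraicClosure ℚ) : IsAlgebraic ℤ x :=
  haveI := isAlgebraic_rat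
  (IsFractionRing.isAlgebraic_iff ℤ ℚ (AlgebraicClosure ℚ)).mpr (Algebra.IsAlgebraic.isAlgebraic x)

/-- Any two roots in `AlgebraicClosure ℚ` of an irreducible rational polynomial are conjugate
under the Galois group. -/
theorem exists_algEquiv_apply_eq_of_minpoly_eq (x y : AlgebraicClosure ℚ)
    (h : minpoly ℚ x = minpoly ℚ y) :
    ∃ σ : AlgebraicClosure ℚ ≃ₐ[ℚ] AlgebraicClosure ℚ, σ x = y := by
  have := isAlgClosure_rat
  have := normal_rat
  exact (Normal.minpoly_eq_iff_mem_orbit (AlgebraicClosure ℚ)).mp h.symm |>.imp fun σ hσ => hσ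

end Fermat.Agent.Lib.GalQbar
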