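/-
helper42 — coefficient-ring extensions for the Galois-representation statements (S30/S29/S42):
the integral closure of a complete discrete valuation ring (characteristic zero) in a finite
extension of its fraction field is again a complete discrete valuation ring, module-finite over
the base, with a local and injective structure map and finite residue field.
-/
import Mathlib
import Fermat.Prelude.Thm_IsLocalRing_isAdicComplete_of_module_finite
import Fermat.Prelude.Thm_Algebra_finite_maximalSpectrum_and_bijective_localization_of_module_finite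

set_option autoImplicit false
set_option linter.unusedSectionVars false
set_option linter.style.haveILetI false

namespace Fermat.Agent.Lib.DVRExt

open IsLocalRing

/-- A module-finite domain over a complete Noetherian local ring is a local ring. -/
theorem isLocalRing_of_finite_of_isDomain (𝒪 : Type) [CommRing 𝒪] [IsLocalRing 𝒪]
    [IsNoetherianRing 𝒪] [IsAdicComplete (maximalIdeal 𝒪) 𝒪]
    (B : Type) [CommRing B] [IsDomain B] [Algebra 𝒪 B] [Module.Finite 𝒪 B] : IsLocalRing B := by
  classical
  obtain ⟨-, hbij, -, -⟩ :=
    Algebra.finite_maximalSpectrum_and_bijective_localization_of_module_finite (𝒪 := 𝒪) B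
  obtain ⟨m, hm⟩ := Ideal.exists_maximal B
  refine IsLocalRing.of_unique_max_ideal ⟨m, hm, fun J hJ => ?_⟩
  by_contra hne
  let I₁ : MaximalSpectrum B := ⟨m, hm⟩
  let I₂ : MaximalSpectrum B := ⟨J, hJ⟩
  have hI : I₂ ≠ I₁ := fun h => hne (congrArg MaximalSpectrum.asIdeal h)
  obtain ⟨x, hx⟩ := hbij.2 (Pi.single I₁ 1)
  obtain ⟨y, hy⟩ := hbij.2 (Pi.single I₂ 1)
  have hxy : x * y = 0 := by
    apply hbij.1
    rw [map_mul, hx, hy, map_zero]
    funext I
    simp only [Pi.mul_apply, Pi.zero_apply]
    by_cases h : I = I₁
    · subst h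
      rw [Pi.single_eq_of_ne hI.symm, mul_zero]
    · rw [Pi.single_eq_of_ne h, zero_mul]
  rcases mul_eq_zero.mp hxy with h0 | h0
  · rw [h0, map_zero] at hx
    have h1 := congrFun hx I₁
    simp only [Pi.zero_apply, Pi.single_eq_same] at h1
    exact zero_ne_one h1
  · rw [h0, map_zero] at hy
    have h1 := congrFun hy I₂
    simp only [Pi.zero_apply, Pi.single_eq_same] at h1
    exact zero_ne_one h1

section IntegralClosure

variable (A : Type) [CommRing A] [IsDomain A] [IsDiscreteValuationRing A]
  (K : Type) [Field K] [Algebra A K] [IsFractionRing A K]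
  (L : Type) [Field L] [Algebra K L] [Algebra A L] [IsScalarTower A K L]
  [FiniteDimensional K L] [Algebra.IsSeparable K L]
  (B : Type) [CommRing B] [IsDomain B] [Algebra A B] [Algebra B L] [IsScalarTower A B L]
  [IsIntegralClosure B A L]

include A K L

/-- The integral closure is module-finite. -/
theorem moduleFinite : Module.Finite A B := IsIntegralClosure.finite A K L B

/-- The structure map into the integral closure is injective. -/
theorem algebraMap_injective : Function.Injective (algebraMap A B) := by
  have h : Function.Injective (algebraMap A L) := by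
    rw [IsScalarTower.algebraMap_eq A K L]
    exact (algebraMap K L).injective.comp (IsFractionRing.injective A K)
  rw [IsScalarTower.algebraMap_eq A B L] at h
  exact Function.Injective.of_comp h

/-- The structure map into the integral closure is a local homomorphism. -/
theorem isLocalHom : IsLocalHom (algebraMap A B) :=
  haveI : Algebra.IsIntegral A B := IsIntegralClosure.isIntegral_algebra A L
  (algebraMap_isIntegral_iff.mpr ‹_›).isLocalHom (algebraMap_injective A K L B)

/-- The integral closure is not a field. -/
theorem not_isField_closure : ¬ IsField B := fun hB =>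
  haveI : Algebra.IsIntegral A B := IsIntegralClosure.isIntegral_algebra A L
  IsDiscreteValuationRing.not_isField A
    (isField_of_isIntegral_of_isField (algebraMap_injective A K L B) hB)

/-- The integral closure of a complete discrete valuation ring in a finite separable extension
of its fraction field is a local ring. -/
theorem isLocalRing [IsAdicComplete (maximalIdeal A) A] : IsLocalRing B :=
  haveI := moduleFinite A K L B
  isLocalRing_of_finite_of_isDomain A B

/-- The integral closure of a complete discrete valuation ring in a finite separable extension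
of its fraction field is a discrete valuation ring. -/
theorem isDiscreteValuationRing [IsAdicComplete (maximalIdeal A) A] :
    IsDiscreteValuationRing B := by
  haveI := isLocalRing A K L B
  have hD : IsDedekindDomain B := IsIntegralClosure.isDedekindDomain A K L B
  haveI : IsNoetherianRing B := hD.toIsNoetherian
  exact ((IsDiscreteValuationRing.TFAE B (not_isField_closure A K L B)).out 2 0).mp hD

/-- The integral closure of a complete discrete valuation ring in a finite separable extension
of its fraction field is complete for its maximal ideal. -/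
theorem isAdicComplete [IsAdicComplete (maximalIdeal A) A] [IsLocalRing B] :
    IsAdicComplete (maximalIdeal B) B := by
  haveI := moduleFinite A K L B
  haveI := isLocalHom A K L B
  exact IsLocalRing.isAdicComplete_of_module_finite (𝒪 := A) (T := B)

/-- The residue field of the integral closure is finite when that of the base is. -/
theorem finite_residueField [IsLocalRing B] [Finite (ResidueField A)] :
    Finite (ResidueField B) :=
  haveI := moduleFinite A K L B
  haveI := isLocalHom A K L B
  IsLocalRing.ResidueField.finite_of_finite (R := A) (S := B) inferInstance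

/-- Characteristic zero passes to the integral closure. -/
theorem charZero [CharZero A] : CharZero B :=
  charZero_of_injective_algebraMap (algebraMap_injective A K L B)

end IntegralClosure

/-- **Coefficient extension.** For a complete discrete valuation ring `𝒪'` of characteristic
zero with finite residue field, fraction field `K`, and a finite extension `L / K`, there is a
ring `𝒪''` with all the structure demanded in the conclusion of the Galois-representation
statements, sitting inside `L` as the integral closure of `𝒪'`. -/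
theorem exists_extension (𝒪' : Type) [CommRing 𝒪'] [IsDomain 𝒪'] [IsDiscreteValuationRing 𝒪']
    [IsAdicComplete (maximalIdeal 𝒪') 𝒪'] [Finite (ResidueField 𝒪')] [CharZero 𝒪']
    (K : Type) [Field K] [Algebra 𝒪' K] [IsFractionRing 𝒪' K]
    (L : Type) [Field L] [Algebra K L] [FiniteDimensional K L] :
    ∃ (𝒪'' : Type) (_ : CommRing 𝒪'') (_ : IsDomain 𝒪'') (_ : IsDiscreteValuationRing 𝒪'')
      (_ : IsAdicComplete (maximalIdeal 𝒪'') 𝒪'')
      (_ : Finite (ResidueField 𝒪'')) (_ : CharZero 𝒪'')
      (_ : Algebra 𝒪' 𝒪'') (_ : Module.Finite 𝒪' 𝒪'') (_ : IsLocalHom (algebraMap 𝒪' 𝒪''))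
      (_ : Algebra 𝒪'' L) (_ : IsFractionRing 𝒪'' L),
      Function.Injective (algebraMap 𝒪' 𝒪'') ∧
      (∀ a : 𝒪', algebraMap 𝒪'' L (algebraMap 𝒪' 𝒪'' a) = algebraMap K L (algebraMap 𝒪' K a)) ∧
      (∀ y : L, (∃ b : 𝒪'', algebraMap 𝒪'' L b = y) ↔
        ((algebraMap K L).comp (algebraMap 𝒪' K)).IsIntegralElem y) := by
  letI : Algebra 𝒪' L := ((algebraMap K L).comp (algebraMap 𝒪' K)).toAlgebra
  haveI : IsScalarTower 𝒪' K L := IsScalarTower.of_algebraMap_eq fun _ => rfl
  haveI : CharZero K := charZero_of_injective_algebraMap (IsFractionRing.injective 𝒪' K)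
  haveI : Algebra.IsSeparable K L := inferInstance
  let B := integralClosure 𝒪' L
  haveI hloc : IsLocalRing B := isLocalRing 𝒪' K L B
  haveI hdvr : IsDiscreteValuationRing B := isDiscreteValuationRing 𝒪' K L B
  haveI hcomp : IsAdicComplete (maximalIdeal B) B := isAdicComplete 𝒪' K L B
  haveI hfin : Finite (ResidueField B) := finite_residueField 𝒪' K L B
  haveI hchar : CharZero B := charZero 𝒪' K L B
  haveI hmf : Module.Finite 𝒪' B := moduleFinite 𝒪' K L B
  haveI hlh : IsLocalHom (algebraMap 𝒪' B) := isLocalHom 𝒪' K L B
  haveI hfr : IsFractionRing B L := IsIntegralClosure.isFractionRing_of_finite_extension 𝒪' K L B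
  refine ⟨B, inferInstance, inferInstance, hdvr, hcomp, hfin, hchar, inferInstance, hmf, hlh,
    inferInstance, hfr, algebraMap_injective 𝒪' K L B, fun a => rfl, fun y => ?_⟩
  constructor
  · rintro ⟨b, rfl⟩
    exact b.2
  · intro hy
    exact ⟨⟨y, hy⟩, rfl⟩

/-- **Lying over for ring homomorphisms.** Along an integral extension `R → R'`, a ring
homomorphism from `R` to an algebraically closed field that kills the kernel of `R → R'` extends
to `R'`. -/
theorem exists_ringHom_lift {R R' : Type*} [CommRing R] [CommRing R'] [Algebra R R']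
    [Algebra.IsIntegral R R'] {Ω : Type*} [Field Ω] [IsAlgClosed Ω] (φ : R →+* Ω)
    (hker : RingHom.ker (algebraMap R R') ≤ RingHom.ker φ) :
    ∃ φ' : R' →+* Ω, ∀ r, φ' (algebraMap R R' r) = φ r := by
  haveI hP : (RingHom.ker φ).IsPrime := RingHom.ker_isPrime φ
  obtain ⟨Q, -, hQ, hcomap⟩ := Ideal.exists_ideal_over_prime_of_isIntegral (RingHom.ker φ)
    (⊥ : Ideal R') (by rw [← RingHom.ker_eq_comap_bot]; exact hker)
  haveI : Q.LiesOver (RingHom.ker φ) := ⟨hcomap.symm⟩
  haveI : IsDomain (R ⧸ RingHom.ker φ) := Ideal.Quotient.isDomain _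
  haveI : IsDomain (R' ⧸ Q) := Ideal.Quotient.isDomain Q
  letI : Algebra (R ⧸ RingHom.ker φ) Ω := (RingHom.kerLift φ).toAlgebra
  haveI : Module.IsTorsionFree (R ⧸ RingHom.ker φ) Ω :=
    Module.isTorsionFree_iff_algebraMap_injective.mpr (RingHom.kerLift_injective φ)
  haveI : Module.IsTorsionFree (R ⧸ RingHom.ker φ) (R' ⧸ Q) :=
    Module.isTorsionFree_iff_faithfulSMul.mpr inferInstance
  haveI : Algebra.IsAlgebraic (R ⧸ RingHom.ker φ) (R' ⧸ Q) := Algebra.IsIntegral.isAlgebraic
  let ψ : (R' ⧸ Q) →ₐ[R ⧸ RingHom.ker φ] Ω := IsAlgClosed.lift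
  refine ⟨(ψ : (R' ⧸ Q) →+* Ω).comp (Ideal.Quotient.mk Q), fun r => ?_⟩
  have h1 : Ideal.Quotient.mk Q (algebraMap R R' r)
      = algebraMap (R ⧸ RingHom.ker φ) (R' ⧸ Q) (Ideal.Quotient.mk _ r) := rfl
  rw [RingHom.comp_apply, h1]
  exact (ψ.commutes _).trans (RingHom.kerLift_mk φ r)

/-- **Coefficient extension carrying a character.** Let `𝒪'` be a complete discrete valuation
ring of characteristic zero with finite residue field, `R → R'` a module-finite ring extension
and `χ : R →+* 𝒪'` a character killing the kernel of `R → R'`. Then there are an extension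
`𝒪''` of `𝒪'` with all the structure demanded in the conclusion of the Galois-representation
statements and a character `χ'' : R' →+* 𝒪''` extending `χ`. -/
theorem exists_extension_ringHom (𝒪' : Type) [CommRing 𝒪'] [IsDomain 𝒪']
    [IsDiscreteValuationRing 𝒪'] [IsAdicComplete (maximalIdeal 𝒪') 𝒪']
    [Finite (ResidueField 𝒪')] [CharZero 𝒪']
    {R R' : Type*} [CommRing R] [CommRing R'] [Algebra R R'] [Module.Finite R R']
    (χ : R →+* 𝒪') (hker : RingHom.ker (algebraMap R R') ≤ RingHom.ker χ) :
    ∃ (𝒪'' : Type) (_ : CommRing 𝒪'') (_ : IsDomain 𝒪'') (_ : IsDiscreteValuationRing 𝒪'')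
      (_ : IsAdicComplete (maximalIdeal 𝒪'') 𝒪'')
      (_ : Finite (ResidueField 𝒪'')) (_ : CharZero 𝒪'')
      (_ : Algebra 𝒪' 𝒪'') (_ : Module.Finite 𝒪' 𝒪'') (_ : IsLocalHom (algebraMap 𝒪' 𝒪'')),
      Function.Injective (algebraMap 𝒪' 𝒪'') ∧
      ∃ χ'' : R' →+* 𝒪'', ∀ r, χ'' (algebraMap R R' r) = algebraMap 𝒪' 𝒪'' (χ r) := by
  classical
  let K := FractionRing 𝒪'
  let Ω := AlgebraicClosure K
  let ι : 𝒪' →+* Ω := (algebraMap K Ω).comp (algebraMap 𝒪' K)
  have hι : Function.Injective ι :=
    (algebraMap K Ω).injective.comp (IsFractionRing.injective 𝒪' K)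
  let φ : R →+* Ω := ι.comp χ
  have hkerφ : RingHom.ker (algebraMap R R') ≤ RingHom.ker φ := by
    intro r hr
    have := hker hr
    rw [RingHom.mem_ker] at this ⊢
    simp only [φ, RingHom.comp_apply, this, map_zero]
  haveI : Algebra.IsIntegral R R' := inferInstance
  obtain ⟨φ', hφ'⟩ := exists_ringHom_lift φ hkerφ
  -- a finite generating set
  obtain ⟨t, ht⟩ := (Module.finite_def.mp (inferInstance : Module.Finite R R'))
  let s : Set Ω := φ' '' (t : Set R')
  haveI : Finite s := (t.finite_toSet.image φ').to_subtype
  let L : IntermediateField K Ω := IntermediateField.adjoin K s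
  haveI : FiniteDimensional K L :=
    IntermediateField.finiteDimensional_adjoin fun x _ => Algebra.IsIntegral.isIntegral x
  have hmem : ∀ x : R', φ' x ∈ L := by
    intro x
    have hx : x ∈ Submodule.span R (t : Set R') := ht ▸ Submodule.mem_top
    induction hx using Submodule.span_induction with
    | mem y hy => exact IntermediateField.subset_adjoin K s ⟨y, hy, rfl⟩
    | zero => rw [map_zero]; exact L.zero_mem
    | add y z _ _ hy hz => rw [map_add]; exact L.add_mem hy hz
    | smul r y _ hy =>
      rw [Algebra.smul_def, map_mul, hφ']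
      exact L.mul_mem (L.algebraMap_mem _) hy
  obtain ⟨𝒪'', i1, i2, i3, i4, i5, i6, i7, i8, i9, i10, i11, hinj, hcompat, hint⟩ :=
    exists_extension 𝒪' K L
  refine ⟨𝒪'', i1, i2, i3, i4, i5, i6, i7, i8, i9, hinj, ?_⟩
  have hinjL : Function.Injective (algebraMap 𝒪'' L) := IsFractionRing.injective 𝒪'' L
  have hall : ∀ x : R', ∃ b : 𝒪'', algebraMap 𝒪'' L b = ⟨φ' x, hmem x⟩ := by
    intro x
    rw [hint]
    obtain ⟨p, hp, hpx⟩ := Algebra.IsIntegral.isIntegral (R := R) x
    refine ⟨p.map χ, hp.map χ, ?_⟩
    apply Subtype.ext
    have hcomp : (algebraMap L Ω).comp ((algebraMap K L).comp (algebraMap 𝒪' K)) = ι := by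
      ext a; rfl
    have h2 : ((Polynomial.eval₂ ((algebraMap K L).comp (algebraMap 𝒪' K))
        (⟨φ' x, hmem x⟩ : L) (p.map χ) : L) : Ω)
        = Polynomial.eval₂ ι (φ' x) (p.map χ) := by
      have h := Polynomial.hom_eval₂ (p.map χ) ((algebraMap K L).comp (algebraMap 𝒪' K))
        (algebraMap L Ω) (⟨φ' x, hmem x⟩ : L)
      rw [hcomp] at h
      exact h
    rw [h2, Polynomial.eval₂_map]
    have h3 : ι.comp χ = φ'.comp (algebraMap R R') := by
      ext r
      exact (hφ' r).symm
    rw [h3, ← Polynomial.hom_eval₂, hpx, map_zero]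
    rfl
  choose f hf using hall
  refine ⟨{ toFun := f
            map_one' := hinjL ((hf 1).trans (by
              rw [(algebraMap 𝒪'' L).map_one]; exact Subtype.ext (map_one φ')))
            map_mul' := fun x y => hinjL ((hf (x * y)).trans (by
              rw [(algebraMap 𝒪'' L).map_mul (f x) (f y), hf, hf]
              exact Subtype.ext (map_mul φ' x y)))
            map_zero' := hinjL ((hf 0).trans (by
              rw [(algebraMap 𝒪'' L).map_zero]; exact Subtype.ext (map_zero φ')))
            map_add' := fun x y => hinjL ((hf (x + y)).trans (by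
              rw [(algebraMap 𝒪'' L).map_add (f x) (f y), hf, hf]
              exact Subtype.ext (map_add φ' x y))) }, fun r => ?_⟩
  apply hinjL
  change algebraMap 𝒪'' L (f (algebraMap R R' r)) = _
  rw [hf, hcompat]
  exact Subtype.ext (hφ' r)

end Fermat.Agent.Lib.DVRExt
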