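import Mathlib

/-!
# Level-one modular forms are polynomials in `E₄` and `E₆`

Every modular form of level one and weight `k` is a `ℂ`-linear combination of the monomials
`E₄ ^ a * E₆ ^ b` with `4 a + 6 b = k`.  We give the span form, the polynomial form and the
"ideal" form `c = E₄ * u + E₆ * v` (for `k ≠ 0`).
-/

open UpperHalfPlane ModularForm ModularFormClass MatrixGroups EisensteinSeries

namespace Fermat.Agent.Lib.LevelOneE4E6

noncomputable section

/-- The monomial `E₄ ^ a * E₆ ^ b` as a level-one modular form of weight `k = 4 a + 6 b`. -/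
def monoForm (k : ℤ) (a b : ℕ) (h : 4 * (a : ℤ) + 6 * (b : ℤ) = k) : ModularForm 𝒮ℒ k :=
  ModularForm.mcast (by rw [← h]; ring) ((E₄.pow a).mul (E₆.pow b))

theorem coe_monoForm (k : ℤ) (a b : ℕ) (h : 4 * (a : ℤ) + 6 * (b : ℤ) = k) :
    (⇑(monoForm k a b h) : ℍ → ℂ) = (⇑E₄) ^ a * (⇑E₆) ^ b := by
  simp [monoForm]

theorem monoForm_apply (k : ℤ) (a b : ℕ) (h : 4 * (a : ℤ) + 6 * (b : ℤ) = k) (z : ℍ) :
    monoForm k a b h z = E₄ z ^ a * E₆ z ^ b := by
  rw [coe_monoForm]
  rfl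

theorem qExpansion_monoForm (k : ℤ) (a b : ℕ) (h : 4 * (a : ℤ) + 6 * (b : ℤ) = k) :
    qExpansion 1 (monoForm k a b h) = qExpansion 1 E₄ ^ a * qExpansion 1 E₆ ^ b := by
  have : qExpansion 1 (monoForm k a b h) = qExpansion 1 ((E₄.pow a).mul (E₆.pow b)) := rfl
  rw [this, ModularForm.qExpansion_mul one_pos one_mem_strictPeriods_SL,
    ModularForm.qExpansion_pow one_pos one_mem_strictPeriods_SL,
    ModularForm.qExpansion_pow one_pos one_mem_strictPeriods_SL]

theorem qExpansion_monoForm_coeff_zero (k : ℤ) (a b : ℕ) (h : 4 * (a : ℤ) + 6 * (b : ℤ) = k) :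
    (qExpansion 1 (monoForm k a b h)).coeff 0 = 1 := by
  have h4 : PowerSeries.constantCoeff (qExpansion 1 E₄) = 1 := by
    simpa using E_qExpansion_coeff_zero (by norm_num : 3 ≤ 4) ⟨2, rfl⟩
  have h6 : PowerSeries.constantCoeff (qExpansion 1 E₆) = 1 := by
    simpa using E_qExpansion_coeff_zero (by norm_num : 3 ≤ 6) ⟨3, rfl⟩
  rw [qExpansion_monoForm, PowerSeries.coeff_zero_eq_constantCoeff_apply, map_mul, map_pow,
    map_pow, h4, h6, one_pow, one_pow, one_mul]

/-- The set of monomial forms `E₄ ^ a * E₆ ^ b` of weight `k`. -/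
def monoSet (k : ℤ) : Set (ModularForm 𝒮ℒ k) :=
  {g | ∃ a b : ℕ, 4 * (a : ℤ) + 6 * (b : ℤ) = k ∧ ∀ z : ℍ, g z = E₄ z ^ a * E₆ z ^ b}

theorem monoForm_mem_monoSet (k : ℤ) (a b : ℕ) (h : 4 * (a : ℤ) + 6 * (b : ℤ) = k) :
    monoForm k a b h ∈ monoSet k :=
  ⟨a, b, h, monoForm_apply k a b h⟩

/-- Multiplication by the discriminant, as a linear map from weight `k - 12` to weight `k`. -/
def mulDelta (k : ℤ) : ModularForm 𝒮ℒ (k - 12) →ₗ[ℂ] ModularForm 𝒮ℒ k :=
  CuspForm.toModularFormₗ ∘ₗ (CuspForm.discriminantEquiv (k := k)).symm.toLinearMap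

theorem mulDelta_apply (k : ℤ) (g : ModularForm 𝒮ℒ (k - 12)) (z : ℍ) :
    mulDelta k g z = ModularForm.discriminant z * g z := rfl

theorem mulDelta_mem_span (k : ℤ) {g : ModularForm 𝒮ℒ (k - 12)}
    (hg : g ∈ Submodule.span ℂ (monoSet (k - 12))) :
    mulDelta k g ∈ Submodule.span ℂ (monoSet k) := by
  have hle : Submodule.map (mulDelta k) (Submodule.span ℂ (monoSet (k - 12))) ≤
      Submodule.span ℂ (monoSet k) := by
    rw [Submodule.map_span_le]
    rintro m ⟨a, b, hab, hm⟩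
    have h1 : 4 * ((a + 3 : ℕ) : ℤ) + 6 * (b : ℤ) = k := by push_cast; omega
    have h2 : 4 * (a : ℤ) + 6 * ((b + 2 : ℕ) : ℤ) = k := by push_cast; omega
    have : mulDelta k m = (1 / 1728 : ℂ) • (monoForm k (a + 3) b h1 - monoForm k a (b + 2) h2) := by
      ext z
      rw [mulDelta_apply, hm z, discriminant_eq_E₄_cube_sub_E₆_sq z]
      simp only [smul_apply, sub_apply, monoForm_apply, smul_eq_mul]
      ring
    rw [this]
    exact Submodule.smul_mem _ _ (Submodule.sub_mem _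
      (Submodule.subset_span (monoForm_mem_monoSet k _ _ h1))
      (Submodule.subset_span (monoForm_mem_monoSet k _ _ h2)))
  exact hle (Submodule.mem_map_of_mem hg)

theorem mem_span_monoSet_aux :
    ∀ (n : ℕ) (k : ℤ), k < n → ∀ c : ModularForm 𝒮ℒ k, c ∈ Submodule.span ℂ (monoSet k) := by
  intro n
  induction n with
  | zero =>
    intro k hk c
    rw [rank_zero_iff_forall_zero.mp (levelOne_neg_weight_rank_zero (by exact_mod_cast hk)) c]
    exact zero_mem _
  | succ n ih =>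
    intro k hk c
    rcases lt_or_ge k (n : ℤ) with hkn | hkn
    · exact ih k hkn c
    have hkn' : k = n := by push_cast at hk; omega
    rcases Int.even_or_odd k with hk2 | hk2
    swap
    · rw [levelOne_odd_weight_eq_zero hk2 c]
      exact zero_mem _
    rcases lt_or_ge k 3 with hk3 | hk3
    · have h02 : k = 0 ∨ k = 2 := by
        obtain ⟨m, rfl⟩ := hk2
        omega
      rcases h02 with rfl | rfl
      · obtain ⟨x, hx⟩ := levelOne_weight_zero_const c
        have hc : c = x • monoForm 0 0 0 (by norm_num) := by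
          ext z
          rw [hx]
          simp [monoForm_apply]
        rw [hc]
        exact Submodule.smul_mem _ _ (Submodule.subset_span (monoForm_mem_monoSet 0 0 0 _))
      · rw [rank_zero_iff_forall_zero.mp levelOne_weight_two_rank_zero c]
        exact zero_mem _
    · obtain ⟨a, b, hab⟩ : ∃ a b : ℕ, 4 * (a : ℤ) + 6 * (b : ℤ) = k := by
        obtain ⟨m, rfl⟩ := hk2
        rcases Int.even_or_odd m with ⟨j, rfl⟩ | ⟨j, rfl⟩
        · exact ⟨j.toNat, 0, by omega⟩
        · exact ⟨(j - 1).toNat, 1, by omega⟩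
      have hG0 : (qExpansion 1 (monoForm k a b hab)).coeff 0 = 1 :=
        qExpansion_monoForm_coeff_zero k a b hab
      set a0 : ℂ := (qExpansion 1 c).coeff 0 with ha0
      set h : ModularForm 𝒮ℒ k := c - a0 • monoForm k a b hab with hh
      have hcusp : (qExpansion 1 h).coeff 0 = 0 :=
        (isCuspForm_iff_coeffZero_eq_zero _).mp (sub_smul_isCuspForm c _ hG0)
      have hg : CuspForm.discriminantEquiv (toCuspForm h hcusp) ∈
          Submodule.span ℂ (monoSet (k - 12)) := ih (k - 12) (by omega) _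
      have hc : c = a0 • monoForm k a b hab +
          mulDelta k (CuspForm.discriminantEquiv (toCuspForm h hcusp)) := by
        ext z
        rw [add_apply, mulDelta_apply, discriminant_mul_discriminantEquiv_apply,
          toCuspForm_apply, hh]
        simp
      rw [hc]
      exact Submodule.add_mem _
        (Submodule.smul_mem _ _ (Submodule.subset_span (monoForm_mem_monoSet k a b hab)))
        (mulDelta_mem_span k hg)

/-- Every level-one modular form of weight `k` is a linear combination of the monomials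
`E₄ ^ a * E₆ ^ b` with `4 a + 6 b = k`. -/
theorem mem_span_monoSet {k : ℤ} (c : ModularForm 𝒮ℒ k) : c ∈ Submodule.span ℂ (monoSet k) :=
  mem_span_monoSet_aux (k.toNat + 1) k (by omega) c

/-- **Level-one forms are spanned by the monomials `E₄ ^ a * E₆ ^ b`.** -/
theorem span_monomials (k : ℤ) :
    Submodule.span ℂ {g : ModularForm 𝒮ℒ k | ∃ a b : ℕ, 4 * (a : ℤ) + 6 * (b : ℤ) = k ∧
      ∀ z : ℍ, g z = E₄ z ^ a * E₆ z ^ b} = ⊤ :=
  eq_top_iff.mpr fun c _ => mem_span_monoSet c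

/-- **Level-one forms are polynomials in `E₄`, `E₆`** (weighted homogeneous of degree `k` for the
weights `4`, `6`). -/
theorem exists_mvPolynomial_isWeightedHomogeneous {k : ℤ} (c : ModularForm 𝒮ℒ k) :
    ∃ p : MvPolynomial (Fin 2) ℂ, p.IsWeightedHomogeneous (![4, 6] : Fin 2 → ℤ) k ∧
      ∀ z : ℍ, c z = MvPolynomial.eval ![E₄ z, E₆ z] p := by
  refine Submodule.span_induction (p := fun c _ => ∃ p : MvPolynomial (Fin 2) ℂ,
    p.IsWeightedHomogeneous (![4, 6] : Fin 2 → ℤ) k ∧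
      ∀ z : ℍ, c z = MvPolynomial.eval ![E₄ z, E₆ z] p) ?_ ?_ ?_ ?_ (mem_span_monoSet c)
  · rintro g ⟨a, b, hab, hg⟩
    refine ⟨MvPolynomial.X 0 ^ a * MvPolynomial.X 1 ^ b, ?_, fun z => ?_⟩
    · have := ((MvPolynomial.isWeightedHomogeneous_X ℂ (![4, 6] : Fin 2 → ℤ) 0).pow a).mul
        ((MvPolynomial.isWeightedHomogeneous_X ℂ (![4, 6] : Fin 2 → ℤ) 1).pow b)
      have he : a • (![4, 6] : Fin 2 → ℤ) 0 + b • (![4, 6] : Fin 2 → ℤ) 1 = k := by
        simp only [Matrix.cons_val_zero, Matrix.cons_val_one, nsmul_eq_mul]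
        omega
      rwa [he] at this
    · rw [hg z]
      simp
  · exact ⟨0, MvPolynomial.isWeightedHomogeneous_zero ℂ _ _, fun z => by simp⟩
  · rintro x y _ _ ⟨p, hp, hpz⟩ ⟨q, hq, hqz⟩
    exact ⟨p + q, hp.add hq, fun z => by simp [hpz z, hqz z]⟩
  · rintro a x _ ⟨p, hp, hpz⟩
    exact ⟨MvPolynomial.C a * p, hp.C_mul a, fun z => by simp [hpz z]⟩

/-- Polynomial form with an explicit support condition. -/
theorem exists_mvPolynomial {k : ℤ} (c : ModularForm 𝒮ℒ k) :
    ∃ p : MvPolynomial (Fin 2) ℂ, (∀ m ∈ p.support, 4 * (m 0 : ℤ) + 6 * (m 1 : ℤ) = k) ∧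
      ∀ z : ℍ, c z = MvPolynomial.eval ![E₄ z, E₆ z] p := by
  obtain ⟨p, hp, hpz⟩ := exists_mvPolynomial_isWeightedHomogeneous c
  refine ⟨p, fun m hm => ?_, hpz⟩
  have := hp (MvPolynomial.mem_support_iff.mp hm)
  rw [← this, Finsupp.weight_apply, Finsupp.sum_fintype _ _ (by simp)]
  simp [Fin.sum_univ_two]
  ring

/-- **Ideal form**: a level-one form of nonzero weight lies in the ideal generated by `E₄`
and `E₆`. -/
theorem exists_E4_mul_add_E6_mul {k : ℤ} (hk : k ≠ 0) (c : ModularForm 𝒮ℒ k) :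
    ∃ (u : ModularForm 𝒮ℒ (k - 4)) (v : ModularForm 𝒮ℒ (k - 6)),
      ∀ z : ℍ, c z = E₄ z * u z + E₆ z * v z := by
  refine Submodule.span_induction (p := fun c _ => ∃ (u : ModularForm 𝒮ℒ (k - 4))
    (v : ModularForm 𝒮ℒ (k - 6)), ∀ z : ℍ, c z = E₄ z * u z + E₆ z * v z) ?_ ?_ ?_ ?_
    (mem_span_monoSet c)
  · rintro g ⟨a, b, hab, hg⟩
    rcases Nat.eq_zero_or_pos a with rfl | ha
    · have hb : 0 < b := by
        rcases Nat.eq_zero_or_pos b with rfl | hb
        · exact absurd (by simpa using hab.symm) hk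
        · exact hb
      obtain ⟨b', rfl⟩ : ∃ b', b = b' + 1 := ⟨b - 1, by omega⟩
      refine ⟨0, monoForm (k - 6) 0 b' (by push_cast at hab ⊢; omega), fun z => ?_⟩
      rw [hg z, monoForm_apply]
      simp
      ring
    · obtain ⟨a', rfl⟩ : ∃ a', a = a' + 1 := ⟨a - 1, by omega⟩
      refine ⟨monoForm (k - 4) a' b (by push_cast at hab ⊢; omega), 0, fun z => ?_⟩
      rw [hg z, monoForm_apply]
      simp
      ring
  · exact ⟨0, 0, fun z => by simp⟩
  · rintro x y _ _ ⟨u, v, h⟩ ⟨u', v', h'⟩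
    exact ⟨u + u', v + v', fun z => by simp [h z, h' z]; ring⟩
  · rintro a x _ ⟨u, v, h⟩
    exact ⟨a • u, a • v, fun z => by simp [h z]; ring⟩

end

end Fermat.Agent.Lib.LevelOneE4E6
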