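import Mathlib
import Fermat.Prelude.Def_FLTPrelim_Ramification

/-!
# Teichmüller lifts in a valuation subring of an algebraic closure of `ℚ`

Let `A` be a valuation subring of an algebraically closed field `L`, algebraic over `ℚ`, lying
over the prime `l`, with residue field `κ`.

* `isAlgebraic_residue` : every element of `κ` is algebraic over `𝔽_l`;
* `exists_rootOfUnity_lift` : every nonzero element of `κ` is the residue of a root of unity of
  order prime to `l`;
* `eq_of_residue_eq` : roots of unity of order prime to `l` are determined by their residues;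
* `inertia_fixed_of_pow_eq_one` : they are fixed by the inertia group;
* `exists_inertia_fixed_lift` : every element of `κ` has an inertia-fixed lift in `A`.
-/

set_option autoImplicit false

noncomputable section

namespace Fermat.Agent.Lib.TeichLift

open Polynomial

section General

variable {L : Type*} [Field L] (A : ValuationSubring L)

/-- Roots of unity lie in every valuation subring. -/
theorem mem_of_pow_eq_one {n : ℕ} (hn : 0 < n) {ζ : L} (hζ : ζ ^ n = 1) : ζ ∈ A := by
  rcases A.mem_or_inv_mem ζ with h | h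
  · exact h
  · have h1 : ζ ^ (n - 1) * ζ = 1 := by rw [← pow_succ, Nat.sub_add_cancel hn, hζ]
    have h2 : ζ = (ζ⁻¹) ^ (n - 1) := by
      rw [inv_pow]
      exact eq_inv_of_mul_eq_one_right h1
    rw [h2]
    exact pow_mem h _

/-- The residue field has characteristic `l`. -/
theorem charP_res {l : ℕ} (hl : l.Prime) (hA : A.LiesOverPrime l) :
    CharP (IsLocalRing.ResidueField A) l := by
  rw [CharP.charP_iff_prime_eq_zero hl]
  have h1 : ((l : A) : L) ∈ A.nonunits := by
    have h2 : ((l : A) : L) = (l : L) := by push_cast; rfl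
    rw [h2]
    exact hA
  have h3 : (l : A) ∈ IsLocalRing.maximalIdeal A := ValuationSubring.coe_mem_nonunits_iff.mp h1
  have h4 : IsLocalRing.residue A (l : A) = 0 := (IsLocalRing.residue_eq_zero_iff _).mpr h3
  rwa [map_natCast] at h4

/-- Roots of unity of order prime to `l` are determined by their residues. -/
theorem eq_of_residue_eq {l : ℕ} (hl : l.Prime) (hA : A.LiesOverPrime l) {n : ℕ}
    (hn : ¬ l ∣ n) {ζ ζ' : A} (hζ : ζ ^ n = 1) (hζ' : ζ' ^ n = 1)
    (h : IsLocalRing.residue A ζ = IsLocalRing.residue A ζ') : ζ = ζ' := by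
  haveI := charP_res A hl hA
  have hn0 : n ≠ 0 := by
    rintro rfl
    exact hn (dvd_zero l)
  have hnpos : 0 < n := Nat.pos_of_ne_zero hn0
  set u : A := ζ' * ζ ^ (n - 1) with hu
  have hζn : ζ * ζ ^ (n - 1) = 1 := by rw [← pow_succ', Nat.sub_add_cancel hnpos, hζ]
  have hun : u ^ n = 1 := by
    rw [hu, mul_pow, hζ', one_mul, ← pow_mul, mul_comm, pow_mul, hζ, one_pow]
  have hures : IsLocalRing.residue A u = 1 := by
    rw [hu, map_mul, ← h, ← map_mul, hζn, map_one]
  by_contra hne
  have hu1 : u ≠ 1 := by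
    intro h1
    apply hne
    have h2 : ζ' * ζ ^ (n - 1) = ζ * ζ ^ (n - 1) := by rw [← hu, h1, hζn]
    have h3 : ζ ^ (n - 1) ≠ 0 := by
      intro h0
      rw [h0, mul_zero] at hζn
      exact zero_ne_one hζn
    exact (mul_right_cancel₀ h3 h2).symm
  have hgeom : (∑ i ∈ Finset.range n, u ^ i) * (u - 1) = u ^ n - 1 := geom_sum_mul u n
  have hsum : ∑ i ∈ Finset.range n, u ^ i = 0 := by
    have h0 : (∑ i ∈ Finset.range n, u ^ i) * (u - 1) = 0 := by rw [hgeom, hun, sub_self]
    exact (mul_eq_zero.mp h0).resolve_right (sub_ne_zero.mpr hu1)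
  have h5 := congrArg (IsLocalRing.residue A) hsum
  rw [map_sum, map_zero] at h5
  simp only [map_pow, hures, one_pow, Finset.sum_const, Finset.card_range, nsmul_eq_mul,
    mul_one] at h5
  exact hn ((CharP.cast_eq_zero_iff _ l n).mp h5)

end General

section Inertia

variable {L : Type*} [Field L] [Algebra ℚ L] (A : ValuationSubring L)

/-- Elements of the inertia group fix the residues of elements of `A`. -/
theorem residue_inertia {σ : L ≃ₐ[ℚ] L} (hσ : σ ∈ A.inertiaSubgroupIn ℚ) (a : A) :
    ∃ h : σ (a : L) ∈ A, IsLocalRing.residue A ⟨σ (a : L), h⟩ = IsLocalRing.residue A a := by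
  obtain ⟨τ, hτ, rfl⟩ := hσ
  have h1 : IsLocalRing.residue A (τ • a) = τ • IsLocalRing.residue A a :=
    IsLocalRing.ResidueField.residue_smul (A.decompositionSubgroup ℚ) τ a
  have h2 : MulSemiringAction.toRingAut (A.decompositionSubgroup ℚ)
      (IsLocalRing.ResidueField A) τ = 1 := hτ
  have h3 : τ • IsLocalRing.residue A a = IsLocalRing.residue A a :=
    congrArg (fun f : RingAut (IsLocalRing.ResidueField A) => f (IsLocalRing.residue A a)) h2
  exact ⟨(τ • a).2, h1.trans h3⟩

/-- **Roots of unity of order prime to `l` are fixed by the inertia group.** -/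
theorem inertia_fixed_of_pow_eq_one {l : ℕ} (hl : l.Prime) (hA : A.LiesOverPrime l) {n : ℕ}
    (hn : ¬ l ∣ n) {ζ : L} (hζ : ζ ^ n = 1) {σ : L ≃ₐ[ℚ] L}
    (hσ : σ ∈ A.inertiaSubgroupIn ℚ) : σ ζ = ζ := by
  have hn0 : n ≠ 0 := by
    rintro rfl
    exact hn (dvd_zero l)
  have hmem : ζ ∈ A := mem_of_pow_eq_one A (Nat.pos_of_ne_zero hn0) hζ
  obtain ⟨hmem', hres⟩ := residue_inertia A hσ ⟨ζ, hmem⟩
  have h2 := eq_of_residue_eq A hl hA hn (ζ := ⟨ζ, hmem⟩) (ζ' := ⟨σ ζ, hmem'⟩)
    (Subtype.ext hζ) (Subtype.ext (by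
      show (σ ζ) ^ n = 1
      rw [← map_pow, hζ, map_one])) hres.symm
  exact (congrArg Subtype.val h2).symm

end Inertia

section Lift

variable {L : Type*} [Field L] [Algebra ℚ L] [Algebra.IsAlgebraic ℚ L] (A : ValuationSubring L)

/-- Every element of the residue field is a root of an integer polynomial which is nonzero
mod `l`. -/
theorem exists_poly_residue {l : ℕ} (hl : l.Prime) (c : IsLocalRing.ResidueField A) :
    ∃ g : ℤ[X], g.map (Int.castRingHom (ZMod l)) ≠ 0 ∧
      Polynomial.eval₂ (Int.castRingHom (IsLocalRing.ResidueField A)) c g = 0 := by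
  obtain ⟨a, rfl⟩ := IsLocalRing.residue_surjective c
  haveI : CharZero L := charZero_of_injective_algebraMap (algebraMap ℚ L).injective
  have halg : IsAlgebraic ℚ (a : L) := Algebra.IsAlgebraic.isAlgebraic _
  have halgZ : IsAlgebraic ℤ (a : L) := (IsFractionRing.isAlgebraic_iff ℤ ℚ L).mpr halg
  obtain ⟨g, hg0, hga⟩ := halgZ
  have hc0 : g.content ≠ 0 := by
    rwa [Ne, Polynomial.content_eq_zero_iff]
  have hprim : g.primPart.IsPrimitive := g.isPrimitive_primPart
  have hga' : Polynomial.aeval (a : L) g.primPart = 0 := by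
    have h1 : Polynomial.aeval (a : L) g =
        algebraMap ℤ L g.content * Polynomial.aeval (a : L) g.primPart := by
      conv_lhs => rw [g.eq_C_content_mul_primPart]
      rw [map_mul, Polynomial.aeval_C]
    rw [hga] at h1
    have h2 : algebraMap ℤ L g.content ≠ 0 := by
      rw [Ne, eq_intCast, Int.cast_eq_zero]
      exact hc0
    exact (mul_eq_zero.mp h1.symm).resolve_left h2
  refine ⟨g.primPart, fun h0 => ?_, ?_⟩
  · -- all coefficients divisible by `l` contradicts primitivity
    have hdvd : Polynomial.C (l : ℤ) ∣ g.primPart := by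
      rw [Polynomial.C_dvd_iff_dvd_coeff]
      intro i
      have h1 := congrArg (fun q : (ZMod l)[X] => q.coeff i) h0
      simp only [Polynomial.coeff_map, Polynomial.coeff_zero, eq_intCast] at h1
      exact (ZMod.intCast_zmod_eq_zero_iff_dvd _ l).mp h1
    have hunit := hprim _ hdvd
    have := Int.isUnit_iff.mp hunit
    rcases this with h1 | h1
    · have : l = 1 := by exact_mod_cast h1
      exact hl.one_lt.ne' this
    · have h2 : (0 : ℤ) ≤ (l : ℤ) := Int.natCast_nonneg l
      omega
  · -- evaluate in `A`, then reduce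
    have h1 : Polynomial.eval₂ (Int.castRingHom A) a g.primPart = 0 := by
      apply Subtype.ext
      have h2 := Polynomial.hom_eval₂ g.primPart (Int.castRingHom A) A.subtype a
      rw [ZeroMemClass.coe_zero]
      have h3 : (A.subtype.comp (Int.castRingHom A)) = algebraMap ℤ L := RingHom.ext_int _ _
      rw [h3] at h2
      exact h2.trans hga'
    have h2 := Polynomial.hom_eval₂ g.primPart (Int.castRingHom A) (IsLocalRing.residue A) a
    rw [h1, map_zero] at h2
    have h3 : ((IsLocalRing.residue A).comp (Int.castRingHom A)) =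
        Int.castRingHom (IsLocalRing.ResidueField A) := RingHom.ext_int _ _
    rw [h3] at h2
    exact h2.symm

/-- Every nonzero element of the residue field is a root of unity of order prime to `l`. -/
theorem exists_pow_eq_one {l : ℕ} (hl : l.Prime) (hA : A.LiesOverPrime l)
    (c : IsLocalRing.ResidueField A) (hc : c ≠ 0) : ∃ n : ℕ, 0 < n ∧ ¬ l ∣ n ∧ c ^ n = 1 := by
  have : Fact l.Prime := ⟨hl⟩
  have := charP_res A hl hA
  letI : Algebra (ZMod l) (IsLocalRing.ResidueField A) := ZMod.algebra _ l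
  obtain ⟨g, hg0, hgc⟩ := exists_poly_residue A hl c
  have halg : IsAlgebraic (ZMod l) c := by
    refine ⟨g.map (Int.castRingHom (ZMod l)), hg0, ?_⟩
    rw [Polynomial.aeval_def, Polynomial.eval₂_map]
    have h3 : ((algebraMap (ZMod l) (IsLocalRing.ResidueField A)).comp
        (Int.castRingHom (ZMod l))) = Int.castRingHom (IsLocalRing.ResidueField A) :=
      RingHom.ext_int _ _
    rw [h3]
    exact hgc
  have hint : IsIntegral (ZMod l) c := halg.isIntegral
  haveI : FiniteDimensional (ZMod l) (IntermediateField.adjoin (ZMod l) {c}) :=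
    IntermediateField.adjoin.finiteDimensional hint
  haveI : Finite (IntermediateField.adjoin (ZMod l) {c}) := Module.finite_of_finite (ZMod l)
  letI : Fintype (IntermediateField.adjoin (ZMod l) {c}) := Fintype.ofFinite _
  haveI : CharP (IntermediateField.adjoin (ZMod l) {c}) l :=
    charP_of_injective_algebraMap
      (algebraMap (ZMod l) (IntermediateField.adjoin (ZMod l) {c})).injective l
  set c' : IntermediateField.adjoin (ZMod l) {c} :=
    ⟨c, IntermediateField.mem_adjoin_simple_self (ZMod l) c⟩ with hc'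
  have hc'0 : c' ≠ 0 := fun h0 => hc (congrArg Subtype.val h0)
  have hpow := FiniteField.pow_card_sub_one_eq_one c' hc'0
  obtain ⟨m, -, hcard⟩ := FiniteField.card (IntermediateField.adjoin (ZMod l) {c}) l
  have hm : 1 ≤ (m : ℕ) := m.pos
  have hge : 2 ≤ l ^ (m : ℕ) := by
    calc 2 ≤ l := hl.two_le
      _ = l ^ 1 := (pow_one l).symm
      _ ≤ l ^ (m : ℕ) := Nat.pow_le_pow_right hl.pos hm
  refine ⟨Fintype.card (IntermediateField.adjoin (ZMod l) {c}) - 1, ?_, ?_, ?_⟩
  · rw [hcard]; omega
  · rw [hcard]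
    intro hdvd
    have h1 : l ∣ l ^ (m : ℕ) := dvd_pow_self l (by omega)
    have h2 : l ∣ l ^ (m : ℕ) - (l ^ (m : ℕ) - 1) := Nat.dvd_sub h1 hdvd
    have h3 : l ^ (m : ℕ) - (l ^ (m : ℕ) - 1) = 1 := by omega
    rw [h3] at h2
    exact hl.one_lt.ne' (Nat.dvd_one.mp h2)
  · have := congrArg Subtype.val hpow
    simpa using this

variable [IsAlgClosed L]

/-- **Teichmüller lifts**: every nonzero element of the residue field is the residue of a root of
unity of order prime to `l`. -/
theorem exists_rootOfUnity_lift {l : ℕ} (hl : l.Prime) (hA : A.LiesOverPrime l)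
    (c : IsLocalRing.ResidueField A) (hc : c ≠ 0) :
    ∃ (n : ℕ) (ζ : A), 0 < n ∧ ¬ l ∣ n ∧ ζ ^ n = 1 ∧ IsLocalRing.residue A ζ = c := by
  classical
  obtain ⟨n, hnpos, hln, hcn⟩ := exists_pow_eq_one A hl hA c hc
  haveI : CharZero L := charZero_of_injective_algebraMap (algebraMap ℚ L).injective
  haveI : NeZero (n : L) := ⟨Nat.cast_ne_zero.mpr hnpos.ne'⟩
  obtain ⟨ζ₀, hζ₀⟩ := HasEnoughRootsOfUnity.exists_primitiveRoot L n
  have hprod := X_pow_sub_one_eq_prod hnpos hζ₀
  obtain ⟨a, rfl⟩ := IsLocalRing.residue_surjective c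
  have hmem : ∀ ζ ∈ Polynomial.nthRootsFinset n (1 : L), ζ ∈ A := fun ζ hζ =>
    mem_of_pow_eq_one A hnpos ((Polynomial.mem_nthRootsFinset hnpos (1 : L)).mp hζ)
  set P : A := ∏ ζ ∈ (Polynomial.nthRootsFinset n (1 : L)).attach, (a - ⟨ζ.1, hmem ζ.1 ζ.2⟩)
    with hP
  have hPcoe : (P : L) = (a : L) ^ n - 1 := by
    have h1 := congrArg (Polynomial.eval (a : L)) hprod
    rw [Polynomial.eval_sub, Polynomial.eval_pow, Polynomial.eval_X, Polynomial.eval_one,
      Polynomial.eval_prod] at h1
    rw [h1, hP, SubmonoidClass.coe_finsetProd]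
    rw [← Finset.prod_attach (Polynomial.nthRootsFinset n (1 : L))
      (fun ζ => Polynomial.eval (a : L) (X - C ζ))]
    refine Finset.prod_congr rfl fun ζ _ => ?_
    rw [Polynomial.eval_sub, Polynomial.eval_X, Polynomial.eval_C]
    rfl
  have hPeq : P = a ^ n - 1 := Subtype.ext hPcoe
  have hres : IsLocalRing.residue A P = 0 := by
    rw [hPeq, map_sub, map_pow, map_one, hcn, sub_self]
  rw [hP, map_prod, Finset.prod_eq_zero_iff] at hres
  obtain ⟨ζ, -, hζ⟩ := hres
  rw [map_sub, sub_eq_zero] at hζ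
  refine ⟨n, ⟨ζ.1, hmem ζ.1 ζ.2⟩, hnpos, hln, ?_, hζ.symm⟩
  exact Subtype.ext ((Polynomial.mem_nthRootsFinset hnpos (1 : L)).mp ζ.2)

/-- **Inertia-fixed lifts**: every element of the residue field is the residue of an element of
`A` fixed by the inertia group. -/
theorem exists_inertia_fixed_lift {l : ℕ} (hl : l.Prime) (hA : A.LiesOverPrime l)
    (c : IsLocalRing.ResidueField A) :
    ∃ a : A, IsLocalRing.residue A a = c ∧
      ∀ σ : L ≃ₐ[ℚ] L, σ ∈ A.inertiaSubgroupIn ℚ → σ (a : L) = a := by
  by_cases hc : c = 0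
  · exact ⟨0, by rw [hc, map_zero], fun σ _ => by simp⟩
  · obtain ⟨n, ζ, -, hln, hζ, hres⟩ := exists_rootOfUnity_lift A hl hA c hc
    refine ⟨ζ, hres, fun σ hσ => ?_⟩
    exact inertia_fixed_of_pow_eq_one A hl hA hln (congrArg Subtype.val hζ) hσ

end Lift

section Qbar

/-- Teichmüller lifts for valuation subrings of `ℚ̄`. -/
theorem exists_rootOfUnity_lift_Qbar (A : ValuationSubring (AlgebraicClosure ℚ)) {l : ℕ}
    (hl : l.Prime) (hA : A.LiesOverPrime l) (c : IsLocalRing.ResidueField A) (hc : c ≠ 0) :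
    ∃ (n : ℕ) (ζ : A), 0 < n ∧ ¬ l ∣ n ∧ ζ ^ n = 1 ∧ IsLocalRing.residue A ζ = c := by
  have : Algebra.IsAlgebraic ℚ (AlgebraicClosure ℚ) := AlgebraicClosure.isAlgebraic ℚ
  exact exists_rootOfUnity_lift A hl hA c hc

/-- Inertia-fixed lifts for valuation subrings of `ℚ̄`. -/
theorem exists_inertia_fixed_lift_Qbar (A : ValuationSubring (AlgebraicClosure ℚ)) {l : ℕ}
    (hl : l.Prime) (hA : A.LiesOverPrime l) (c : IsLocalRing.ResidueField A) :
    ∃ a : A, IsLocalRing.residue A a = c ∧
      ∀ σ : AlgebraicClosure ℚ ≃ₐ[ℚ] AlgebraicClosure ℚ, σ ∈ A.inertiaSubgroupIn ℚ →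
        σ (a : AlgebraicClosure ℚ) = a := by
  have : Algebra.IsAlgebraic ℚ (AlgebraicClosure ℚ) := AlgebraicClosure.isAlgebraic ℚ
  exact exists_inertia_fixed_lift A hl hA c

end Qbar

end Fermat.Agent.Lib.TeichLift
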