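import Mathlib
import Fermat.Prelude.Def_FLTPrelim_Ramification
import Fermat.Agent.Lib.FrobeniusExists

/-!
# Lifting inertia from finite level, and "unramified everywhere implies trivial"

`GQ` is the absolute Galois group of `ℚ` (automorphisms of `AlgebraicClosure ℚ`), and inertia
groups are the prelude's `ValuationSubring.inertiaSubgroupIn`.

* `mem_inertiaSubgroupIn_of_integral`: an automorphism moving every algebraic integer by an element
  of the maximal ideal of `A` lies in the inertia group of `A`.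
* `exists_mul_mem_inertiaSubgroupIn`: for a closed normal subgroup `N`, an automorphism which acts
  trivially modulo the maximal ideal of `A` on the `N`-fixed algebraic integers can be corrected by
  an element of `N` to an element of the inertia group of `A`.
* `eq_top_of_inertia_le`: an open normal subgroup containing all inertia groups is everything
  (Hermite-Minkowski).
* `monoidHom_eq_one_of_inertia`: a homomorphism with open kernel killing all inertia is trivial.
-/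

set_option autoImplicit false

namespace Fermat.Agent.Lib.InertiaLift

open scoped Pointwise
open Fermat.Agent.Lib.FrobeniusExists

local notation "Qb" => AlgebraicClosure ℚ
local notation "GQ" => (AlgebraicClosure ℚ ≃ₐ[ℚ] AlgebraicClosure ℚ)
local notation "Zb" => integralClosure ℤ (AlgebraicClosure ℚ)

attribute [local instance] isAlgClosure_rat isGalois_rat galAction galAction_smulCommClass
  galAction_isInvariant zbTopology zbDiscrete galAction_continuousSMul

theorem apply_inv_apply (σ : GQ) (b : Qb) : σ (σ⁻¹ b) = b := by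
  show (σ * σ⁻¹) b = b
  rw [mul_inv_cancel]
  rfl

theorem inv_apply_apply (σ : GQ) (b : Qb) : σ⁻¹ (σ b) = b := by
  show (σ⁻¹ * σ) b = b
  rw [inv_mul_cancel]
  rfl

/-- If `σ` moves every algebraic integer by a non-unit of `A`, then so does `σ⁻¹`. -/
theorem val_inv_sub_lt_one {Γ₀ : Type*} [LinearOrderedCommGroupWithZero Γ₀] (v : Valuation Qb Γ₀)
    (σ : GQ) (hσ : ∀ b : Qb, IsIntegral ℤ b → v (σ b - b) < 1) (b : Qb) (hb : IsIntegral ℤ b) :
    v (σ⁻¹ b - b) < 1 := by
  have h1 := hσ (σ⁻¹ b) (map_isIntegral_int σ⁻¹ hb)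
  rw [apply_inv_apply] at h1
  rwa [← Valuation.map_neg, neg_sub]

theorem val_map_eq_one_of_sub {Γ₀ : Type*} [LinearOrderedCommGroupWithZero Γ₀]
    (v : Valuation Qb Γ₀) (σ : GQ) (hσ : ∀ b : Qb, IsIntegral ℤ b → v (σ b - b) < 1)
    (b : Qb) (hb : IsIntegral ℤ b) (hb1 : v b = 1) : v (σ b) = 1 := by
  have h := hσ b hb
  have h2 : σ b = b + (σ b - b) := by ring
  have h3 : v (b + (σ b - b)) = v b := v.map_add_eq_of_lt_left (by rw [hb1]; exact h)
  rw [h2, h3, hb1]

theorem val_map_sub_lt_one {Γ₀ : Type*} [LinearOrderedCommGroupWithZero Γ₀]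
    (v : Valuation Qb Γ₀) {ℓ : ℕ} (hℓ : ℓ.Prime) (hvℓ : v (ℓ : Qb) < 1) (σ : GQ)
    (hσ : ∀ b : Qb, IsIntegral ℤ b → v (σ b - b) < 1) (x : Qb) (hx : v x ≤ 1) :
    v (σ x - x) < 1 := by
  obtain ⟨s, hs, hvs, hsx⟩ := exists_unit_mul_isIntegral v hℓ hvℓ (isAlgebraic_int x) hx
  have key : s * σ s * (σ x - x) = s * (σ (s * x) - s * x) - (s * x) * (σ s - s) := by
    rw [map_mul]
    ring
  have hv1 : v (s * σ s) = 1 := by
    rw [map_mul, hvs, one_mul]
    exact val_map_eq_one_of_sub v σ hσ s hs hvs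
  have h1 : v (σ x - x) = v (s * (σ (s * x) - s * x) - (s * x) * (σ s - s)) := by
    rw [← key, map_mul, hv1, one_mul]
  rw [h1]
  refine lt_of_le_of_lt (v.map_sub _ _) (max_lt ?_ ?_)
  · rw [map_mul, mul_comm]
    exact mul_lt_one_of_lt_of_le (hσ _ hsx) (val_le_one_of_isIntegral v hs)
  · rw [map_mul, mul_comm]
    exact mul_lt_one_of_lt_of_le (hσ _ hs) (val_le_one_of_isIntegral v hsx)

/-- An automorphism moving every algebraic integer by an element of the maximal ideal of `A`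
lies in the inertia group of `A`. -/
theorem mem_inertiaSubgroupIn_of_integral {ℓ : ℕ} (hℓ : ℓ.Prime)
    (A : ValuationSubring (AlgebraicClosure ℚ)) (hA : A.LiesOverPrime ℓ)
    (σ : AlgebraicClosure ℚ ≃ₐ[ℚ] AlgebraicClosure ℚ)
    (hσ : ∀ b : AlgebraicClosure ℚ, IsIntegral ℤ b → A.valuation (σ b - b) < 1) :
    σ ∈ A.inertiaSubgroupIn ℚ := by
  have hvℓ : A.valuation (ℓ : Qb) < 1 := A.mem_nonunits_iff.mp hA
  have hσinv := val_inv_sub_lt_one A.valuation σ hσ
  have hσA : σ ∈ A.decompositionSubgroup ℚ := by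
    rw [MulAction.mem_stabilizer_iff]
    apply le_antisymm
    · intro x hx
      rw [ValuationSubring.mem_pointwise_smul_iff_inv_smul_mem] at hx
      have h1 := val_map_le_one A.valuation hℓ hvℓ σ (val_map_eq_one_of_sub A.valuation σ hσ) _
        ((A.valuation_le_one_iff _).mpr hx)
      have h2 : σ (σ⁻¹ • x) = x := apply_inv_apply σ x
      rw [h2] at h1
      exact (A.valuation_le_one_iff _).mp h1
    · intro x hx
      rw [ValuationSubring.mem_pointwise_smul_iff_inv_smul_mem]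
      exact (A.valuation_le_one_iff _).mp
        (val_map_le_one A.valuation hℓ hvℓ σ⁻¹ (val_map_eq_one_of_sub A.valuation σ⁻¹ hσinv) _
          ((A.valuation_le_one_iff _).mpr hx))
  refine ⟨⟨σ, hσA⟩, ?_, rfl⟩
  show (⟨σ, hσA⟩ : A.decompositionSubgroup ℚ) ∈ A.inertiaSubgroup ℚ
  rw [ValuationSubring.inertiaSubgroup, MonoidHom.mem_ker]
  ext y
  obtain ⟨x, rfl⟩ := IsLocalRing.residue_surjective y
  show (⟨σ, hσA⟩ : A.decompositionSubgroup ℚ) • IsLocalRing.residue A x = IsLocalRing.residue A x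
  rw [← IsLocalRing.ResidueField.residue_smul, ← sub_eq_zero, ← map_sub,
    IsLocalRing.residue_eq_zero_iff, A.valuation_lt_one_iff]
  exact val_map_sub_lt_one A.valuation hℓ hvℓ σ hσ x ((A.valuation_le_one_iff _).mpr x.2)

/-- **Lifting inertia.** Let `N` be a closed normal subgroup of the absolute Galois group and `A`
a valuation subring over `ℓ`. If `τ` acts trivially modulo the maximal ideal of `A` on all
`N`-fixed algebraic integers, then `n * τ` lies in the inertia group of `A` for some `n ∈ N`. -/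
theorem exists_mul_mem_inertiaSubgroupIn {ℓ : ℕ} (hℓ : ℓ.Prime)
    (A : ValuationSubring (AlgebraicClosure ℚ)) (hA : A.LiesOverPrime ℓ)
    (N : Subgroup (AlgebraicClosure ℚ ≃ₐ[ℚ] AlgebraicClosure ℚ)) [hNn : N.Normal]
    (hN : IsClosed (N : Set (AlgebraicClosure ℚ ≃ₐ[ℚ] AlgebraicClosure ℚ)))
    (τ : AlgebraicClosure ℚ ≃ₐ[ℚ] AlgebraicClosure ℚ)
    (hτ : ∀ b : AlgebraicClosure ℚ, IsIntegral ℤ b → (∀ n ∈ N, n b = b) →
      A.valuation (τ b - b) < 1) :
    ∃ n ∈ N, n * τ ∈ A.inertiaSubgroupIn ℚ := by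
  have hvℓ : A.valuation (ℓ : Qb) < 1 := A.mem_nonunits_iff.mp hA
  have : CompactSpace N := isCompact_iff_compactSpace.mp hN.isCompact
  have : ContinuousSMul N Zb :=
    ⟨(continuous_smul (M := GQ) (X := Zb)).comp
      ((continuous_subtype_val.comp continuous_fst).prodMk continuous_snd)⟩
  let B' : Subalgebra ℤ Zb := FixedPoints.subalgebra ℤ Zb N
  have : Algebra.IsInvariant B' Zb N := ⟨fun x h ↦ ⟨⟨x, h⟩, rfl⟩⟩
  have hcomm : SMulCommClass N B' Zb := ⟨fun n a b => by
    show n • ((a : Zb) * b) = (a : Zb) * (n • b)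
    rw [smul_mul', a.2 n]⟩
  have hle : (Zb).toSubring ≤ A.toSubring := fun b hb =>
    (A.valuation_le_one_iff b).mp (val_le_one_of_isIntegral A.valuation hb)
  let Q : Ideal Zb := (IsLocalRing.maximalIdeal A).comap (Subring.inclusion hle)
  have hQmem : ∀ b : Zb, b ∈ Q ↔ A.valuation (b : Qb) < 1 := fun b => by
    show Subring.inclusion hle b ∈ IsLocalRing.maximalIdeal A ↔ _
    rw [A.valuation_lt_one_iff]
    rfl
  have hQprime : Q.IsPrime := Ideal.comap_isPrime _ _
  -- membership in `B'`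
  have hB'mem : ∀ b : Zb, b ∈ B' ↔ ∀ n ∈ N, n (b : Qb) = (b : Qb) := by
    intro b
    constructor
    · intro hb n hn
      exact congrArg Subtype.val (hb ⟨n, hn⟩)
    · intro hb n
      exact Subtype.ext (hb n.1 n.2)
  -- `τ` and `τ⁻¹` preserve `B'`
  have hpres : ∀ ρ : GQ, ∀ b : Zb, b ∈ B' → ρ • b ∈ B' := by
    intro ρ b hb
    rw [hB'mem] at hb ⊢
    intro n hn
    have h1 : ρ⁻¹ * n * ρ ∈ N := by
      have := hNn.conj_mem n hn ρ⁻¹
      simpa using this
    have h2 := hb _ h1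
    have h3 : (ρ⁻¹ * n * ρ) (b : Qb) = ρ⁻¹ (n (ρ (b : Qb))) := rfl
    rw [h3] at h2
    have h4 := congrArg ρ h2
    rw [apply_inv_apply] at h4
    exact h4
  -- `τ` is trivial on `B'` modulo `Q`
  have hτQ : ∀ b : Zb, b ∈ B' → τ • b - b ∈ Q := by
    intro b hb
    rw [hQmem]
    exact hτ b b.2 ((hB'mem b).mp hb)
  have hτinvQ : ∀ b : Zb, b ∈ B' → τ⁻¹ • b - b ∈ Q := by
    intro b hb
    have h1 := hτQ (τ⁻¹ • b) (hpres τ⁻¹ b hb)
    rw [smul_inv_smul] at h1
    have h2 : τ⁻¹ • b - b = -(b - τ⁻¹ • b) := by ring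
    rw [h2]
    exact Q.neg_mem h1
  have hunder : (τ • Q).under B' = Q.under B' := by
    ext ⟨b, hb⟩
    rw [Ideal.under_def, Ideal.under_def, Ideal.mem_comap, Ideal.mem_comap]
    show b ∈ τ • Q ↔ b ∈ Q
    rw [Ideal.mem_pointwise_smul_iff_inv_smul_mem]
    have h1 := hτinvQ b hb
    constructor
    · intro h
      have := Q.sub_mem h h1
      simpa using this
    · intro h
      have := Q.add_mem h1 h
      simpa using this
  obtain ⟨g, hg⟩ := Algebra.IsInvariant.exists_smul_of_under_eq_of_profinite (A := B') (G := N)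
    (τ • Q) Q hunder
  -- `ρ := g * τ` stabilises `Q`
  let ρ : GQ := (g : GQ) * τ
  have hρQ : ∀ b : Zb, ρ⁻¹ • b ∈ Q ↔ b ∈ Q := by
    intro b
    conv_rhs => rw [hg]
    rw [Ideal.mem_pointwise_smul_iff_inv_smul_mem, Ideal.mem_pointwise_smul_iff_inv_smul_mem]
    have h1 : ρ⁻¹ • b = τ⁻¹ • (g⁻¹ • b) := by
      show ((g : GQ) * τ)⁻¹ • b = τ⁻¹ • ((g : GQ)⁻¹ • b)
      rw [mul_inv_rev, mul_smul]
    rw [h1]
  have hρstab : ρ ∈ MulAction.stabilizer GQ Q := by
    rw [MulAction.mem_stabilizer_iff]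
    ext b
    rw [Ideal.mem_pointwise_smul_iff_inv_smul_mem]
    exact hρQ b
  -- `ρ` is trivial on `B'` modulo `Q`
  have hρB : ∀ b : Zb, b ∈ B' → ρ • b - b ∈ Q := by
    intro b hb
    have h1 : ρ • b = τ • b := by
      show ((g : GQ) * τ) • b = τ • b
      rw [mul_smul]
      exact hpres τ b hb g
    rw [h1]
    exact hτQ b hb
  let P' : Ideal B' := Q.under B'
  let ρ₀ : (Zb ⧸ Q) ≃ₐ[ℤ ⧸ Q.under ℤ] (Zb ⧸ Q) :=
    Ideal.Quotient.stabilizerHom Q (Q.under ℤ) GQ ⟨ρ, hρstab⟩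
  have hρ₀ : ∀ b : Zb, ρ₀ (Ideal.Quotient.mk Q b) = Ideal.Quotient.mk Q (ρ • b) := fun b => rfl
  let ρ' : (Zb ⧸ Q) ≃ₐ[B' ⧸ P'] (Zb ⧸ Q) :=
    AlgEquiv.ofRingEquiv (f := ρ₀.toRingEquiv) (by
      intro r
      obtain ⟨⟨b, hb⟩, rfl⟩ := Ideal.Quotient.mk_surjective r
      show ρ₀ (Ideal.Quotient.mk Q b) = Ideal.Quotient.mk Q b
      rw [hρ₀, Ideal.Quotient.eq]
      exact hρB b hb)
  have hρ' : ∀ b : Zb, ρ' (Ideal.Quotient.mk Q b) = Ideal.Quotient.mk Q (ρ • b) := fun b => rfl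
  obtain ⟨⟨h, hh⟩, hh'⟩ :=
    Ideal.Quotient.stabilizerHom_surjective_of_profinite (G := N) P' Q ρ'
  have hhQ : ∀ b : Zb, (h : GQ)⁻¹ • b ∈ Q ↔ b ∈ Q := by
    intro b
    rw [MulAction.mem_stabilizer_iff] at hh
    conv_rhs => rw [← hh]
    rw [Ideal.mem_pointwise_smul_iff_inv_smul_mem]
    rfl
  have hdiff : ∀ b : Zb, ρ • b - (h : GQ) • b ∈ Q := by
    intro b
    have h1 := DFunLike.congr_fun hh' (Ideal.Quotient.mk Q b)
    rw [hρ', Ideal.Quotient.stabilizerHom_apply] at h1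
    rw [← Ideal.Quotient.eq]
    exact h1.symm
  refine ⟨(h : GQ)⁻¹ * (g : GQ), N.mul_mem (N.inv_mem h.2) g.2, ?_⟩
  apply mem_inertiaSubgroupIn_of_integral hℓ A hA
  intro b hb
  have h1 := (hhQ _).mpr (hdiff ⟨b, hb⟩)
  rw [hQmem] at h1
  have h2 : (((h : GQ)⁻¹ • (ρ • (⟨b, hb⟩ : Zb) - (h : GQ) • (⟨b, hb⟩ : Zb)) : Zb) : Qb) =
      ((h : GQ)⁻¹ * (g : GQ) * τ) b - b := by
    show (h : GQ)⁻¹ ((g : GQ) (τ b) - (h : GQ) b) = (h : GQ)⁻¹ ((g : GQ) (τ b)) - b
    rw [map_sub, inv_apply_apply]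
  rw [h2] at h1
  exact h1

/-- Finite level input (Hermite-Minkowski + inertia groups): in a nontrivial Galois number field
some prime `p` has a nontrivial inertia group at every prime above it. -/
theorem exists_nontrivial_inertia {K 𝒪 : Type*} [Field K] [NumberField K] [CommRing 𝒪]
    [Algebra 𝒪 K] [IsIntegralClosure 𝒪 ℤ K] [IsGalois ℚ K] (H : 1 < Module.finrank ℚ K) :
    ∃ p : ℕ, p.Prime ∧ ∀ (P : Ideal 𝒪) (_ : P.IsPrime), (p : 𝒪) ∈ P →
      ∃ σ : Gal(K/ℚ), σ ≠ 1 ∧ ∀ x : 𝒪, galRestrict ℤ ℚ K 𝒪 σ x - x ∈ P := by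
  obtain ⟨p, hp, hP⟩ := NumberField.exists_not_isUnramifiedAt_int_of_isGalois (K := K) (𝒪 := 𝒪) H
  refine ⟨p, hp, fun P hPprime hpP => ?_⟩
  have hram := hP P hPprime hpP
  have := (IsIntegralClosure.algebraMap_injective 𝒪 ℤ K).isDomain
  have := IsIntegralClosure.isDedekindDomain ℤ ℚ K 𝒪
  have := IsIntegralClosure.isFractionRing_of_finite_extension ℤ ℚ K 𝒪
  have := IsIntegralClosure.finite ℤ ℚ K 𝒪
  have := CharZero.of_module (R := 𝒪) K
  let : MulSemiringAction Gal(K/ℚ) 𝒪 := IsIntegralClosure.MulSemiringAction ℤ ℚ K 𝒪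
  have := IsGaloisGroup.of_isFractionRing Gal(K/ℚ) ℤ 𝒪 ℚ K
  have hpZ : Prime (p : ℤ) := Nat.prime_iff_prime_int.mp hp
  have hover : P.LiesOver (Ideal.span {(p : ℤ)}) :=
    (Ideal.liesOver_span_iff Ideal.IsPrime.ne_top' hpZ).mpr (by simpa using hpP)
  have : (Ideal.span {(p : ℤ)}).IsPrime := (Ideal.span_singleton_prime hpZ.ne_zero).mpr hpZ
  have hcard := Ideal.card_inertia_eq_ramificationIdxIn (G := Gal(K/ℚ)) (Ideal.span {(p : ℤ)}) P
  rw [Ideal.ramificationIdxIn_eq_ramificationIdx _ P Gal(K/ℚ)] at hcard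
  have hne : P.ramificationIdx ℤ ≠ 1 := fun h => hram (Ideal.ramificationIdx_eq_one_iff.mp h)
  have hne' : Ideal.inertia Gal(K/ℚ) P ≠ ⊥ := by
    intro hbot
    apply hne
    rw [← hcard, hbot]
    exact Subgroup.card_bot
  obtain ⟨⟨σ, hσ⟩, hσ1⟩ := (Subgroup.ne_bot_iff_exists_ne_one).mp hne'
  refine ⟨σ, fun h => hσ1 (Subtype.ext h), fun x => ?_⟩
  exact hσ x

/-- **Unramified everywhere implies trivial.** An open normal subgroup of the absolute Galois
group of `ℚ` containing the inertia group of every valuation subring over every prime is the whole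
group. -/
theorem eq_top_of_inertia_le
    (N : Subgroup (AlgebraicClosure ℚ ≃ₐ[ℚ] AlgebraicClosure ℚ)) [hNn : N.Normal]
    (hN : IsOpen (N : Set (AlgebraicClosure ℚ ≃ₐ[ℚ] AlgebraicClosure ℚ)))
    (h : ∀ ℓ : ℕ, ℓ.Prime → ∀ A : ValuationSubring (AlgebraicClosure ℚ), A.LiesOverPrime ℓ →
      A.inertiaSubgroupIn ℚ ≤ N) :
    N = ⊤ := by
  have hNc : IsClosed (N : Set GQ) := N.isClosed_of_isOpen hN
  let M : IntermediateField ℚ Qb := IntermediateField.fixedField N
  have hfix : M.fixingSubgroup = N := InfiniteGalois.fixingSubgroup_fixedField ⟨N, hNc⟩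
  have hfin : FiniteDimensional ℚ M := (InfiniteGalois.isOpen_iff_finite M).mp (by
    rw [hfix]
    exact hN)
  have hgal : IsGalois ℚ M := (InfiniteGalois.normal_iff_isGalois M).mp (by
    rw [hfix]
    exact hNn)
  have hnf : NumberField M := { to_charZero := inferInstance, to_finiteDimensional := hfin }
  by_contra hne
  have H : 1 < Module.finrank ℚ M := by
    by_contra hH
    have h0 : 0 < Module.finrank ℚ M := Module.finrank_pos
    have h1 : Module.finrank ℚ M = 1 := by omega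
    have h2 : M = ⊥ := IntermediateField.finrank_eq_one_iff.mp h1
    apply hne
    rw [← hfix, h2, IntermediateField.fixingSubgroup_bot]
  obtain ⟨p, hp, hP⟩ := exists_nontrivial_inertia (K := M) (𝒪 := NumberField.RingOfIntegers M) H
  obtain ⟨A, hA⟩ := exists_liesOverPrime hp
  have hvp : A.valuation (p : Qb) < 1 := A.mem_nonunits_iff.mp hA
  let φ : NumberField.RingOfIntegers M →+* Qb :=
    (algebraMap M Qb).comp (algebraMap (NumberField.RingOfIntegers M) M)
  have hφint : ∀ x, IsIntegral ℤ (φ x) := fun x =>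
    (NumberField.RingOfIntegers.isIntegral_coe x).map (IsScalarTower.toAlgHom ℤ M Qb)
  have hφA : ∀ x, φ x ∈ A.toSubring := fun x =>
    (A.valuation_le_one_iff _).mp (val_le_one_of_isIntegral A.valuation (hφint x))
  let P : Ideal (NumberField.RingOfIntegers M) :=
    (IsLocalRing.maximalIdeal A).comap (φ.codRestrict A.toSubring hφA)
  have hPmem : ∀ x, x ∈ P ↔ A.valuation (φ x) < 1 := fun x => by
    show φ.codRestrict A.toSubring hφA x ∈ IsLocalRing.maximalIdeal A ↔ _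
    rw [A.valuation_lt_one_iff]
    rfl
  have hPprime : P.IsPrime := Ideal.comap_isPrime _ _
  have hpP : (p : NumberField.RingOfIntegers M) ∈ P := by
    rw [hPmem]
    simpa using hvp
  obtain ⟨σ, hσ1, hσP⟩ := hP P hPprime hpP
  let τ : GQ := σ.liftNormal Qb
  have hτM : ∀ x : M, τ (algebraMap M Qb x) = algebraMap M Qb (σ x) :=
    fun x => AlgEquiv.liftNormal_commutes σ Qb x
  have hτ : ∀ b : Qb, IsIntegral ℤ b → (∀ n ∈ N, n b = b) → A.valuation (τ b - b) < 1 := by
    intro b hb hbN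
    have hbM : b ∈ M := (IntermediateField.mem_fixedField_iff N b).mpr hbN
    have hbint : IsIntegral ℤ (⟨b, hbM⟩ : M) :=
      (isIntegral_algebraMap_iff (algebraMap M Qb).injective).mp hb
    let x : NumberField.RingOfIntegers M := IsIntegralClosure.mk' _ (⟨b, hbM⟩ : M) hbint
    have hx : algebraMap (NumberField.RingOfIntegers M) M x = ⟨b, hbM⟩ :=
      IsIntegralClosure.algebraMap_mk' _ _ hbint
    have h1 := (hPmem _).mp (hσP x)
    have h2 : φ (galRestrict ℤ ℚ M (NumberField.RingOfIntegers M) σ x - x) = τ b - b := by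
      show algebraMap M Qb (algebraMap (NumberField.RingOfIntegers M) M
        (galRestrict ℤ ℚ M (NumberField.RingOfIntegers M) σ x - x)) = τ b - b
      rw [map_sub, map_sub, algebraMap_galRestrict_apply, hx, ← hτM]
      rfl
    exact lt_of_eq_of_lt (congrArg A.valuation h2.symm) h1
  obtain ⟨n, hn, hnτ⟩ := exists_mul_mem_inertiaSubgroupIn hp A hA N hNc τ hτ
  have hτN : τ ∈ N := by
    have h1 := h p hp A hA hnτ
    have h2 := N.mul_mem (N.inv_mem hn) h1
    rwa [inv_mul_cancel_left] at h2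
  rw [← hfix] at hτN
  apply hσ1
  ext x
  have h1 := (IntermediateField.mem_fixingSubgroup_iff M τ).mp hτN x x.2
  have h2 := hτM x
  have h3 : algebraMap M Qb (σ x) = algebraMap M Qb x := by
    rw [← h2]
    exact h1
  exact congrArg Subtype.val ((algebraMap M Qb).injective h3)

/-- A group homomorphism from the absolute Galois group of `ℚ` with open kernel which kills all
inertia groups is trivial. -/
theorem monoidHom_eq_one_of_inertia {H : Type*} [Group H]
    (f : (AlgebraicClosure ℚ ≃ₐ[ℚ] AlgebraicClosure ℚ) →* H)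
    (hf : IsOpen (f.ker : Set (AlgebraicClosure ℚ ≃ₐ[ℚ] AlgebraicClosure ℚ)))
    (h : ∀ ℓ : ℕ, ℓ.Prime → ∀ A : ValuationSubring (AlgebraicClosure ℚ), A.LiesOverPrime ℓ →
      ∀ σ ∈ A.inertiaSubgroupIn ℚ, f σ = 1)
    (σ : AlgebraicClosure ℚ ≃ₐ[ℚ] AlgebraicClosure ℚ) : f σ = 1 := by
  have h1 : f.ker = ⊤ := eq_top_of_inertia_le f.ker hf
    (fun ℓ hℓ A hA σ hσ => MonoidHom.mem_ker.mpr (h ℓ hℓ A hA σ hσ))
  have h2 : σ ∈ f.ker := h1 ▸ Subgroup.mem_top σ
  exact MonoidHom.mem_ker.mp h2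

end Fermat.Agent.Lib.InertiaLift
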