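import Mathlib
import Fermat.Prelude.Def_ModularCurve_LaurentCoeff
import Fermat.Prelude.Def_ModularCurve_X0ModL

/-!
# Descent lemmas for Laurent series (JAC-F2)

* `mem_laurentBaseChange_of_coeffMap_mem`: `L·F₀ ∩ K((q)) = K·F₀`.
* `exists_coeffMap_eq_of_pow`: `n`-th roots of a `K`-rational Laurent series are `K`-rational
  (`K` algebraically closed of characteristic zero).
* `existsUnique_max_order`: the canonical element of maximal order in a nonzero subspace of
  Laurent series whose orders are bounded above.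
-/

set_option autoImplicit false

noncomputable section

namespace Fermat.Agent.Lib.LaurentDescent

open ModularCurve

/-! ## Orders -/

theorem ld_order_eq {R : Type*} [Zero R] {x : LaurentSeries R} {n : ℤ}
    (hn : x.coeff n ≠ 0) (hlt : ∀ j < n, x.coeff j = 0) : x.order = n := by
  have hx : x ≠ 0 := HahnSeries.ne_zero_of_coeff_ne_zero hn
  refine le_antisymm (HahnSeries.order_le_of_coeff_ne_zero hn) ?_
  by_contra h
  rw [not_le] at h
  exact (HahnSeries.coeff_order_eq_zero.not.mpr hx) (hlt _ h)

/-- canonical element of maximal order in a subspace of Laurent series with bounded orders -/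
theorem existsUnique_max_order {L : Type*} [Field L] (W : Submodule L (LaurentSeries L))
    (hW : W ≠ ⊥) (B : ℤ) (hB : ∀ w ∈ W, w ≠ 0 → w.order ≤ B) :
    ∃! w : LaurentSeries L, w ∈ W ∧ w.leadingCoeff = 1 ∧
      ∀ w' ∈ W, w' ≠ 0 → w'.order ≤ w.order := by
  obtain ⟨w₁, hw₁W, hw₁0⟩ := (Submodule.ne_bot_iff W).mp hW
  obtain ⟨M, ⟨w₀, hw₀W, hw₀0, hw₀M⟩, hMmax⟩ :=
    Int.exists_greatest_of_bdd (P := fun n => ∃ w ∈ W, w ≠ 0 ∧ w.order = n)
      ⟨B, by rintro n ⟨w, hw, h0, rfl⟩; exact hB w hw h0⟩ ⟨w₁.order, w₁, hw₁W, hw₁0, rfl⟩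
  have hc : w₀.leadingCoeff ≠ 0 := HahnSeries.leadingCoeff_ne_zero.mpr hw₀0
  set w := w₀.leadingCoeff⁻¹ • w₀ with hw
  have hwW : w ∈ W := W.smul_mem _ hw₀W
  have hwcoeff : ∀ j, w.coeff j = w₀.leadingCoeff⁻¹ * w₀.coeff j := fun j => by
    rw [hw, HahnSeries.coeff_smul, smul_eq_mul]
  have hworder : w.order = M := by
    apply ld_order_eq
    · rw [hwcoeff, ← hw₀M, ← HahnSeries.leadingCoeff_eq]
      exact mul_ne_zero (inv_ne_zero hc) hc
    · intro j hj
      rw [hwcoeff, HahnSeries.coeff_eq_zero_of_lt_order (hw₀M ▸ hj), mul_zero]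
  have hwlc : w.leadingCoeff = 1 := by
    rw [HahnSeries.leadingCoeff_eq, hworder, hwcoeff, ← hw₀M, ← HahnSeries.leadingCoeff_eq,
      inv_mul_cancel₀ hc]
  refine ⟨w, ⟨hwW, hwlc, fun w' hw' h0 => ?_⟩, ?_⟩
  · rw [hworder]
    exact hMmax _ ⟨w', hw', h0, rfl⟩
  · rintro v ⟨hvW, hvlc, hvmax⟩
    have hv0 : v ≠ 0 := by
      rintro rfl
      rw [HahnSeries.leadingCoeff_zero] at hvlc
      exact zero_ne_one hvlc
    have hw0 : w ≠ 0 := by
      intro h0
      rw [h0, HahnSeries.leadingCoeff_zero] at hwlc
      exact zero_ne_one hwlc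
    have hvorder : v.order = M :=
      le_antisymm (hMmax _ ⟨v, hvW, hv0, rfl⟩) (by rw [← hworder]; exact hvmax w hwW hw0)
    by_contra hne
    have hd0 : v - w ≠ 0 := sub_ne_zero.mpr hne
    have hdW : v - w ∈ W := W.sub_mem hvW hwW
    have hdle : (v - w).order ≤ M := hMmax _ ⟨v - w, hdW, hd0, rfl⟩
    have hcoef : ∀ j ≤ M, (v - w).coeff j = 0 := by
      intro j hj
      rw [HahnSeries.coeff_sub]
      rcases hj.lt_or_eq with hlt | rfl
      · rw [HahnSeries.coeff_eq_zero_of_lt_order (hvorder ▸ hlt),
          HahnSeries.coeff_eq_zero_of_lt_order (hworder ▸ hlt), sub_zero]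
      · have h1 : v.coeff j = 1 := by rw [← hvlc, HahnSeries.leadingCoeff_eq, hvorder]
        have h2 : w.coeff j = 1 := by rw [← hwlc, HahnSeries.leadingCoeff_eq, hworder]
        rw [h1, h2, sub_self]
    exact (HahnSeries.coeff_order_eq_zero.not.mpr hd0) (hcoef _ hdle)

/-! ## Rational points of a base-changed field -/

section Descent

variable {K L : Type*} [Field K] [Field L]

/-- A `K`-linear functional on `L` (along `ι`) not vanishing at a given nonzero element. -/
theorem ld_exists_functional (ι : K →+* L) {v : L} (hv : v ≠ 0) :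
    ∃ lam : L →+ K, (∀ (c : K) (l : L), lam (ι c * l) = c * lam l) ∧ lam v ≠ 0 := by
  let _ := ι.toAlgebra
  obtain ⟨f, hf⟩ := Module.Projective.exists_dual_ne_zero K hv
  refine ⟨f.toAddMonoidHom, fun c l => ?_, hf⟩
  have h1 : ι c * l = c • l := by
    rw [Algebra.smul_def]
    rfl
  rw [h1]
  exact f.map_smul c l

/-- Coefficientwise application of an additive map. -/
def ldMap (lam : L →+ K) (x : LaurentSeries L) : LaurentSeries K := x.map lam

theorem ldMap_coeff (lam : L →+ K) (x : LaurentSeries L) (j : ℤ) :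
    (ldMap lam x).coeff j = lam (x.coeff j) := rfl

theorem ldMap_zero (lam : L →+ K) : ldMap lam 0 = 0 := by
  ext j
  rw [ldMap_coeff, HahnSeries.coeff_zero, HahnSeries.coeff_zero, map_zero]

theorem ldMap_add (lam : L →+ K) (x y : LaurentSeries L) :
    ldMap lam (x + y) = ldMap lam x + ldMap lam y := by
  ext j
  rw [ldMap_coeff, HahnSeries.coeff_add, HahnSeries.coeff_add, map_add, ldMap_coeff, ldMap_coeff]

theorem ldMap_mul (ι : K →+* L) (lam : L →+ K)
    (hlam : ∀ (c : K) (l : L), lam (ι c * l) = c * lam l)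
    (u : LaurentSeries K) (x : LaurentSeries L) :
    ldMap lam (coeffMap ι u * x) = u * ldMap lam x := by
  ext a
  rw [ldMap_coeff]
  have h1 : (coeffMap ι u * x).coeff a
      = ∑ ij ∈ Finset.antidiagonal u.isPWO_support x.isPWO_support a,
          (coeffMap ι u).coeff ij.1 * x.coeff ij.2 :=
    HahnSeries.coeff_mul_left' u.isPWO_support (by
      intro i hi
      rw [HahnSeries.mem_support] at hi ⊢
      intro h0
      apply hi
      rw [coeffMap_coeff, h0, map_zero])
  have h2 : (u * ldMap lam x).coeff a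
      = ∑ ij ∈ Finset.antidiagonal u.isPWO_support x.isPWO_support a,
          u.coeff ij.1 * (ldMap lam x).coeff ij.2 :=
    HahnSeries.coeff_mul_right' x.isPWO_support (by
      intro i hi
      rw [HahnSeries.mem_support] at hi ⊢
      intro h0
      apply hi
      rw [ldMap_coeff, h0, map_zero])
  rw [h1, h2, map_sum]
  refine Finset.sum_congr rfl fun ij _ => ?_
  rw [coeffMap_coeff, hlam, ldMap_coeff]

theorem ldMap_smul_coeffEmb [Algebra ℚ K] [Algebra ℚ L] (ι : K →+* L) (lam : L →+ K)
    (hlam : ∀ (c : K) (l : L), lam (ι c * l) = c * lam l) (e : L) (a : LaurentSeries ℚ) :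
    ldMap lam (e • coeffEmb L a) = lam e • coeffEmb K a := by
  ext j
  rw [ldMap_coeff, HahnSeries.coeff_smul, HahnSeries.coeff_smul, coeffEmb_coeff, coeffEmb_coeff,
    smul_eq_mul, smul_eq_mul]
  have h1 : algebraMap ℚ L (a.coeff j) = ι (algebraMap ℚ K (a.coeff j)) := by
    rw [← RingHom.comp_apply]
    exact congrArg (fun g : ℚ →+* L => g (a.coeff j)) (RingHom.ext_rat _ _)
  rw [h1, mul_comm, hlam, mul_comm]

/-- Every element of `L·F₀` is a quotient of two elements of the `L`-span of `F₀`. -/
theorem ld_exists_frac (L : Type*) [Field L] [Algebra ℚ L]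
    (F₀ : IntermediateField ℚ (LaurentSeries ℚ)) {x : LaurentSeries L}
    (hx : x ∈ laurentBaseChange L F₀) :
    ∃ A ∈ Submodule.span L (⇑(coeffEmb L) '' (F₀ : Set (LaurentSeries ℚ))),
      ∃ B ∈ Submodule.span L (⇑(coeffEmb L) '' (F₀ : Set (LaurentSeries ℚ))),
        B ≠ 0 ∧ x * B = A := by
  set S : Set (LaurentSeries L) := ⇑(coeffEmb L) '' (F₀ : Set (LaurentSeries ℚ)) with hS
  have hcl : ∀ z ∈ Submonoid.closure S, z ∈ S := by
    intro z hz
    induction hz using Submonoid.closure_induction with
    | mem z hz => exact hz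
    | one => exact ⟨1, F₀.one_mem, map_one _⟩
    | mul a b _ _ ha hb =>
      obtain ⟨a', ha', rfl⟩ := ha
      obtain ⟨b', hb', rfl⟩ := hb
      exact ⟨a' * b', F₀.mul_mem ha' hb', map_mul _ _ _⟩
  have hone : (1 : LaurentSeries L) ∈ Submodule.span L S :=
    Submodule.subset_span ⟨1, F₀.one_mem, map_one _⟩
  have hmul : ∀ x ∈ Submodule.span L S, ∀ y ∈ Submodule.span L S,
      x * y ∈ Submodule.span L S := by
    intro x hx y hy
    induction hx using Submodule.span_induction with
    | mem x hx =>
      induction hy using Submodule.span_induction with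
      | mem y hy =>
        exact Submodule.subset_span
          (hcl _ (mul_mem (Submonoid.subset_closure hx) (Submonoid.subset_closure hy)))
      | zero => rw [mul_zero]; exact zero_mem _
      | add a b _ _ ha hb => rw [mul_add]; exact add_mem ha hb
      | smul c a _ ha =>
        rw [← HahnSeries.single_zero_mul_eq_smul, mul_left_comm,
          HahnSeries.single_zero_mul_eq_smul]
        exact Submodule.smul_mem _ c ha
    | zero => rw [zero_mul]; exact zero_mem _
    | add a b _ _ ha hb => rw [add_mul]; exact add_mem ha hb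
    | smul c a _ ha =>
      rw [← HahnSeries.single_zero_mul_eq_smul, mul_assoc, HahnSeries.single_zero_mul_eq_smul]
      exact Submodule.smul_mem _ c ha
  have hadj : ∀ z, z ∈ Algebra.adjoin L S → z ∈ Submodule.span L S := by
    intro z hz
    induction hz using Algebra.adjoin_induction with
    | mem x hx => exact Submodule.subset_span hx
    | algebraMap r =>
      rw [algebraMap_laurentSeries_eq_single, ← mul_one (HahnSeries.single 0 r),
        HahnSeries.single_zero_mul_eq_smul]
      exact Submodule.smul_mem _ r hone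
    | add x y _ _ hx hy => exact add_mem hx hy
    | mul x y _ _ hx hy => exact hmul x hx y hy
  obtain ⟨r, hr, s, hs, rfl⟩ := IntermediateField.mem_adjoin_iff_div.mp hx
  by_cases hs0 : s = 0
  · refine ⟨0, zero_mem _, 1, ?_, one_ne_zero, ?_⟩
    · exact hone
    · rw [hs0, div_zero, zero_mul]
  · exact ⟨r, hadj r hr, s, hadj s hs, hs0, div_mul_cancel₀ r hs0⟩

/-- "rational points of a base-changed field": `L·F₀ ∩ K((q)) = K·F₀` -/
theorem mem_laurentBaseChange_of_coeffMap_mem {K L : Type*} [Field K] [Field L] [Algebra ℚ K]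
    [Algebra ℚ L] (ι : K →+* L) (F₀ : IntermediateField ℚ (LaurentSeries ℚ))
    (y : LaurentSeries K) (h : coeffMap ι y ∈ laurentBaseChange L F₀) :
    y ∈ laurentBaseChange K F₀ := by
  obtain ⟨A, hA, B, hB, hB0, hAB⟩ := ld_exists_frac L F₀ h
  obtain ⟨j₀, hj₀⟩ : ∃ j, B.coeff j ≠ 0 := by
    by_contra hh
    apply hB0
    ext j
    by_contra hj
    exact hh ⟨j, hj⟩
  obtain ⟨lam, hlam, hlamv⟩ := ld_exists_functional ι hj₀
  have hΛB0 : ldMap lam B ≠ 0 := HahnSeries.ne_zero_of_coeff_ne_zero (g := j₀) hlamv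
  have hspan : ∀ X ∈ Submodule.span L (⇑(coeffEmb L) '' (F₀ : Set (LaurentSeries ℚ))),
      ∀ c : L, ldMap lam (c • X) ∈ laurentBaseChange K F₀ := by
    intro X hX
    induction hX using Submodule.span_induction with
    | mem x hx =>
      obtain ⟨a, ha, rfl⟩ := hx
      intro c
      rw [ldMap_smul_coeffEmb ι lam hlam, ← HahnSeries.single_zero_mul_eq_smul,
        ← algebraMap_laurentSeries_eq_single]
      exact mul_mem ((laurentBaseChange K F₀).algebraMap_mem _)
        (coeffEmb_mem_laurentBaseChange K ha)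
    | zero =>
      intro c
      rw [smul_zero, ldMap_zero]
      exact zero_mem _
    | add x y _ _ hx hy =>
      intro c
      rw [smul_add, ldMap_add]
      exact add_mem (hx c) (hy c)
    | smul c' x _ hx =>
      intro c
      rw [smul_smul]
      exact hx (c * c')
  have hA' : ldMap lam A ∈ laurentBaseChange K F₀ := by
    have := hspan A hA 1
    rwa [one_smul] at this
  have hB' : ldMap lam B ∈ laurentBaseChange K F₀ := by
    have := hspan B hB 1
    rwa [one_smul] at this
  have hy : y * ldMap lam B = ldMap lam A := by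
    rw [← ldMap_mul ι lam hlam, hAB]
  have hy' : y = ldMap lam A / ldMap lam B := by
    rw [eq_div_iff hΛB0, hy]
  rw [hy']
  exact div_mem hA' hB'

end Descent

/-! ## `n`-th roots -/

section Roots

variable {K L : Type*} [Field K] [Field L]

theorem ld_constantCoeff_map (f : K →+* L) (T : PowerSeries K) :
    PowerSeries.constantCoeff (T.map f) = f (PowerSeries.constantCoeff T) := by
  rw [← PowerSeries.coeff_zero_eq_constantCoeff_apply, PowerSeries.coeff_map,
    PowerSeries.coeff_zero_eq_constantCoeff_apply]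

/-- Successive approximation: an `n`-th root `Y` (with nonzero constant term) of a `K`-rational
power series is congruent to a `K`-rational power series modulo every power of `X`. -/
theorem ld_powerSeries_approx [IsAlgClosed K] [CharZero K] (ι : K →+* L) {n : ℕ} (hn : 0 < n)
    (Y : PowerSeries L) (F : PowerSeries K) (hY0 : PowerSeries.constantCoeff Y ≠ 0)
    (h : Y ^ n = F.map ι) (k : ℕ) :
    ∃ T : PowerSeries K, (PowerSeries.X : PowerSeries L) ^ (k + 1) ∣ Y - T.map ι := by
  have hL : CharZero L := charZero_of_injective_ringHom ι.injective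
  induction k with
  | zero =>
    have hbn : PowerSeries.constantCoeff Y ^ n = ι (PowerSeries.constantCoeff F) := by
      have h1 := congrArg PowerSeries.constantCoeff h
      rw [map_pow] at h1
      rw [h1, ld_constantCoeff_map]
    set a := PowerSeries.constantCoeff F with ha
    have hp0 : (Polynomial.X ^ n - Polynomial.C a : Polynomial K) ≠ 0 :=
      Polynomial.X_pow_sub_C_ne_zero hn a
    have hroot : PowerSeries.constantCoeff Y ∈
        ((Polynomial.X ^ n - Polynomial.C a : Polynomial K).map ι).roots := by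
      rw [Polynomial.mem_roots (Polynomial.map_ne_zero hp0)]
      simp [Polynomial.IsRoot, hbn]
    rw [← Polynomial.roots_map_of_injective_of_card_eq_natDegree ι.injective
      IsAlgClosed.card_roots_eq_natDegree] at hroot
    obtain ⟨b₀, -, hb₀⟩ := Multiset.mem_map.mp hroot
    refine ⟨PowerSeries.C b₀, ?_⟩
    rw [zero_add, pow_one, PowerSeries.X_dvd_iff, map_sub, PowerSeries.map_C,
      PowerSeries.constantCoeff_C, hb₀, sub_self]
  | succ k ih =>
    obtain ⟨T, E, hE⟩ := ih
    set b := PowerSeries.constantCoeff Y with hb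
    -- the constant term of `T` maps to `b`
    have hT0 : ι (PowerSeries.constantCoeff T) = b := by
      have h1 : (PowerSeries.X : PowerSeries L) ∣ Y - T.map ι :=
        dvd_trans (dvd_pow_self _ (Nat.succ_ne_zero k)) ⟨E, hE⟩
      rw [PowerSeries.X_dvd_iff, map_sub, sub_eq_zero] at h1
      rw [hb, h1, ld_constantCoeff_map]
    set b₀ := PowerSeries.constantCoeff T with hb₀
    have hb₀0 : b₀ ≠ 0 := by
      intro h0
      rw [h0, map_zero] at hT0
      exact hY0 hT0.symm
    set S : PowerSeries L := ∑ i ∈ Finset.range n, Y ^ i * (T.map ι) ^ (n - 1 - i) with hS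
    have hS0 : PowerSeries.constantCoeff S = ι ((n : K) * b₀ ^ (n - 1)) := by
      rw [hS, map_sum]
      have hterm : ∀ i ∈ Finset.range n,
          PowerSeries.constantCoeff (Y ^ i * (T.map ι) ^ (n - 1 - i)) = b ^ (n - 1) := by
        intro i hi
        rw [Finset.mem_range] at hi
        have hc : PowerSeries.constantCoeff (T.map ι) = b := by
          rw [ld_constantCoeff_map, hT0]
        rw [map_mul, map_pow, map_pow, hc, ← hb, ← pow_add]
        congr 1
        omega
      rw [Finset.sum_congr rfl hterm, Finset.sum_const, Finset.card_range, nsmul_eq_mul,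
        map_mul, map_pow, map_natCast, hT0]
    have hgeom : S * (Y - T.map ι) = (F - T ^ n).map ι := by
      rw [hS, Commute.geom_sum₂_mul (Commute.all _ _), h, map_sub, map_pow]
    -- compare the coefficients of `X ^ (k + 1)`
    have hcoef : PowerSeries.constantCoeff S * PowerSeries.constantCoeff E
        = ι (PowerSeries.coeff (k + 1) (F - T ^ n)) := by
      have h1 := congrArg (PowerSeries.coeff (k + 1)) hgeom
      rw [PowerSeries.coeff_map, hE, mul_left_comm] at h1
      have h2 : PowerSeries.coeff (k + 1) ((PowerSeries.X : PowerSeries L) ^ (k + 1) * (S * E))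
          = PowerSeries.constantCoeff (S * E) := by
        have h3 := PowerSeries.coeff_X_pow_mul (S * E) (k + 1) 0
        rw [zero_add] at h3
        rw [h3, PowerSeries.coeff_zero_eq_constantCoeff_apply]
      rw [h2, map_mul] at h1
      exact h1
    have hnb : ((n : K) * b₀ ^ (n - 1)) ≠ 0 :=
      mul_ne_zero (Nat.cast_ne_zero.mpr hn.ne') (pow_ne_zero _ hb₀0)
    set e₀ : K := PowerSeries.coeff (k + 1) (F - T ^ n) / ((n : K) * b₀ ^ (n - 1)) with he₀
    have hE0 : PowerSeries.constantCoeff E = ι e₀ := by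
      rw [hS0] at hcoef
      rw [he₀, map_div₀, ← hcoef, mul_div_cancel_left₀]
      exact (map_ne_zero ι).mpr hnb
    refine ⟨T + PowerSeries.C e₀ * PowerSeries.X ^ (k + 1), ?_⟩
    have hX : (PowerSeries.X : PowerSeries L) ∣ E - PowerSeries.C (ι e₀) := by
      rw [PowerSeries.X_dvd_iff, map_sub, PowerSeries.constantCoeff_C, hE0, sub_self]
    obtain ⟨E', hE'⟩ := hX
    refine ⟨E', ?_⟩
    rw [map_add, map_mul, map_pow, PowerSeries.map_C, PowerSeries.map_X, ← sub_sub, hE,
      pow_succ (PowerSeries.X : PowerSeries L) (k + 1), mul_assoc, ← hE']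
    ring

/-- the coefficients of an `n`-th root (with nonzero constant term) of a `K`-rational power
series are `K`-rational -/
theorem ld_powerSeries_coeff_mem [IsAlgClosed K] [CharZero K] (ι : K →+* L) {n : ℕ} (hn : 0 < n)
    (Y : PowerSeries L) (F : PowerSeries K) (hY0 : PowerSeries.constantCoeff Y ≠ 0)
    (h : Y ^ n = F.map ι) (j : ℕ) : ∃ c : K, ι c = PowerSeries.coeff j Y := by
  obtain ⟨T, hT⟩ := ld_powerSeries_approx ι hn Y F hY0 h j
  rw [PowerSeries.X_pow_dvd_iff] at hT
  have h1 := hT j (Nat.lt_succ_self j)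
  rw [map_sub, sub_eq_zero, PowerSeries.coeff_map] at h1
  exact ⟨PowerSeries.coeff j T, h1.symm⟩

/-- n-th roots of a K-rational Laurent series are K-rational (K alg. closed) -/
theorem exists_coeffMap_eq_of_pow {K L : Type*} [Field K] [IsAlgClosed K] [CharZero K] [Field L]
    (ι : K →+* L) {n : ℕ} (hn : 0 < n) (y : LaurentSeries L) (f : LaurentSeries K)
    (h : y ^ n = coeffMap ι f) : ∃ y₀ : LaurentSeries K, coeffMap ι y₀ = y := by
  by_cases hy : y = 0
  · exact ⟨0, by rw [map_zero, hy]⟩
  set m := y.order with hm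
  set Y := LaurentSeries.powerSeriesPart y with hYdef
  have hyY : HahnSeries.single m (1 : L) * HahnSeries.ofPowerSeries ℤ L Y = y :=
    LaurentSeries.single_order_mul_powerSeriesPart y
  set f' : LaurentSeries K := HahnSeries.single (-((n : ℤ) * m)) (1 : K) * f with hf'
  have hf'' : coeffMap ι f' = HahnSeries.ofPowerSeries ℤ L (Y ^ n) := by
    rw [hf', map_mul, coeffMap_single, map_one, ← h, map_pow]
    conv_lhs => rw [← hyY]
    rw [mul_pow, HahnSeries.single_pow, one_pow, ← mul_assoc, HahnSeries.single_mul_single,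
      mul_one, nsmul_eq_mul, neg_add_cancel, HahnSeries.single_zero_one, one_mul]
  set Fp : PowerSeries K := PowerSeries.mk fun j => f'.coeff j with hFp
  have hFpmap : Y ^ n = Fp.map ι := by
    ext j
    rw [PowerSeries.coeff_map, hFp, PowerSeries.coeff_mk, ← coeffMap_coeff, hf'',
      HahnSeries.ofPowerSeries_apply_coeff]
  have hY0 : PowerSeries.constantCoeff Y ≠ 0 := by
    rw [← PowerSeries.coeff_zero_eq_constantCoeff_apply, hYdef,
      LaurentSeries.powerSeriesPart_coeff, Nat.cast_zero, add_zero]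
    exact HahnSeries.coeff_order_eq_zero.not.mpr hy
  choose c hc using ld_powerSeries_coeff_mem ι hn Y Fp hY0 hFpmap
  refine ⟨HahnSeries.single m (1 : K) * HahnSeries.ofPowerSeries ℤ K (PowerSeries.mk c), ?_⟩
  rw [map_mul, coeffMap_single, map_one, coeffMap_ofPowerSeries]
  conv_rhs => rw [← hyY]
  congr 2
  ext j
  rw [PowerSeries.coeff_map, PowerSeries.coeff_mk, hc]

end Roots

end Fermat.Agent.Lib.LaurentDescent

end
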