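import Mathlib
import Fermat.Agent.S23.FixedField
import Fermat.Agent.S24.ModDefs

/-!
# Complex numbers with a finite `Aut(ℂ/ℚ)`-orbit are algebraic

* `isAlgebraic_of_finite_orbit`: a complex number with finitely many conjugates under
  `ℂ ≃ₐ[ℚ] ℂ` is algebraic over `ℚ` (a transcendental `x` can be moved to `x + k` for every `k`).
* `mem_range_of_isAlgebraic`: an algebraic complex number lies in the range of any `ℚ`-embedding
  of an algebraically closed field.
* `mem_range_of_finite_orbit`: hence it lies in the range of the fixed embedding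
  `iotaK : ℚ̄ → ℂ`.
* `finite_orbit_of_fixed_by_finiteIndex`: a complex number fixed by a finite-index subgroup of
  `ℂ ≃ₐ[ℚ] ℂ` has a finite orbit.
-/

set_option autoImplicit false

namespace Fermat.Agent.Lib.FiniteOrbit

/-- A transcendental complex number can be translated by any rational number by an automorphism
of `ℂ`. -/
theorem exists_algEquiv_add_ratCast (x : ℂ) (hx : Transcendental ℚ x) (c : ℚ) :
    ∃ σ : ℂ ≃ₐ[ℚ] ℂ, σ x = x + (c : ℂ) := by
  let _ : Algebra (Polynomial ℚ) ℂ := (Polynomial.aeval x).toRingHom.toAlgebra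
  have hinj : Function.Injective (algebraMap (Polynomial ℚ) ℂ) :=
    transcendental_iff_injective.mp hx
  obtain ⟨τ, hτ⟩ := Fermat.Agent.S23.exists_ringEquiv_extending (R := Polynomial ℚ) (K := ℂ) hinj
    (Polynomial.algEquivAevalXAddC c).toRingEquiv
  refine ⟨AlgEquiv.ofRingEquiv (f := τ) (fun r => by simp), ?_⟩
  have h := hτ Polynomial.X
  have hX : algebraMap (Polynomial ℚ) ℂ Polynomial.X = x := Polynomial.aeval_X x
  have hX1 : algebraMap (Polynomial ℚ) ℂ
      ((Polynomial.algEquivAevalXAddC c).toRingEquiv Polynomial.X) = x + (c : ℂ) := by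
    change Polynomial.aeval x ((Polynomial.algEquivAevalXAddC c) Polynomial.X) = x + (c : ℂ)
    simp [Polynomial.algEquivAevalXAddC_apply]
  rw [hX, hX1] at h
  exact h

/-- A complex number with a finite orbit under `Aut(ℂ/ℚ)` is algebraic. -/
theorem isAlgebraic_of_finite_orbit (x : ℂ)
    (h : Set.Finite {y : ℂ | ∃ σ : ℂ ≃ₐ[ℚ] ℂ, y = σ x}) : IsAlgebraic ℚ x := by
  by_contra hx
  refine Set.not_infinite.mpr h ?_
  refine Set.infinite_of_injective_forall_mem (f := fun k : ℕ => x + ((k : ℚ) : ℂ)) ?_ ?_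
  · intro a b hab
    have h1 : ((a : ℚ) : ℂ) = ((b : ℚ) : ℂ) := add_left_cancel hab
    exact_mod_cast h1
  · intro k
    obtain ⟨σ, hσ⟩ := exists_algEquiv_add_ratCast x hx (k : ℚ)
    exact ⟨σ, hσ.symm⟩

/-- An algebraic complex number lies in the range of every `ℚ`-embedding of an algebraically
closed field into `ℂ`. -/
theorem mem_range_of_isAlgebraic {K : Type*} [Field K] [IsAlgClosed K] [Algebra ℚ K]
    (f : K →ₐ[ℚ] ℂ) (x : ℂ) (hx : IsAlgebraic ℚ x) : x ∈ Set.range f := by
  let _ : Algebra K ℂ := f.toRingHom.toAlgebra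
  have : IsScalarTower ℚ K ℂ := IsScalarTower.of_algebraMap_eq fun r => (f.commutes r).symm
  have hint : IsIntegral K x := hx.isIntegral.tower_top
  have hdeg := IsAlgClosed.degree_eq_one_of_irreducible K (minpoly.irreducible hint)
  exact minpoly.mem_range_of_degree_eq_one K x hdeg

/-- A complex number with a finite orbit under `Aut(ℂ/ℚ)` lies in the image of `ℚ̄`. -/
theorem mem_range_of_finite_orbit (x : ℂ)
    (h : Set.Finite {y : ℂ | ∃ σ : ℂ ≃ₐ[ℚ] ℂ, y = σ x}) :
    x ∈ Set.range Fermat.Agent.S24.iotaK :=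
  mem_range_of_isAlgebraic (complexEmbedding : AlgebraicClosure ℚ →ₐ[ℚ] ℂ) x
    (isAlgebraic_of_finite_orbit x h)

/-- A complex number fixed by a finite-index subgroup of `Aut(ℂ/ℚ)` has a finite orbit. -/
theorem finite_orbit_of_fixed_by_finiteIndex (H : Subgroup (ℂ ≃ₐ[ℚ] ℂ)) [H.FiniteIndex] (x : ℂ)
    (hx : ∀ σ ∈ H, σ x = x) : Set.Finite {y : ℂ | ∃ σ : ℂ ≃ₐ[ℚ] ℂ, y = σ x} := by
  have : Finite ((ℂ ≃ₐ[ℚ] ℂ) ⧸ H) := Subgroup.finite_quotient_of_finiteIndex
  let φ : (ℂ ≃ₐ[ℚ] ℂ) ⧸ H → ℂ := fun q =>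
    Quotient.liftOn' q (fun σ : ℂ ≃ₐ[ℚ] ℂ => σ x) (by
      intro a b hab
      rw [QuotientGroup.leftRel_apply] at hab
      have h1 := hx _ hab
      have h2 : b x = a ((a⁻¹ * b) x) := by
        rw [AlgEquiv.mul_apply]
        exact (AlgEquiv.apply_symm_apply a (b x)).symm
      show a x = b x
      rw [h2, h1])
  refine (Set.finite_range φ).subset ?_
  rintro y ⟨σ, rfl⟩
  exact ⟨QuotientGroup.mk σ, rfl⟩

end Fermat.Agent.Lib.FiniteOrbit
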