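/-
Lib/PlaceConj: the absolute Galois group of `ℚ` acts transitively on the valuation subrings of
`ℚ̄` lying over a given prime number, and inertia / decomposition groups of conjugate valuation
subrings are conjugate.

* `exists_smul_eq` : `A`, `B` over the prime `ℓ` ⇒ `∃ τ, τ • A = B`.
* `mem_inertiaSubgroupIn_smul_iff`, `mem_decompositionSubgroup_smul_iff` : the groups of `τ • A`.
* `exists_conj` : both statements packaged for consumers.
-/
import Mathlib
import Fermat.Agent.Lib.FrobeniusExists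
import Fermat.Agent.PT.Levels

set_option autoImplicit false

namespace Fermat.Agent.Lib.PlaceConj

open scoped Pointwise
open Fermat.Agent.Lib.FrobeniusExists

local notation "Qb" => AlgebraicClosure ℚ
local notation "GQ" => (AlgebraicClosure ℚ ≃ₐ[ℚ] AlgebraicClosure ℚ)
local notation "Zb" => integralClosure ℤ (AlgebraicClosure ℚ)

attribute [local instance] isAlgClosure_rat isGalois_rat galAction galAction_smulCommClass
  galAction_isInvariant zbTopology zbDiscrete galAction_continuousSMul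

/-- The prime ideal of the ring of algebraic integers cut out by a valuation subring. -/
noncomputable def primeBelow (A : ValuationSubring Qb) : Ideal Zb where
  carrier := {b | A.valuation (b : Qb) < 1}
  add_mem' := by
    intro a b ha hb
    exact lt_of_le_of_lt (A.valuation.map_add _ _) (max_lt ha hb)
  zero_mem' := by
    show A.valuation ((0 : Zb) : Qb) < 1
    simp
  smul_mem' := by
    intro c b hb
    show A.valuation ((c * b : Zb) : Qb) < 1
    have hc : A.valuation (c : Qb) ≤ 1 := val_le_one_of_isIntegral A.valuation c.2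
    have : ((c * b : Zb) : Qb) = (c : Qb) * (b : Qb) := rfl
    rw [this, map_mul, mul_comm]
    exact mul_lt_one_of_lt_of_le hb hc

theorem mem_primeBelow (A : ValuationSubring Qb) (b : Zb) :
    b ∈ primeBelow A ↔ A.valuation (b : Qb) < 1 := Iff.rfl

theorem primeBelow_isPrime (A : ValuationSubring Qb) : (primeBelow A).IsPrime := by
  refine ⟨?_, ?_⟩
  · intro h
    have h1 : (1 : Zb) ∈ primeBelow A := h ▸ Submodule.mem_top
    rw [mem_primeBelow] at h1
    simp at h1
  · intro a b hab
    rw [mem_primeBelow] at hab ⊢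
    rw [mem_primeBelow]
    have hmul : ((a * b : Zb) : Qb) = (a : Qb) * (b : Qb) := rfl
    rw [hmul, map_mul] at hab
    by_contra hcon
    push Not at hcon
    have ha : A.valuation (a : Qb) = 1 :=
      le_antisymm (val_le_one_of_isIntegral A.valuation a.2) hcon.1
    have hb : A.valuation (b : Qb) = 1 :=
      le_antisymm (val_le_one_of_isIntegral A.valuation b.2) hcon.2
    rw [ha, hb, one_mul] at hab
    exact lt_irrefl _ hab

theorem primeBelow_under {ℓ : ℕ} (hℓ : ℓ.Prime) (A : ValuationSubring Qb)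
    (hA : A.LiesOverPrime ℓ) : (primeBelow A).under ℤ = Ideal.span {(ℓ : ℤ)} := by
  have hvℓ : A.valuation (ℓ : Qb) < 1 := A.mem_nonunits_iff.mp hA
  have hPmax : (Ideal.span {(ℓ : ℤ)}).IsMaximal := by
    have : Fact ℓ.Prime := ⟨hℓ⟩
    exact Int.ideal_span_isMaximal_of_prime ℓ
  symm
  refine hPmax.eq_of_le ?_ ?_
  · intro h
    have h1 : (1 : ℤ) ∈ (primeBelow A).under ℤ := h ▸ Submodule.mem_top
    rw [Ideal.under_def, Ideal.mem_comap, map_one, mem_primeBelow] at h1
    simp at h1
  · rw [Ideal.span_singleton_le_iff_mem, Ideal.under_def, Ideal.mem_comap, mem_primeBelow]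
    simpa using hvℓ

/-- A valuation subring over `ℓ` is determined by its prime of algebraic integers. -/
theorem mem_iff_exists {ℓ : ℕ} (hℓ : ℓ.Prime) (A : ValuationSubring Qb)
    (hA : A.LiesOverPrime ℓ) (x : Qb) :
    x ∈ A ↔ ∃ s a : Zb, s ∉ primeBelow A ∧ (s : Qb) * x = (a : Qb) := by
  have hvℓ : A.valuation (ℓ : Qb) < 1 := A.mem_nonunits_iff.mp hA
  constructor
  · intro hx
    obtain ⟨s, hs, hvs, hsx⟩ := exists_unit_mul_isIntegral A.valuation hℓ hvℓ (isAlgebraic_int x)
      ((A.valuation_le_one_iff x).mpr hx)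
    refine ⟨⟨s, hs⟩, ⟨s * x, hsx⟩, ?_, rfl⟩
    rw [mem_primeBelow]
    show ¬ A.valuation s < 1
    rw [hvs]
    exact lt_irrefl _
  · rintro ⟨s, a, hs, hsx⟩
    rw [mem_primeBelow, not_lt] at hs
    have hs1 : A.valuation (s : Qb) = 1 :=
      le_antisymm (val_le_one_of_isIntegral A.valuation s.2) hs
    have ha : A.valuation (a : Qb) ≤ 1 := val_le_one_of_isIntegral A.valuation a.2
    rw [← hsx, map_mul, hs1, one_mul] at ha
    exact (A.valuation_le_one_iff x).mp ha

/-- The absolute Galois group of `ℚ` acts transitively on the valuation subrings of `ℚ̄` lying over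
a prime number `ℓ`. -/
theorem exists_smul_eq {ℓ : ℕ} (hℓ : ℓ.Prime) (A B : ValuationSubring Qb)
    (hA : A.LiesOverPrime ℓ) (hB : B.LiesOverPrime ℓ) : ∃ τ : GQ, τ • A = B := by
  have := primeBelow_isPrime A
  have := primeBelow_isPrime B
  obtain ⟨g, hg⟩ := Algebra.IsInvariant.exists_smul_of_under_eq_of_profinite (A := ℤ) (G := GQ)
    (primeBelow A) (primeBelow B) ((primeBelow_under hℓ A hA).trans (primeBelow_under hℓ B hB).symm)
  -- `s ∈ primeBelow B ↔ g⁻¹ s ∈ primeBelow A`
  have hmem : ∀ s : Zb, s ∈ primeBelow B ↔ g⁻¹ • s ∈ primeBelow A := fun s => by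
    rw [hg]
    exact Ideal.mem_pointwise_smul_iff_inv_smul_mem
  have key1 : ∀ x : Qb, x ∈ B → g⁻¹ x ∈ A := by
    intro x hx
    obtain ⟨s, a, hs, hsx⟩ := (mem_iff_exists hℓ B hB x).mp hx
    refine (mem_iff_exists hℓ A hA _).mpr ⟨g⁻¹ • s, g⁻¹ • a, fun h => hs ((hmem s).mpr h), ?_⟩
    rw [galAction_coe, galAction_coe, ← hsx, map_mul]
  have key2 : ∀ x : Qb, x ∈ A → g x ∈ B := by
    intro x hx
    obtain ⟨s, a, hs, hsx⟩ := (mem_iff_exists hℓ A hA x).mp hx
    refine (mem_iff_exists hℓ B hB _).mpr ⟨g • s, g • a, fun h => hs ?_, ?_⟩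
    · have := (hmem (g • s)).mp h
      rwa [inv_smul_smul] at this
    · rw [galAction_coe, galAction_coe, ← hsx, map_mul]
  refine ⟨g, le_antisymm ?_ ?_⟩
  · intro y hy
    rw [ValuationSubring.mem_pointwise_smul_iff_inv_smul_mem] at hy
    have h1 := key2 _ hy
    have h2 : g (g⁻¹ • y) = y := g.apply_symm_apply y
    rwa [h2] at h1
  · intro y hy
    rw [ValuationSubring.mem_pointwise_smul_iff_inv_smul_mem]
    exact key1 y hy

/-- The inertia group of `τ • A` is the `τ`-conjugate of the inertia group of `A`. -/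
theorem mem_inertiaSubgroupIn_smul_iff (A : ValuationSubring Qb) (τ σ : GQ) :
    τ * σ * τ⁻¹ ∈ (τ • A).inertiaSubgroupIn ℚ ↔ σ ∈ A.inertiaSubgroupIn ℚ := by
  constructor
  · intro h
    have h1 := Fermat.Agent.PT.Levels.conj_mem_inertiaSubgroupIn (τ • A) τ⁻¹ (τ * σ * τ⁻¹) h
    have e1 : τ⁻¹ * (τ * σ * τ⁻¹) * τ⁻¹⁻¹ = σ := by group
    have e2 : τ⁻¹ • τ • A = A := inv_smul_smul τ A
    rwa [e1, e2] at h1
  · exact Fermat.Agent.PT.Levels.conj_mem_inertiaSubgroupIn A τ σ

/-- The decomposition group of `τ • A` is the `τ`-conjugate of the decomposition group of `A`. -/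
theorem mem_decompositionSubgroup_smul_iff (A : ValuationSubring Qb) (τ σ : GQ) :
    τ * σ * τ⁻¹ ∈ (τ • A).decompositionSubgroup ℚ ↔ σ ∈ A.decompositionSubgroup ℚ := by
  show (τ * σ * τ⁻¹) • (τ • A) = τ • A ↔ σ • A = A
  rw [smul_smul, inv_mul_cancel_right, mul_smul]
  constructor
  · intro h
    have := congrArg (fun V => τ⁻¹ • V) h
    simpa only [inv_smul_smul] using this
  · intro h
    rw [h]

/-- Packaged form: two valuation subrings over the same prime are conjugate, together with their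
inertia and decomposition groups. -/
theorem exists_conj {ℓ : ℕ} (hℓ : ℓ.Prime) (A B : ValuationSubring Qb)
    (hA : A.LiesOverPrime ℓ) (hB : B.LiesOverPrime ℓ) :
    ∃ τ : GQ, τ • A = B ∧
      (∀ σ : GQ, τ * σ * τ⁻¹ ∈ B.inertiaSubgroupIn ℚ ↔ σ ∈ A.inertiaSubgroupIn ℚ) ∧
      (∀ σ : GQ, τ * σ * τ⁻¹ ∈ B.decompositionSubgroup ℚ ↔ σ ∈ A.decompositionSubgroup ℚ) := by
  obtain ⟨τ, rfl⟩ := exists_smul_eq hℓ A B hA hB
  exact ⟨τ, rfl, mem_inertiaSubgroupIn_smul_iff A τ, mem_decompositionSubgroup_smul_iff A τ⟩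

end Fermat.Agent.Lib.PlaceConj
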