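/-
Tame inertia at `q ≠ p` inside the absolute Galois group of `ℚ`, in the `ValuationSubring`
language of the Prelude (task TW-TAME).

* `tame_proportional` : two additive level-constant functions on the inertia group at `q ≠ p`
  with values in a field of characteristic `p` are proportional (the maximal pro-`p` quotient of
  inertia at `q` is procyclic).
* `tame_conj_invariant` : if `q ≡ 1 mod p`, such a function is invariant under conjugation by the
  decomposition group (Frobenius acts on the tame quotient through `q`).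
* `decomposition_eq_frobenius_pow_mul_inertia` : at every finite level the decomposition group is
  generated by a Frobenius element and inertia (stated in `Lib/Tame/Frob.lean`).

The proofs live in `Lib/Tame/Core.lean` (valuations, the tame character `thetaHom`),
`Lib/Tame/Char.lean` (the first two statements with `LevelConst` unfolded) and
`Lib/Tame/Frob.lean`; none of them depends on `TW/Defs.lean`.
-/
import Mathlib
import Fermat.Agent.TW.Defs
import Fermat.Agent.Lib.Tame.Frob

set_option autoImplicit false

namespace Fermat.Agent.Lib.Tame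

open Fermat.Agent.TW

local notation "GQ" => (AlgebraicClosure ℚ ≃ₐ[ℚ] AlgebraicClosure ℚ)

/-- **Tame inertia is procyclic (mod `p` form).** Two additive level-constant functions on the
inertia group at `q ≠ p` with values in a field of characteristic `p` are proportional. -/
theorem tame_proportional {k : Type} [Field k] (p q : ℕ) [Fact p.Prime] (hq : q.Prime)
    (hqp : q ≠ p) (hk : (p : k) = 0) (P : ValuationSubring (AlgebraicClosure ℚ))
    (hP : P.LiesOverPrime q) (f g : GQ → k)
    (hf : ∀ σ ∈ P.inertiaSubgroupIn ℚ, ∀ τ ∈ P.inertiaSubgroupIn ℚ, f (σ * τ) = f σ + f τ)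
    (hfc : LevelConst f)
    (hg : ∀ σ ∈ P.inertiaSubgroupIn ℚ, ∀ τ ∈ P.inertiaSubgroupIn ℚ, g (σ * τ) = g σ + g τ)
    (hgc : LevelConst g) (hg0 : ∃ σ ∈ P.inertiaSubgroupIn ℚ, g σ ≠ 0) :
    ∃ x : k, ∀ σ ∈ P.inertiaSubgroupIn ℚ, f σ = x * g σ :=
  tame_proportional_core p q hq hqp hk P hP f g hf hfc hg hgc hg0

/-- **Conjugation by the decomposition group acts trivially on the mod `p` tame quotient when
`q ≡ 1 mod p`.** -/
theorem tame_conj_invariant {k : Type} [Field k] (p q : ℕ) [Fact p.Prime] (hq : q.Prime)
    (hqp : p ∣ q - 1) (hk : (p : k) = 0) (P : ValuationSubring (AlgebraicClosure ℚ))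
    (hP : P.LiesOverPrime q) (f : GQ → k)
    (hf : ∀ σ ∈ P.inertiaSubgroupIn ℚ, ∀ τ ∈ P.inertiaSubgroupIn ℚ, f (σ * τ) = f σ + f τ)
    (hfc : LevelConst f) (φ : GQ) (hφ : φ ∈ P.decompositionSubgroup ℚ) :
    ∀ τ ∈ P.inertiaSubgroupIn ℚ, f (φ * τ * φ⁻¹) = f τ :=
  tame_conj_invariant_core p q hq hqp hk P hP f hf hfc φ hφ

end Fermat.Agent.Lib.Tame
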