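/-
Tame inertia at `q ≠ p` inside `G_ℚ` (ValuationSubring language): additive level-constant
functions on an inertia group at `q` with values in a field of characteristic `p ≠ q` are
proportional (`tame_proportional`).

Route (no ramification filtration, no completion): for a uniformiser `π` of a finite Galois level
`L` at `P`, `θ σ = residue (σ π / π)` is a homomorphism from inertia to the units of the residue
field, with finite hence cyclic image; an element of its kernel acts on `L` through a `q`-group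
(averaging argument), so additive functions of level `L` to characteristic `p ≠ q` kill the kernel.
-/
import Mathlib
import Fermat.Prelude.Def_FLTPrelim_Ramification
import Fermat.Agent.Lib.GalQbar
import Fermat.Agent.Lib.FrobeniusExists
import Fermat.Agent.PT.Levels
import Fermat.Agent.PT.G.DecompBasic
import Fermat.Agent.PT.G.PlaceDict

set_option autoImplicit false
set_option linter.style.haveILetI false

namespace Fermat.Agent.Lib.TameProp

local notation "Qb" => AlgebraicClosure ℚ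
local notation "GQ" => (AlgebraicClosure ℚ ≃ₐ[ℚ] AlgebraicClosure ℚ)

open Fermat.Agent.Lib.FrobeniusExists

attribute [local instance] Fermat.Agent.Lib.GalQbar.isAlgClosure_rat
  Fermat.Agent.Lib.GalQbar.isGalois_rat Fermat.Agent.Lib.GalQbar.isAlgebraic_rat
  Fermat.Agent.Lib.GalQbar.normal_rat

variable (P : ValuationSubring Qb)

/-- `u ≡ 1` modulo the maximal ideal of `P`. -/
def U1 (u : Qb) : Prop := P.valuation (u - 1) < 1

variable {P}

theorem U1.val_eq_one {u : Qb} (h : U1 P u) : P.valuation u = 1 := by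
  have e : u = 1 + (u - 1) := by ring
  rw [e, Valuation.map_add_eq_of_lt_left _ (by rw [map_one]; exact h), map_one]

theorem U1.ne_zero {u : Qb} (h : U1 P u) : u ≠ 0 := by
  rintro rfl
  have := h.val_eq_one
  rw [map_zero] at this
  exact zero_ne_one this

theorem U1.one : U1 P 1 := by
  show P.valuation (1 - 1) < 1
  rw [sub_self, map_zero]
  exact zero_lt_one

theorem U1.mul {u w : Qb} (hu : U1 P u) (hw : U1 P w) : U1 P (u * w) := by
  show P.valuation (u * w - 1) < 1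
  have e : u * w - 1 = (u - 1) * w + (w - 1) := by ring
  rw [e]
  refine lt_of_le_of_lt (P.valuation.map_add _ _) (max_lt ?_ hw)
  rw [map_mul, hw.val_eq_one, mul_one]
  exact hu

theorem U1.inv {u : Qb} (hu : U1 P u) : U1 P u⁻¹ := by
  have h1 := hu.val_eq_one
  have hu0 := hu.ne_zero
  show P.valuation (u⁻¹ - 1) < 1
  have e : u⁻¹ - 1 = -(u - 1) * u⁻¹ := by
    field_simp
    ring
  rw [e, map_mul, Valuation.map_neg, map_inv₀, h1, inv_one, mul_one]
  exact hu

theorem U1.pow {u : Qb} (hu : U1 P u) (n : ℕ) : U1 P (u ^ n) := by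
  induction n with
  | zero => rw [pow_zero]; exact U1.one
  | succ n ih => rw [pow_succ]; exact ih.mul hu

theorem U1.zpow {u : Qb} (hu : U1 P u) (n : ℤ) : U1 P (u ^ n) := by
  cases n with
  | ofNat n => rw [Int.ofNat_eq_natCast, zpow_natCast]; exact hu.pow n
  | negSucc n => rw [zpow_negSucc]; exact (hu.pow (n + 1)).inv

/-! ### Inertia -/

theorem mem_decomp {σ : GQ} (hσ : σ ∈ P.inertiaSubgroupIn ℚ) :
    σ ∈ P.decompositionSubgroup ℚ :=
  ((Fermat.Agent.PT.Levels.mem_inertiaSubgroupIn_iff P σ).1 hσ).1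

theorem val_apply {σ : GQ} (hσ : σ ∈ P.inertiaSubgroupIn ℚ) (x : Qb) :
    P.valuation (σ x) = P.valuation x :=
  Fermat.Agent.PT.G.valuation_apply_eq_of_mem_decomp (mem_decomp hσ) x

theorem val_sub_lt {σ : GQ} (hσ : σ ∈ P.inertiaSubgroupIn ℚ) {u : Qb}
    (hu : P.valuation u ≤ 1) : P.valuation (σ u - u) < 1 :=
  P.mem_nonunits_iff.mp (((Fermat.Agent.PT.Levels.mem_inertiaSubgroupIn_iff P σ).1 hσ).2 u
    ((P.valuation_le_one_iff u).1 hu))

/-- `σ u / u ≡ 1` for a unit `u` and `σ` in the inertia group. -/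
theorem U1_ratio_of_unit {σ : GQ} (hσ : σ ∈ P.inertiaSubgroupIn ℚ) {u : Qb}
    (hu : P.valuation u = 1) : U1 P (σ u / u) := by
  have hu0 : u ≠ 0 := by
    rintro rfl
    rw [map_zero] at hu
    exact zero_ne_one hu
  show P.valuation (σ u / u - 1) < 1
  have e : σ u / u - 1 = (σ u - u) / u := by
    field_simp
  rw [e, map_div₀, hu, div_one]
  exact val_sub_lt hσ hu.le

theorem val_ratio {σ : GQ} (hσ : σ ∈ P.inertiaSubgroupIn ℚ) {π : Qb} (hπ : π ≠ 0) :
    P.valuation (σ π / π) = 1 := by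
  rw [map_div₀, val_apply hσ, div_self]
  exact (Valuation.ne_zero_iff _).2 hπ

theorem ratio_mem {σ : GQ} (hσ : σ ∈ P.inertiaSubgroupIn ℚ) {π : Qb} (hπ : π ≠ 0) :
    σ π / π ∈ P := by
  rw [← P.valuation_le_one_iff, val_ratio hσ hπ]

/-! ### The tame character attached to `π` -/

variable (P)

/-- The tame character `σ ↦ residue (σ π / π)` on the inertia group. -/
noncomputable def theta (π : Qb) (hπ : π ≠ 0) :
    ↥(P.inertiaSubgroupIn ℚ) →* IsLocalRing.ResidueField ↥P where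
  toFun σ := IsLocalRing.residue ↥P ⟨(σ : GQ) π / π, ratio_mem σ.2 hπ⟩
  map_one' := by
    have e : (⟨((1 : ↥(P.inertiaSubgroupIn ℚ)) : GQ) π / π,
        ratio_mem (1 : ↥(P.inertiaSubgroupIn ℚ)).2 hπ⟩ : ↥P) = 1 := by
      apply Subtype.ext
      show (1 : GQ) π / π = 1
      rw [AlgEquiv.one_apply, div_self hπ]
    rw [e, map_one]
  map_mul' σ τ := by
    rw [← map_mul, ← sub_eq_zero, ← map_sub, IsLocalRing.residue_eq_zero_iff,
      P.valuation_lt_one_iff]
    show P.valuation (((σ : GQ) * (τ : GQ)) π / π - (σ : GQ) π / π * ((τ : GQ) π / π)) < 1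
    have e : ((σ : GQ) * (τ : GQ)) π / π - (σ : GQ) π / π * ((τ : GQ) π / π) =
        (σ : GQ) π / π * ((σ : GQ) ((τ : GQ) π / π) - (τ : GQ) π / π) := by
      have h1 : (σ : GQ) π ≠ 0 := by simpa using hπ
      rw [AlgEquiv.mul_apply, map_div₀]
      field_simp
    rw [e, map_mul, val_ratio σ.2 hπ, one_mul]
    exact val_sub_lt σ.2 (val_ratio τ.2 hπ).le

theorem theta_eq_one_iff (π : Qb) (hπ : π ≠ 0) (σ : ↥(P.inertiaSubgroupIn ℚ)) :
    theta P π hπ σ = 1 ↔ U1 P ((σ : GQ) π / π) := by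
  show IsLocalRing.residue ↥P ⟨(σ : GQ) π / π, ratio_mem σ.2 hπ⟩ = 1 ↔ _
  rw [← map_one (IsLocalRing.residue ↥P), ← sub_eq_zero, ← map_sub,
    IsLocalRing.residue_eq_zero_iff, P.valuation_lt_one_iff]
  rfl

/-- The image of the tame character is cyclic: some `t` generates it. -/
theorem exists_generator (π : Qb) (hπ : π ≠ 0) :
    ∃ t : ↥(P.inertiaSubgroupIn ℚ), ∀ σ : ↥(P.inertiaSubgroupIn ℚ),
      ∃ n : ℤ, theta P π hπ (σ * t ^ (-n)) = 1 := by
  classical
  set Θ := (theta P π hπ).toHomUnits with hΘ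
  have hroot : ((minpoly ℚ π).rootSet Qb).Finite := Polynomial.rootSet_finite _ _
  haveI := hroot.to_subtype
  have hmem : ∀ σ : GQ, σ π ∈ (minpoly ℚ π).rootSet Qb := by
    intro σ
    rw [Polynomial.mem_rootSet]
    refine ⟨minpoly.ne_zero (Algebra.IsIntegral.isIntegral π), ?_⟩
    have h := Polynomial.aeval_algHom_apply (σ : Qb →ₐ[ℚ] Qb) π (minpoly ℚ π)
    rw [minpoly.aeval, map_zero] at h
    exact h
  have hdep : ∀ σ σ' : ↥(P.inertiaSubgroupIn ℚ), (σ : GQ) π = (σ' : GQ) π → Θ σ = Θ σ' := by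
    intro σ σ' h
    apply Units.ext
    rw [hΘ, MonoidHom.coe_toHomUnits, MonoidHom.coe_toHomUnits]
    show IsLocalRing.residue ↥P ⟨(σ : GQ) π / π, _⟩ = IsLocalRing.residue ↥P ⟨(σ' : GQ) π / π, _⟩
    congr 2
    rw [h]
  haveI hfin : Finite Θ.range := by
    refine Finite.of_injective (fun g : Θ.range =>
      (⟨((Classical.choose g.2 : ↥(P.inertiaSubgroupIn ℚ)) : GQ) π, hmem _⟩ :
        (minpoly ℚ π).rootSet Qb)) ?_
    intro g g' hgg
    have h1 := Classical.choose_spec g.2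
    have h2 := Classical.choose_spec g'.2
    have h3 : ((Classical.choose g.2 : ↥(P.inertiaSubgroupIn ℚ)) : GQ) π =
        ((Classical.choose g'.2 : ↥(P.inertiaSubgroupIn ℚ)) : GQ) π := congrArg Subtype.val hgg
    apply Subtype.ext
    rw [← h1, ← h2]
    exact hdep _ _ h3
  obtain ⟨g, hg⟩ := IsCyclic.exists_generator (α := Θ.range)
  obtain ⟨t, ht⟩ := g.2
  refine ⟨t, fun σ => ?_⟩
  obtain ⟨n, hn⟩ := Subgroup.mem_zpowers_iff.1 (hg ⟨Θ σ, σ, rfl⟩)
  refine ⟨n, ?_⟩
  have hn' : Θ t ^ n = Θ σ := by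
    rw [ht]
    have := congrArg Subtype.val hn
    simpa using this
  have h1 : Θ (σ * t ^ (-n)) = 1 := by
    rw [map_mul, map_zpow, zpow_neg, hn', mul_inv_cancel]
  have h2 := congrArg Units.val h1
  rwa [hΘ, MonoidHom.coe_toHomUnits, Units.val_one] at h2

variable {P}

/-! ### The averaging argument -/

/-- An element acting on `L` with order prime to `q` and with `τ x / x ≡ 1` on `L` is trivial
on `L`. -/
theorem fixes_of_not_dvd {q : ℕ} (hq : q.Prime) (hP : P.LiesOverPrime q)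
    (L : IntermediateField ℚ Qb) (hL : ∀ σ : GQ, ∀ y ∈ L, σ y ∈ L) {τ : GQ}
    (hU : ∀ x ∈ L, x ≠ 0 → U1 P (τ x / x)) (m : ℕ) (hm : ¬ q ∣ m)
    (hτm : ∀ y ∈ L, (τ ^ m) y = y) : ∀ y ∈ L, τ y = y := by
  intro y hy
  by_contra hne
  have hx0 : τ y - y ≠ 0 := sub_ne_zero.2 hne
  have hxL : τ y - y ∈ L := L.sub_mem (hL τ y hy) hy
  set x := τ y - y with hx
  have hpowL : ∀ i : ℕ, (τ ^ i) x ∈ L := fun i => hL _ x hxL
  have hpow0 : ∀ i : ℕ, (τ ^ i) x ≠ 0 := fun i => (map_ne_zero_iff _ (τ ^ i).injective).2 hx0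
  have hU' : ∀ i : ℕ, U1 P ((τ ^ i) x / x) := by
    intro i
    induction i with
    | zero => rw [pow_zero, AlgEquiv.one_apply, div_self hx0]; exact U1.one
    | succ i ih =>
      have e : (τ ^ (i + 1)) x / x = (τ ((τ ^ i) x) / (τ ^ i) x) * ((τ ^ i) x / x) := by
        have h0 := hpow0 i
        rw [pow_succ', AlgEquiv.mul_apply]
        field_simp
      rw [e]
      exact (hU _ (hpowL i) (hpow0 i)).mul ih
  have hsum : ∑ i ∈ Finset.range m, (τ ^ i) x = 0 := by
    have h1 : ∀ i : ℕ, (τ ^ i) x = (τ ^ (i + 1)) y - (τ ^ i) y := by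
      intro i
      rw [hx, map_sub, pow_succ, AlgEquiv.mul_apply]
    rw [Finset.sum_congr rfl (fun i _ => h1 i), Finset.sum_range_sub (fun i => (τ ^ i) y),
      hτm y hy, pow_zero, AlgEquiv.one_apply, sub_self]
  have hS : ∑ i ∈ Finset.range m, ((τ ^ i) x / x) = 0 := by
    rw [← Finset.sum_div, hsum, zero_div]
  have hlt : P.valuation (∑ i ∈ Finset.range m, ((τ ^ i) x / x - 1)) < 1 :=
    Valuation.map_sum_lt _ one_ne_zero fun i _ => hU' i
  rw [Finset.sum_sub_distrib, hS, zero_sub, Finset.sum_const, Finset.card_range, nsmul_eq_mul,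
    mul_one, Valuation.map_neg] at hlt
  have hm1 : P.valuation (m : Qb) = 1 := by
    have := val_intCast_eq_one P.valuation hq (P.mem_nonunits_iff.mp hP) (n := (m : ℤ))
      (fun h => hm (Int.natCast_dvd_natCast.mp h))
    rwa [Int.cast_natCast] at this
  rw [hm1] at hlt
  exact lt_irrefl _ hlt

/-- Additive functions of level `L` with values in characteristic `p ≠ q` vanish on the kernel of
the tame character of a uniformiser of `L`. -/
theorem eq_zero_of_U1 {k : Type*} [Field k] {p q : ℕ} (hp : p.Prime) (hq : q.Prime)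
    (hqp : q ≠ p) (hk : (p : k) = 0) (hP : P.LiesOverPrime q)
    (L : IntermediateField ℚ Qb) [FiniteDimensional ℚ L] [Normal ℚ L]
    (π : Qb) (hπ0 : π ≠ 0)
    (hπ : ∀ x ∈ L, x ≠ 0 → ∃ n : ℤ, P.valuation x = P.valuation (π ^ n))
    (f : GQ → k)
    (hf : ∀ σ ∈ P.inertiaSubgroupIn ℚ, ∀ τ ∈ P.inertiaSubgroupIn ℚ, f (σ * τ) = f σ + f τ)
    (hfL : ∀ g s : GQ, (∀ x ∈ L, s x = x) → f (g * s) = f g)
    {σ : GQ} (hσ : σ ∈ P.inertiaSubgroupIn ℚ) (hσπ : U1 P (σ π / π)) : f σ = 0 := by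
  -- stability of `L`
  have hL : ∀ ρ : GQ, ∀ y ∈ L, ρ y ∈ L := by
    intro ρ y hy
    have h := AlgEquiv.restrictNormal_commutes ρ L ⟨y, hy⟩
    have h' : ρ y = ((ρ.restrictNormal L ⟨y, hy⟩ : L) : Qb) := h.symm
    rw [h']
    exact (ρ.restrictNormal L ⟨y, hy⟩).2
  -- (i) `σ x / x ≡ 1` on `L`
  have hi : ∀ x ∈ L, x ≠ 0 → U1 P (σ x / x) := by
    intro x hxL hx0
    obtain ⟨n, hn⟩ := hπ x hxL hx0
    have hπn : π ^ n ≠ 0 := zpow_ne_zero n hπ0
    have hu : P.valuation (x / π ^ n) = 1 := by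
      rw [map_div₀, hn, div_self]
      exact (Valuation.ne_zero_iff _).2 hπn
    have hσπn : σ (π ^ n) ≠ 0 := (map_ne_zero_iff _ σ.injective).2 hπn
    have e : σ x / x = (σ π / π) ^ n * (σ (x / π ^ n) / (x / π ^ n)) := by
      rw [map_div₀, div_zpow, ← map_zpow₀]
      field_simp
    rw [e]
    exact (hσπ.zpow n).mul (U1_ratio_of_unit hσ hu)
  -- (ii) the same for the powers of `σ`
  have hii : ∀ j : ℕ, ∀ x ∈ L, x ≠ 0 → U1 P ((σ ^ j) x / x) := by
    intro j
    induction j with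
    | zero =>
      intro x _ hx0
      rw [pow_zero, AlgEquiv.one_apply, div_self hx0]
      exact U1.one
    | succ j ih =>
      intro x hxL hx0
      have hσx0 : σ x ≠ 0 := by simpa using hx0
      have e : (σ ^ (j + 1)) x / x = ((σ ^ j) (σ x) / σ x) * (σ x / x) := by
        rw [pow_succ, AlgEquiv.mul_apply]
        field_simp
      rw [e]
      exact (ih (σ x) (hL σ x hxL) hσx0).mul (hi x hxL hx0)
  -- (iii) a power of `σ` is trivial on `L`
  obtain ⟨n, hn0, hn⟩ : ∃ n : ℕ, 0 < n ∧ ∀ y ∈ L, (σ ^ n) y = y := by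
    refine ⟨orderOf (AlgEquiv.restrictNormalHom L σ), orderOf_pos _, fun y hy => ?_⟩
    have h1 : AlgEquiv.restrictNormalHom L (σ ^ orderOf (AlgEquiv.restrictNormalHom L σ)) = 1 := by
      rw [map_pow, pow_orderOf_eq_one]
    have h2 := AlgEquiv.restrictNormal_commutes (σ ^ orderOf (AlgEquiv.restrictNormalHom L σ)) L
      ⟨y, hy⟩
    have h3 : (σ ^ orderOf (AlgEquiv.restrictNormalHom L σ)).restrictNormal L = 1 := h1
    rw [h3] at h2
    exact h2.symm
  -- (iv) split off the `q`-part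
  obtain ⟨a, m, hm, hnm⟩ := Nat.exists_eq_pow_mul_and_not_dvd hn0.ne' q hq.ne_one
  have hτI : σ ^ q ^ a ∈ P.inertiaSubgroupIn ℚ := Subgroup.pow_mem _ hσ _
  have hτ : ∀ y ∈ L, (σ ^ q ^ a) y = y := by
    refine fixes_of_not_dvd hq hP L hL (hii (q ^ a)) m hm fun y hy => ?_
    rw [← pow_mul, ← hnm]
    exact hn y hy
  -- (v) conclusion
  have hf1 : f 1 = 0 := by
    have h := hf 1 (Subgroup.one_mem _) 1 (Subgroup.one_mem _)
    rw [mul_one] at h
    exact left_eq_add.1 h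
  have hfτ : f (σ ^ q ^ a) = 0 := by
    have h := hfL 1 (σ ^ q ^ a) hτ
    rw [one_mul] at h
    rw [h, hf1]
  have hpow : ∀ j : ℕ, f (σ ^ j) = (j : k) * f σ := by
    intro j
    induction j with
    | zero => rw [pow_zero, hf1, Nat.cast_zero, zero_mul]
    | succ j ih =>
      rw [pow_succ, hf _ (Subgroup.pow_mem _ hσ j) σ hσ, ih, Nat.cast_succ, add_mul, one_mul]
  rw [hpow] at hfτ
  have hqk : (q : k) ≠ 0 := by
    intro h0
    have hcop : Nat.Coprime q p := (Nat.coprime_primes hq hp).2 hqp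
    have h1 : ((Nat.gcd q p : ℕ) : k) = 0 := by
      have := Nat.gcd_eq_gcd_ab q p
      have h2 : ((Nat.gcd q p : ℤ) : k) = 0 := by
        rw [this]
        push_cast
        rw [h0, hk, zero_mul, zero_mul, add_zero]
      exact_mod_cast h2
    rw [hcop.gcd_eq_one, Nat.cast_one] at h1
    exact one_ne_zero h1
  rcases mul_eq_zero.1 hfτ with h | h
  · exfalso
    rw [Nat.cast_pow] at h
    exact hqk (pow_eq_zero_iff (n := a) (by
      rintro rfl
      rw [pow_zero] at h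
      exact one_ne_zero h) |>.1 h)
  · exact h

/-- **Tame inertia is procyclic modulo `q`-groups**: two additive level-constant functions on an
inertia group at `q` with values in a field of characteristic `p ≠ q` are proportional. -/
theorem tame_proportional {k : Type*} [Field k] (p q : ℕ) (hp : p.Prime) (hq : q.Prime)
    (hqp : q ≠ p) (hk : (p : k) = 0) (P : ValuationSubring Qb) (hP : P.LiesOverPrime q)
    (f g : GQ → k)
    (hf : ∀ σ ∈ P.inertiaSubgroupIn ℚ, ∀ τ ∈ P.inertiaSubgroupIn ℚ, f (σ * τ) = f σ + f τ)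
    (hfc : ∃ F : IntermediateField ℚ Qb, FiniteDimensional ℚ F ∧
      ∀ g s : GQ, (∀ x ∈ F, s x = x) → f (g * s) = f g)
    (hg : ∀ σ ∈ P.inertiaSubgroupIn ℚ, ∀ τ ∈ P.inertiaSubgroupIn ℚ, g (σ * τ) = g σ + g τ)
    (hgc : ∃ F : IntermediateField ℚ Qb, FiniteDimensional ℚ F ∧
      ∀ g' s : GQ, (∀ x ∈ F, s x = x) → g (g' * s) = g g')
    (hg0 : ∃ σ ∈ P.inertiaSubgroupIn ℚ, g σ ≠ 0) :
    ∃ x : k, ∀ σ ∈ P.inertiaSubgroupIn ℚ, f σ = x * g σ := by
  obtain ⟨F, hF, hfF⟩ := hfc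
  obtain ⟨F', hF', hgF⟩ := hgc
  haveI : FiniteDimensional ℚ ↥(F ⊔ F') := IntermediateField.finiteDimensional_sup F F'
  set L : IntermediateField ℚ Qb := IntermediateField.normalClosure ℚ ↥(F ⊔ F') Qb with hLdef
  have hFL : F ⊔ F' ≤ L := (F ⊔ F').le_normalClosure
  haveI : FiniteDimensional ℚ L := normalClosure.is_finiteDimensional ℚ ↥(F ⊔ F') Qb
  haveI : Normal ℚ L := normalClosure.normal ℚ ↥(F ⊔ F') Qb
  haveI : NumberField L := Fermat.Agent.PT.PlaceDict.numberField L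
  obtain ⟨π, -, -, hπ1, hπ⟩ := Fermat.Agent.PT.PlaceDict.exists_uniformizer L hq hP
  have hπ0 : π ≠ 0 := by
    rintro rfl
    have hq0 : (q : Qb) ≠ 0 := by exact_mod_cast hq.ne_zero
    obtain ⟨n, hn⟩ := hπ (q : Qb) (natCast_mem L q) hq0
    rcases eq_or_ne n 0 with rfl | hn0
    · rw [zpow_zero, map_one] at hn
      exact (ne_of_lt (P.mem_nonunits_iff.mp hP)) hn
    · rw [zero_zpow n hn0, map_zero] at hn
      exact hq0 ((map_eq_zero _).mp hn)
  have hfL : ∀ g s : GQ, (∀ x ∈ L, s x = x) → f (g * s) = f g := fun g s hs =>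
    hfF g s fun x hx => hs x (hFL ((le_sup_left : F ≤ F ⊔ F') hx))
  have hgL : ∀ g' s : GQ, (∀ x ∈ L, s x = x) → g (g' * s) = g g' := fun g' s hs =>
    hgF g' s fun x hx => hs x (hFL ((le_sup_right : F' ≤ F ⊔ F') hx))
  obtain ⟨t, ht⟩ := exists_generator P π hπ0
  -- every additive function of level `L` is determined by its value at `t`
  have key : ∀ (h : GQ → k),
      (∀ σ ∈ P.inertiaSubgroupIn ℚ, ∀ τ ∈ P.inertiaSubgroupIn ℚ, h (σ * τ) = h σ + h τ) →
      (∀ g s : GQ, (∀ x ∈ L, s x = x) → h (g * s) = h g) →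
      ∀ σ : ↥(P.inertiaSubgroupIn ℚ), ∀ n : ℤ, theta P π hπ0 (σ * t ^ (-n)) = 1 →
        h (σ : GQ) = (n : k) * h (t : GQ) := by
    intro h hh hhL σ n hn
    have h1 : h 1 = 0 := by
      have e := hh 1 (Subgroup.one_mem _) 1 (Subgroup.one_mem _)
      rw [mul_one] at e
      exact left_eq_add.1 e
    have hnat : ∀ j : ℕ, h ((t : GQ) ^ j) = (j : k) * h (t : GQ) := by
      intro j
      induction j with
      | zero => rw [pow_zero, h1, Nat.cast_zero, zero_mul]
      | succ j ih =>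
        rw [pow_succ, hh _ (Subgroup.pow_mem _ t.2 j) _ t.2, ih, Nat.cast_succ, add_mul, one_mul]
    have hinv : ∀ ρ ∈ P.inertiaSubgroupIn ℚ, h ρ⁻¹ = - h ρ := by
      intro ρ hρ
      have e := hh ρ hρ ρ⁻¹ (Subgroup.inv_mem _ hρ)
      rw [mul_inv_cancel, h1] at e
      exact eq_neg_of_add_eq_zero_right e.symm
    have hz : ∀ j : ℤ, h ((t : GQ) ^ j) = (j : k) * h (t : GQ) := by
      intro j
      cases j with
      | ofNat j => rw [Int.ofNat_eq_natCast, zpow_natCast, hnat, Int.cast_natCast]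
      | negSucc j =>
        rw [zpow_negSucc, hinv _ (Subgroup.pow_mem _ t.2 _), hnat, Int.cast_negSucc, neg_mul]
    have h0 : h ((σ : GQ) * (t : GQ) ^ (-n)) = 0 := by
      have hmem : (σ : GQ) * (t : GQ) ^ (-n) ∈ P.inertiaSubgroupIn ℚ :=
        Subgroup.mul_mem _ σ.2 (Subgroup.zpow_mem _ t.2 _)
      have hU := (theta_eq_one_iff P π hπ0 (σ * t ^ (-n))).1 hn
      exact eq_zero_of_U1 hp hq hqp hk hP L π hπ0 hπ h hh hhL hmem hU
    have h2 := hh _ (Subgroup.mul_mem _ σ.2 (Subgroup.zpow_mem _ t.2 (-n))) _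
      (Subgroup.zpow_mem _ t.2 n)
    rw [mul_assoc, ← zpow_add, neg_add_cancel, zpow_zero, mul_one, h0, zero_add, hz] at h2
    exact h2
  have hgt : g (t : GQ) ≠ 0 := by
    intro h0
    obtain ⟨σ, hσ, hne⟩ := hg0
    obtain ⟨n, hn⟩ := ht ⟨σ, hσ⟩
    exact hne (by rw [key g hg hgL ⟨σ, hσ⟩ n hn, h0, mul_zero])
  refine ⟨f (t : GQ) / g (t : GQ), fun σ hσ => ?_⟩
  obtain ⟨n, hn⟩ := ht ⟨σ, hσ⟩
  rw [key f hf hfL ⟨σ, hσ⟩ n hn, key g hg hgL ⟨σ, hσ⟩ n hn]
  field_simp

end Fermat.Agent.Lib.TameProp
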