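import Mathlib
import Fermat.Prelude.Def_GaloisRep_CompletionBridge
import Fermat.Agent.Lib.FrobeniusExists
import Fermat.Agent.PT.Levels

/-!
# The absolute Galois group of `ℚ` acts transitively on the valuation subrings of `ℚ̄` over a prime

* `exists_smul_eq_of_liesOverPrime` : two valuation subrings of `ℚ̄` lying over the same prime
  number are conjugate under `Gal(ℚ̄/ℚ)`;
* `centre`, `mem_iff_exists` : a valuation subring over `ℓ` is the localisation of the ring of
  algebraic integers at its centre;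
* `decompositionSubgroup_smul`, `mem_decompositionSubgroup_smul_iff`,
  `mem_inertiaSubgroupIn_smul_iff`, `inertiaSubgroupIn_smul` : the decomposition and inertia
  groups of `τ • P` are the `τ`-conjugates of those of `P`.
-/

set_option autoImplicit false

namespace Fermat.Agent.Lib.ValConj

open scoped Pointwise
open Fermat.Agent.Lib.FrobeniusExists

local notation "Qb" => AlgebraicClosure ℚ
local notation "GQ" => (AlgebraicClosure ℚ ≃ₐ[ℚ] AlgebraicClosure ℚ)
local notation "Zb" => integralClosure ℤ (AlgebraicClosure ℚ)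

attribute [local instance] isGalois_rat galAction galAction_smulCommClass zbTopology zbDiscrete

/-! ### The centre of a valuation subring -/

theorem zb_le (P : ValuationSubring Qb) : (Zb).toSubring ≤ P.toSubring := fun b hb =>
  (P.valuation_le_one_iff b).mp (val_le_one_of_isIntegral P.valuation hb)

/-- The centre of a valuation subring of `ℚ̄` on the ring of algebraic integers. -/
noncomputable def centre (P : ValuationSubring Qb) : Ideal Zb :=
  (IsLocalRing.maximalIdeal P).comap (Subring.inclusion (zb_le P))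

theorem mem_centre (P : ValuationSubring Qb) (b : Zb) :
    b ∈ centre P ↔ P.valuation (b : Qb) < 1 := by
  show Subring.inclusion (zb_le P) b ∈ IsLocalRing.maximalIdeal P ↔ _
  rw [P.valuation_lt_one_iff]
  rfl

theorem centre_isPrime (P : ValuationSubring Qb) : (centre P).IsPrime :=
  Ideal.comap_isPrime _ _

theorem centre_under {ℓ : ℕ} (hℓ : ℓ.Prime) (P : ValuationSubring Qb) (hP : P.LiesOverPrime ℓ) :
    (centre P).under ℤ = Ideal.span {(ℓ : ℤ)} := by
  have hvℓ : P.valuation (ℓ : Qb) < 1 := P.mem_nonunits_iff.mp hP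
  have : Fact ℓ.Prime := ⟨hℓ⟩
  have hPmax : (Ideal.span {(ℓ : ℤ)}).IsMaximal := Int.ideal_span_isMaximal_of_prime ℓ
  symm
  refine hPmax.eq_of_le ?_ ?_
  · intro h
    have h1 : (1 : ℤ) ∈ (centre P).under ℤ := h ▸ Submodule.mem_top
    rw [Ideal.under_def, Ideal.mem_comap, map_one, mem_centre] at h1
    simp at h1
  · rw [Ideal.span_singleton_le_iff_mem, Ideal.under_def, Ideal.mem_comap, mem_centre]
    simpa using hvℓ

/-- A valuation subring of `ℚ̄` over `ℓ` is the localisation of the ring of algebraic integers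
at its centre. -/
theorem mem_iff_exists {ℓ : ℕ} (hℓ : ℓ.Prime) (P : ValuationSubring Qb)
    (hP : P.LiesOverPrime ℓ) (x : Qb) :
    x ∈ P ↔ ∃ s : Zb, s ∉ centre P ∧ IsIntegral ℤ ((s : Qb) * x) := by
  have hvℓ : P.valuation (ℓ : Qb) < 1 := P.mem_nonunits_iff.mp hP
  constructor
  · intro hx
    obtain ⟨s, hs, hvs, hsx⟩ := exists_unit_mul_isIntegral P.valuation hℓ hvℓ (isAlgebraic_int x)
      ((P.valuation_le_one_iff x).mpr hx)
    refine ⟨⟨s, hs⟩, ?_, hsx⟩
    rw [mem_centre, hvs]
    exact lt_irrefl _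
  · rintro ⟨s, hs, hsx⟩
    rw [mem_centre, not_lt] at hs
    have hs1 : P.valuation (s : Qb) = 1 :=
      le_antisymm (val_le_one_of_isIntegral P.valuation s.2) hs
    have h1 := val_le_one_of_isIntegral P.valuation hsx
    rw [map_mul, hs1, one_mul] at h1
    exact (P.valuation_le_one_iff x).mp h1

/-! ### Transitivity -/

/-- **The absolute Galois group of `ℚ` acts transitively on the valuation subrings of `ℚ̄` lying
over a given prime number.** -/
theorem exists_smul_eq_of_liesOverPrime {ℓ : ℕ} (hℓ : ℓ.Prime) (P P' : ValuationSubring Qb)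
    (hP : P.LiesOverPrime ℓ) (hP' : P'.LiesOverPrime ℓ) : ∃ τ : GQ, P' = τ • P := by
  have := centre_isPrime P
  have := centre_isPrime P'
  have := galAction_isInvariant
  have := galAction_continuousSMul
  obtain ⟨τ, hτ⟩ := Algebra.IsInvariant.exists_smul_of_under_eq_of_profinite (A := ℤ) (G := GQ)
    (centre P) (centre P') (by rw [centre_under hℓ P hP, centre_under hℓ P' hP'])
  refine ⟨τ, ?_⟩
  apply SetLike.ext
  intro x
  rw [ValuationSubring.mem_pointwise_smul_iff_inv_smul_mem, mem_iff_exists hℓ P' hP',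
    mem_iff_exists hℓ P hP]
  constructor
  · rintro ⟨s, hs, hsx⟩
    refine ⟨τ⁻¹ • s, ?_, ?_⟩
    · intro h
      apply hs
      rw [hτ, Ideal.mem_pointwise_smul_iff_inv_smul_mem]
      exact h
    · have h1 : (((τ⁻¹ • s : Zb) : Qb)) * (τ⁻¹ • x) = τ⁻¹ ((s : Qb) * x) := by
        rw [map_mul]
        rfl
      rw [h1]
      exact map_isIntegral_int τ⁻¹ hsx
  · rintro ⟨s, hs, hsx⟩
    refine ⟨τ • s, ?_, ?_⟩
    · intro h
      apply hs
      rw [hτ] at h
      exact Ideal.smul_mem_pointwise_smul_iff.mp h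
    · have h1 : (((τ • s : Zb) : Qb)) * x = τ ((s : Qb) * (τ⁻¹ • x)) := by
        rw [map_mul]
        have h2 : τ (τ⁻¹ • x) = x := τ.apply_symm_apply x
        rw [h2]
        rfl
      rw [h1]
      exact map_isIntegral_int τ hsx

/-! ### Decomposition and inertia groups of conjugates -/

theorem liesOverPrime_smul {P : ValuationSubring Qb} {ℓ : ℕ} (hP : P.LiesOverPrime ℓ) (τ : GQ) :
    (τ • P).LiesOverPrime ℓ :=
  Fermat.Agent.PT.Levels.liesOverPrime_smul hP τ

/-- The decomposition group of `τ • P` is the `τ`-conjugate of the decomposition group of `P`. -/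
theorem decompositionSubgroup_smul (τ : GQ) (P : ValuationSubring Qb) :
    (τ • P).decompositionSubgroup ℚ =
      (P.decompositionSubgroup ℚ).map (MulAut.conj τ).toMonoidHom :=
  MulAction.stabilizer_smul_eq_stabilizer_map_conj τ P

theorem mem_decompositionSubgroup_smul_iff (τ σ : GQ) (P : ValuationSubring Qb) :
    σ ∈ (τ • P).decompositionSubgroup ℚ ↔ τ⁻¹ * σ * τ ∈ P.decompositionSubgroup ℚ := by
  show σ • τ • P = τ • P ↔ (τ⁻¹ * σ * τ) • P = P
  rw [mul_smul, mul_smul, inv_smul_eq_iff]

/-- The inertia group of `τ • P` is the `τ`-conjugate of the inertia group of `P`. -/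
theorem mem_inertiaSubgroupIn_smul_iff (τ σ : GQ) (P : ValuationSubring Qb) :
    σ ∈ (τ • P).inertiaSubgroupIn ℚ ↔ τ⁻¹ * σ * τ ∈ P.inertiaSubgroupIn ℚ := by
  constructor
  · intro h
    have h1 := Fermat.Agent.PT.Levels.conj_mem_inertiaSubgroupIn (τ • P) τ⁻¹ σ h
    rwa [inv_inv, inv_smul_smul] at h1
  · intro h
    have h1 := Fermat.Agent.PT.Levels.conj_mem_inertiaSubgroupIn P τ (τ⁻¹ * σ * τ) h
    have e : τ * (τ⁻¹ * σ * τ) * τ⁻¹ = σ := by group
    rwa [e] at h1

theorem inertiaSubgroupIn_smul (τ : GQ) (P : ValuationSubring Qb) :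
    (τ • P).inertiaSubgroupIn ℚ =
      (P.inertiaSubgroupIn ℚ).map (MulAut.conj τ).toMonoidHom := by
  ext σ
  rw [mem_inertiaSubgroupIn_smul_iff, Subgroup.mem_map]
  constructor
  · intro h
    refine ⟨_, h, ?_⟩
    show τ * (τ⁻¹ * σ * τ) * τ⁻¹ = σ
    group
  · rintro ⟨g, hg, rfl⟩
    have e : τ⁻¹ * (MulAut.conj τ).toMonoidHom g * τ = g := by
      show τ⁻¹ * (τ * g * τ⁻¹) * τ = g
      group
    rwa [e]

end Fermat.Agent.Lib.ValConj
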